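import Fermat.Agent.HT.NssBi

/-!
# Program MW (S17), leaf (CONE): the zero locus of the homogeneous ideal of relations

`φ : ι → F` a family of elements of a commutative `K`-algebra `F` (a basis of `L(nP₀)` in the
function field of a curve).  `htcnIdeal φ` is the homogeneous ideal of all polynomials whose
homogeneous components vanish at `φ`.  Its zero locus is the cone over the points
`(χ (φ i))_i`, `χ` a `K`-algebra homomorphism from `K[φ]` to `K`, plus (under a hypothesis that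
says that `φ i ^ n` has smaller pole order than `φ top ^ n`) the single line through `e_top`.
Consequence: Nullstellensatz certificates for families of forms without base point on the curve,
as identities in `F`.  Prefix `htcn_`.
-/

set_option linter.unusedSimpArgs false

noncomputable section

namespace Fermat.Agent.HT

open MvPolynomial

/-! ### scaling of weighted homogeneous polynomials -/

theorem htcn_eval_mul_pow {σ R : Type*} [CommSemiring R] (w : σ → ℕ) {n : ℕ}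
    {f : MvPolynomial σ R} (hf : IsWeightedHomogeneous w f n) (c : R) (x : σ → R) :
    eval (fun i => c ^ w i * x i) f = c ^ n * eval x f := by
  classical
  rw [eval_eq, eval_eq, Finset.mul_sum]
  refine Finset.sum_congr rfl fun d hd => ?_
  have hd' : coeff d f ≠ 0 := mem_support_iff.mp hd
  have hw : Finsupp.weight w d = n := hf hd'
  have h1 : ∏ i ∈ d.support, (c ^ w i * x i) ^ d i =
      c ^ n * ∏ i ∈ d.support, x i ^ d i := by
    simp_rw [mul_pow, Finset.prod_mul_distrib, ← pow_mul, Finset.prod_pow_eq_pow_sum]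
    congr 2
    rw [← hw, Finsupp.weight_apply, Finsupp.sum]
    refine Finset.sum_congr rfl fun i _ => ?_
    rw [smul_eq_mul, mul_comm]
  rw [h1]
  ring

theorem htcn_eval_smul {σ R : Type*} [CommSemiring R] {n : ℕ}
    {f : MvPolynomial σ R} (hf : f.IsHomogeneous n) (c : R) (x : σ → R) :
    eval (c • x) f = c ^ n * eval x f := by
  have h := htcn_eval_mul_pow (1 : σ → ℕ) hf c x
  simpa [Pi.smul_def] using h


/-! ### the homogeneous ideal of relations -/

theorem htcn_homogeneousComponent_mul_of_lt {σ R : Type*} [CommSemiring R] {N : ℕ}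
    (a p : MvPolynomial σ R) (hp : p.IsHomogeneous N) (e : ℕ) (he : e < N) :
    homogeneousComponent e (a * p) = 0 := by
  classical
  conv_lhs => rw [← sum_homogeneousComponent a, Finset.sum_mul, map_sum]
  refine Finset.sum_eq_zero fun i _ => ?_
  have h1 : (homogeneousComponent i a * p).IsHomogeneous (i + N) :=
    (homogeneousComponent_isHomogeneous i a).mul hp
  rw [homogeneousComponent_of_mem h1, if_neg (by omega)]

/-- a homogeneous component of a product with a homogeneous polynomial is a multiple of it -/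
theorem htcn_exists_homogeneousComponent_mul {σ R : Type*} [CommSemiring R] {N : ℕ}
    (a p : MvPolynomial σ R) (hp : p.IsHomogeneous N) (e : ℕ) :
    ∃ b, homogeneousComponent e (a * p) = b * p := by
  rcases Nat.lt_or_ge e N with he | he
  · exact ⟨0, by rw [htcn_homogeneousComponent_mul_of_lt a p hp e he, zero_mul]⟩
  · exact ⟨_, htns_homogeneousComponent_mul a p hp e he⟩

variable {K : Type*} [Field K] {F : Type*} [CommRing F] [Algebra K F] {ι : Type*}

/-- the homogeneous ideal of relations of the family `φ` -/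
def htcnIdeal (φ : ι → F) : Ideal (MvPolynomial ι K) where
  carrier := {f | ∀ d, aeval φ (homogeneousComponent d f) = 0}
  add_mem' := by
    intro a b ha hb d
    rw [map_add, map_add, ha d, hb d, add_zero]
  zero_mem' := by
    intro d
    rw [map_zero, map_zero]
  smul_mem' := by
    intro c f hf d
    rw [smul_eq_mul, mul_comm]
    conv_lhs => rw [← sum_homogeneousComponent f, Finset.sum_mul, map_sum, map_sum]
    refine Finset.sum_eq_zero fun i _ => ?_
    obtain ⟨b, hb⟩ := htcn_exists_homogeneousComponent_mul c (homogeneousComponent i f)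
      (homogeneousComponent_isHomogeneous i f) d
    rw [mul_comm, hb, map_mul, hf i, mul_zero]

theorem htcn_mem_iff (φ : ι → F) (f : MvPolynomial ι K) :
    f ∈ htcnIdeal (K := K) φ ↔ ∀ d, aeval φ (homogeneousComponent d f) = 0 := Iff.rfl

theorem htcn_mem_of_isHomogeneous (φ : ι → F) {f : MvPolynomial ι K} {n : ℕ}
    (hf : f.IsHomogeneous n) (h : aeval φ f = 0) : f ∈ htcnIdeal (K := K) φ := by
  intro d
  rw [homogeneousComponent_of_mem hf]
  split_ifs
  · exact h
  · rw [map_zero]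

theorem htcn_aeval_eq_zero (φ : ι → F) {f : MvPolynomial ι K} (hf : f ∈ htcnIdeal (K := K) φ) :
    aeval φ f = 0 := by
  conv_lhs => rw [← sum_homogeneousComponent f, map_sum]
  exact Finset.sum_eq_zero fun i _ => hf i

/-- the hypothesis `hI` of `htns_exists_certificate` -/
theorem htcnIdeal_homog (φ : ι → F) :
    ∀ f ∈ htcnIdeal (K := K) φ, ∀ n, homogeneousComponent n f ∈ htcnIdeal (K := K) φ :=
  fun f hf n => htcn_mem_of_isHomogeneous φ (homogeneousComponent_isHomogeneous n f) (hf n)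


/-! ### points of the cone -/

theorem htcn_coe_aeval (φ : ι → F) (B : Subalgebra K F) (hφ : ∀ i, φ i ∈ B)
    (f : MvPolynomial ι K) :
    ((aeval (fun i => (⟨φ i, hφ i⟩ : B)) f : B) : F) = aeval φ f := by
  have h := comp_aeval_apply (f := fun i => (⟨φ i, hφ i⟩ : B)) B.val f
  exact h

/-- (C1) a `K`-algebra homomorphism from a subalgebra containing the `φ i` gives a point of the
zero locus of `htcnIdeal φ` (over any commutative `K`-algebra `L`). -/
theorem htcn_aeval_algHom_eq_zero {L : Type*} [CommRing L] [Algebra K L] (φ : ι → F)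
    (B : Subalgebra K F) (hφ : ∀ i, φ i ∈ B) (χ : B →ₐ[K] L) {f : MvPolynomial ι K}
    (hf : f ∈ htcnIdeal (K := K) φ) :
    aeval (fun i => χ ⟨φ i, hφ i⟩) f = 0 := by
  have h := comp_aeval_apply (f := fun i => (⟨φ i, hφ i⟩ : B)) χ f
  have h0 : aeval (fun i => (⟨φ i, hφ i⟩ : B)) f = 0 := by
    apply Subtype.ext
    rw [htcn_coe_aeval, htcn_aeval_eq_zero φ hf]
    rfl
  rw [← h, h0, map_zero]


/-- homogenisation: a point of the zero locus with `x i₀ = 1`, where `φ i₀ = 1`, kills every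
relation between the `φ i`, homogeneous or not. -/
theorem htcn_aeval_eq_zero_of_relation {L : Type*} [CommRing L] [Algebra K L] (φ : ι → F)
    (i₀ : ι) (h0 : φ i₀ = 1) (x : ι → L)
    (hx : ∀ f ∈ htcnIdeal (K := K) φ, aeval x f = 0) (hx0 : x i₀ = 1) (g : MvPolynomial ι K)
    (hg : aeval φ g = 0) : aeval x g = 0 := by
  set D := g.totalDegree with hD
  set G : MvPolynomial ι K :=
    ∑ d ∈ Finset.range (D + 1), X i₀ ^ (D - d) * homogeneousComponent d g with hGdef
  have hG : G.IsHomogeneous D := by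
    apply IsHomogeneous.sum
    intro d hd
    have h1 : D - d + d = D := Nat.sub_add_cancel (Nat.lt_succ_iff.mp (Finset.mem_range.mp hd))
    have h2 := (isHomogeneous_X_pow (R := K) i₀ (D - d)).mul
      (homogeneousComponent_isHomogeneous d g)
    rwa [h1] at h2
  have hφG : aeval φ G = 0 := by
    rw [hGdef, map_sum]
    simp only [map_mul, map_pow, aeval_X, h0, one_pow, one_mul]
    rw [← map_sum, sum_homogeneousComponent]
    exact hg
  have h3 := hx G (htcn_mem_of_isHomogeneous φ hG hφG)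
  rw [hGdef, map_sum] at h3
  simp only [map_mul, map_pow, aeval_X, hx0, one_pow, one_mul] at h3
  rw [← map_sum, sum_homogeneousComponent] at h3
  exact h3

/-- (C2) a point `x` of the zero locus of `htcnIdeal φ` with `x i₀ = 1`, where `φ i₀ = 1`, is
`(χ (φ i))_i` for a `K`-algebra homomorphism `χ : K[φ] → K`. -/
theorem htcn_exists_algHom (φ : ι → F) (i₀ : ι) (h0 : φ i₀ = 1) (x : ι → K)
    (hx : ∀ f ∈ htcnIdeal (K := K) φ, aeval x f = 0) (hx0 : x i₀ = 1) :
    ∃ χ : Algebra.adjoin K (Set.range φ) →ₐ[K] K,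
      ∀ i, χ ⟨φ i, Algebra.subset_adjoin (Set.mem_range_self i)⟩ = x i := by
  have hφ : ∀ i, φ i ∈ Algebra.adjoin K (Set.range φ) := fun i =>
    Algebra.subset_adjoin (Set.mem_range_self i)
  set π : MvPolynomial ι K →ₐ[K] Algebra.adjoin K (Set.range φ) :=
    aeval (fun i => (⟨φ i, hφ i⟩ : Algebra.adjoin K (Set.range φ))) with hπdef
  have hπ : Function.Surjective π := by
    rintro ⟨b, hb⟩
    have hb' := hb
    rw [Algebra.adjoin_range_eq_range_aeval] at hb'
    obtain ⟨f, hf⟩ := hb'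
    refine ⟨f, Subtype.ext ?_⟩
    rw [hπdef, htcn_coe_aeval φ _ hφ f]
    exact hf
  have hker : RingHom.ker π.toRingHom ≤
      RingHom.ker (aeval x : MvPolynomial ι K →ₐ[K] K).toRingHom := by
    intro g hg
    rw [RingHom.mem_ker] at hg ⊢
    have h1 : aeval φ g = 0 := by
      rw [← htcn_coe_aeval φ _ hφ g]
      have : π g = 0 := hg
      rw [hπdef] at this
      rw [this]
      rfl
    exact htcn_aeval_eq_zero_of_relation φ i₀ h0 x hx hx0 g h1
  refine ⟨AlgHom.liftOfSurjective π hπ (aeval x) hker, fun i => ?_⟩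
  have h2 := AlgHom.liftOfSurjective_apply π hπ (aeval x) hker (X i)
  rw [aeval_X, aeval_X] at h2
  exact h2


/-- (C3) points at infinity: if `φ i ^ n` is a form of degree `n - 1` in the `φ`'s (times
`φ i₀ = 1`), then the `i`-th coordinate of every point of the zero locus with `x i₀ = 0`
vanishes. -/
theorem htcn_apply_eq_zero_of_pow {L : Type*} [CommRing L] [Algebra K L] [IsReduced L]
    (φ : ι → F) (i₀ : ι) (h0 : φ i₀ = 1) (x : ι → L)
    (hx : ∀ f ∈ htcnIdeal (K := K) φ, aeval x f = 0) (hx0 : x i₀ = 0) (i : ι) {n : ℕ}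
    (hn : 0 < n) (p : MvPolynomial ι K) (hp : p.IsHomogeneous (n - 1))
    (hpφ : aeval φ p = φ i ^ n) : x i = 0 := by
  have h1 : (X i ^ n - X i₀ * p : MvPolynomial ι K).IsHomogeneous n := by
    have h2 := (isHomogeneous_X K i₀).mul hp
    rw [Nat.add_sub_cancel' hn] at h2
    exact (isHomogeneous_X_pow i n).sub h2
  have h3 : aeval φ (X i ^ n - X i₀ * p : MvPolynomial ι K) = 0 := by
    rw [map_sub, map_pow, map_mul, aeval_X, aeval_X, h0, one_mul, hpφ, sub_self]
  have h4 := hx _ (htcn_mem_of_isHomogeneous φ h1 h3)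
  rw [map_sub, map_pow, map_mul, aeval_X, aeval_X, hx0, zero_mul, sub_zero] at h4
  exact IsReduced.eq_zero _ ⟨n, h4⟩


/-- the zero locus of `htcnIdeal φ` is a cone -/
theorem htcn_aeval_smul_eq_zero (φ : ι → F) (x : ι → K)
    (hx : ∀ f ∈ htcnIdeal (K := K) φ, aeval x f = 0) (c : K) :
    ∀ f ∈ htcnIdeal (K := K) φ, aeval (c • x) f = 0 := by
  intro f hf
  conv_lhs => rw [← sum_homogeneousComponent f, map_sum]
  refine Finset.sum_eq_zero fun d _ => ?_
  have h1 := hx _ (htcnIdeal_homog φ f hf d)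
  rw [aeval_eq_eval] at h1 ⊢
  rw [htcn_eval_smul (homogeneousComponent_isHomogeneous d f), h1, mul_zero]

section certificate

variable [IsAlgClosed K] [Finite ι] {ι' : Type*} [Fintype ι'] [DecidableEq ι]

omit [IsAlgClosed K] [Finite ι] [Fintype ι'] in
/-- the hypothesis `hzero` of `htns_exists_certificate` from the absence of base points on the
affine part (`K`-algebra homomorphisms `K[φ] → K`) and at the point at infinity `e_top`. -/
theorem htcn_eq_zero_of_no_basePoint (φ : ι → F) (i₀ top : ι) (h0 : φ i₀ = 1)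
    (hpow : ∀ i, i ≠ top → ∃ n : ℕ, 0 < n ∧ ∃ p : MvPolynomial ι K, p.IsHomogeneous (n - 1) ∧
      aeval φ p = φ i ^ n)
    {N : ℕ} (p : ι' → MvPolynomial ι K) (hp : ∀ j, (p j).IsHomogeneous N)
    (haff : ∀ χ : Algebra.adjoin K (Set.range φ) →ₐ[K] K, ∃ j,
      eval (fun i => χ ⟨φ i, Algebra.subset_adjoin (Set.mem_range_self i)⟩) (p j) ≠ 0)
    (hinf : ∃ j, eval (Pi.single top (1 : K)) (p j) ≠ 0)
    (x : ι → K) (hx : ∀ f ∈ htcnIdeal (K := K) φ, aeval x f = 0)
    (hpx : ∀ j, aeval x (p j) = 0) : x = 0 := by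
  by_cases hx0 : x i₀ = 0
  · have h1 : ∀ i, i ≠ top → x i = 0 := by
      intro i hi
      obtain ⟨n, hn, r, hr, hrφ⟩ := hpow i hi
      exact htcn_apply_eq_zero_of_pow φ i₀ h0 x hx hx0 i hn r hr hrφ
    have h2 : x = x top • Pi.single top (1 : K) := by
      funext i
      by_cases hi : i = top
      · subst hi
        simp
      · rw [Pi.smul_apply, Pi.single_eq_of_ne hi, smul_zero, h1 i hi]
    have h3 : x top = 0 := by
      by_contra hne
      obtain ⟨j, hj⟩ := hinf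
      apply hj
      have h4 := hpx j
      rw [aeval_eq_eval, h2, htcn_eval_smul (hp j)] at h4
      exact (mul_eq_zero.mp h4).resolve_left (pow_ne_zero _ hne)
    rw [h2, h3, zero_smul]
  · exfalso
    set c : K := (x i₀)⁻¹ with hc
    have h1 : (c • x) i₀ = 1 := by
      rw [Pi.smul_apply, smul_eq_mul, hc, inv_mul_cancel₀ hx0]
    obtain ⟨χ, hχ⟩ := htcn_exists_algHom φ i₀ h0 (c • x)
      (htcn_aeval_smul_eq_zero φ x hx c) h1
    obtain ⟨j, hj⟩ := haff χ
    apply hj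
    have h2 : (fun i => χ ⟨φ i, Algebra.subset_adjoin (Set.mem_range_self i)⟩) = c • x :=
      funext hχ
    have h3 := hpx j
    rw [aeval_eq_eval] at h3
    rw [h2, htcn_eval_smul (hp j), h3, mul_zero]

/-- (C4) **Nullstellensatz certificate on the curve**: forms `p j` of degree `N` without base
point on the image of `φ` admit certificates modulo the homogeneous ideal of relations. -/
theorem htcn_exists_certificate (φ : ι → F) (i₀ top : ι) (h0 : φ i₀ = 1)
    (hpow : ∀ i, i ≠ top → ∃ n : ℕ, 0 < n ∧ ∃ p : MvPolynomial ι K, p.IsHomogeneous (n - 1) ∧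
      aeval φ p = φ i ^ n)
    {N : ℕ} (p : ι' → MvPolynomial ι K) (hp : ∀ j, (p j).IsHomogeneous N)
    (haff : ∀ χ : Algebra.adjoin K (Set.range φ) →ₐ[K] K, ∃ j,
      eval (fun i => χ ⟨φ i, Algebra.subset_adjoin (Set.mem_range_self i)⟩) (p j) ≠ 0)
    (hinf : ∃ j, eval (Pi.single top (1 : K)) (p j) ≠ 0) :
    ∃ (M : ℕ) (q : ι × ι' → MvPolynomial ι K), (∀ a, (q a).IsHomogeneous M) ∧
      ∀ i, ∑ j, q (i, j) * p j - X i ^ (M + N) ∈ htcnIdeal (K := K) φ :=
  htns_exists_certificate (K := K) (htcnIdeal (K := K) φ) (htcnIdeal_homog φ) p hp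
    (htcn_eq_zero_of_no_basePoint φ i₀ top h0 hpow p hp haff hinf)

omit [IsAlgClosed K] [Finite ι] [DecidableEq ι] in
/-- the certificate as an identity in `F` -/
theorem htcn_certificate_aeval (φ : ι → F) {M N : ℕ} {q : ι × ι' → MvPolynomial ι K}
    {p : ι' → MvPolynomial ι K}
    (h : ∀ i, ∑ j, q (i, j) * p j - X i ^ (M + N) ∈ htcnIdeal (K := K) φ) (i : ι) :
    ∑ j, aeval φ (q (i, j)) * aeval φ (p j) = φ i ^ (M + N) := by
  have h1 := htcn_aeval_eq_zero φ (h i)
  rw [map_sub, map_sum, map_pow, aeval_X, sub_eq_zero] at h1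
  rw [← h1]
  exact Finset.sum_congr rfl fun j _ => (map_mul _ _ _).symm

end certificate


/-! ### the bihomogeneous version: `P(V) × C` -/

theorem htcn_weight_comp {σ M M' : Type*} [AddCommMonoid M] [AddCommMonoid M'] (w : σ → M)
    (g : M →+ M') (d : σ →₀ ℕ) : Finsupp.weight (fun i => g (w i)) d = g (Finsupp.weight w d) := by
  rw [Finsupp.weight_apply, Finsupp.weight_apply, map_finsuppSum]
  exact Finsupp.sum_congr fun i _ => (map_nsmul g _ _).symm

theorem htcn_isWeightedHomogeneous_comp {σ R M M' : Type*} [CommSemiring R] [AddCommMonoid M]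
    [AddCommMonoid M'] (w : σ → M) (g : M →+ M') {f : MvPolynomial σ R} {m : M}
    (hf : IsWeightedHomogeneous w f m) : IsWeightedHomogeneous (fun i => g (w i)) f (g m) := by
  intro d hd
  rw [htcn_weight_comp, hf hd]

variable {ι₁ ι₂ : Type*}

/-- scaling the second group of variables -/
theorem htcn_eval_smul_right {a b : ℕ} {f : MvPolynomial (ι₁ ⊕ ι₂) K}
    (hf : IsWeightedHomogeneous (htnsBiw ι₁ ι₂) f (a, b)) (c : K) (u : ι₁ → K) (y : ι₂ → K) :
    eval (Sum.elim u (c • y)) f = c ^ b * eval (Sum.elim u y) f := by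
  have h1 := htcn_isWeightedHomogeneous_comp (htnsBiw ι₁ ι₂) (AddMonoidHom.snd ℕ ℕ) hf
  have h2 := htcn_eval_mul_pow _ h1 c (Sum.elim u y)
  simp only [AddMonoidHom.coe_snd, AddMonoidHom.coe_fst] at h2
  rw [← h2]
  congr 2
  funext i
  rcases i with i | l
  · simp [htnsBiw]
  · simp [htnsBiw]

/-- scaling the first group of variables -/
theorem htcn_eval_smul_left {a b : ℕ} {f : MvPolynomial (ι₁ ⊕ ι₂) K}
    (hf : IsWeightedHomogeneous (htnsBiw ι₁ ι₂) f (a, b)) (c : K) (u : ι₁ → K) (y : ι₂ → K) :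
    eval (Sum.elim (c • u) y) f = c ^ a * eval (Sum.elim u y) f := by
  have h1 := htcn_isWeightedHomogeneous_comp (htnsBiw ι₁ ι₂) (AddMonoidHom.fst ℕ ℕ) hf
  have h2 := htcn_eval_mul_pow _ h1 c (Sum.elim u y)
  simp only [AddMonoidHom.coe_snd, AddMonoidHom.coe_fst] at h2
  rw [← h2]
  congr 2
  funext i
  rcases i with i | l
  · simp [htnsBiw]
  · simp [htnsBiw]


/-- a weighted homogeneous component of a product with a weighted homogeneous polynomial -/
theorem htcn_weightedComponent_mul_cases {σ R M : Type*} [CommSemiring R]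
    [AddCancelCommMonoid M] (w : σ → M) {m : M} (a p : MvPolynomial σ R)
    (hp : IsWeightedHomogeneous w p m) (d : M) :
    weightedHomogeneousComponent w d (a * p) = 0 ∨
      ∃ n, weightedHomogeneousComponent w d (a * p) = weightedHomogeneousComponent w n a * p := by
  classical
  by_cases h : ∃ n, n + m = d
  · obtain ⟨n, rfl⟩ := h
    exact Or.inr ⟨n, htns_weightedComponent_mul w a p hp n⟩
  · left
    ext s
    rw [coeff_weightedHomogeneousComponent, coeff_zero]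
    split_ifs with hs
    · rw [coeff_mul]
      refine Finset.sum_eq_zero fun x hx => ?_
      by_cases hp0 : coeff x.2 p = 0
      · rw [hp0, mul_zero]
      · exfalso
        apply h
        refine ⟨Finsupp.weight w x.1, ?_⟩
        have hd : x.1 + x.2 = s := Finset.HasAntidiagonal.mem_antidiagonal.mp hx
        rw [← hs, ← hd, map_add, hp hp0]
    · rfl

variable (ι₁) in
/-- the substitution `u ↦ u`, `y ↦ φ` -/
def htcnSubst (φ : ι₂ → F) : ι₁ ⊕ ι₂ → MvPolynomial ι₁ F :=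
  Sum.elim X (fun l => C (φ l))

variable (ι₁) in
/-- bihomogeneous polynomials in `(u, y)` vanishing at `y = φ` -/
def htcnBiSet (φ : ι₂ → F) : Set (MvPolynomial (ι₁ ⊕ ι₂) K) :=
  {f | (∃ w, IsWeightedHomogeneous (htnsBiw ι₁ ι₂) f w) ∧ aeval (htcnSubst ι₁ φ) f = 0}

variable (ι₁) in
/-- the bihomogeneous ideal of `P(V) × C` -/
def htcnBiIdeal (φ : ι₂ → F) : Ideal (MvPolynomial (ι₁ ⊕ ι₂) K) :=
  Ideal.span (htcnBiSet (K := K) ι₁ φ)

theorem htcn_aeval_subst_eq_zero (φ : ι₂ → F) {f : MvPolynomial (ι₁ ⊕ ι₂) K}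
    (hf : f ∈ htcnBiIdeal (K := K) ι₁ φ) : aeval (htcnSubst ι₁ φ) f = 0 := by
  refine Submodule.span_induction (p := fun f _ => aeval (htcnSubst ι₁ φ) f = 0)
    (fun f hf => hf.2) (map_zero _) (fun f g _ _ hf hg => ?_) (fun a f _ hf => ?_) hf
  · rw [map_add, hf, hg, add_zero]
  · rw [smul_eq_mul, map_mul, hf, mul_zero]

/-- stability of "all components lie in `J`" under multiplication -/
theorem htcn_weightedComponent_mul_mem {σ R M : Type*} [CommSemiring R]
    [AddCancelCommMonoid M] (w : σ → M) (J : Ideal (MvPolynomial σ R)) (a : MvPolynomial σ R) :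
    ∀ f : MvPolynomial σ R, (∀ m, weightedHomogeneousComponent w m f ∈ J) →
      ∀ n, weightedHomogeneousComponent w n (a * f) ∈ J := by
  induction a using MvPolynomial.induction_on with
  | C r =>
    intro f hf n
    rw [weightedHomogeneousComponent_C_mul]
    exact J.mul_mem_left _ (hf n)
  | add p q hp hq =>
    intro f hf n
    rw [add_mul, map_add]
    exact J.add_mem (hp f hf n) (hq f hf n)
  | mul_X p i hp =>
    intro f hf n
    rw [mul_assoc]
    refine hp (X i * f) (fun m => ?_) n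
    rw [mul_comm]
    rcases htcn_weightedComponent_mul_cases w f (X i) (isWeightedHomogeneous_X R w i) m with
      h | ⟨n', h⟩
    · rw [h]
      exact J.zero_mem
    · rw [h]
      exact J.mul_mem_right _ (hf n')

/-- the hypothesis `hI` of `htns_exists_bicertificate` -/
theorem htcnBiIdeal_homog (φ : ι₂ → F) :
    ∀ f ∈ htcnBiIdeal (K := K) ι₁ φ, ∀ n : ℕ × ℕ,
      weightedHomogeneousComponent (htnsBiw ι₁ ι₂) n f ∈ htcnBiIdeal (K := K) ι₁ φ := by
  intro f hf
  refine Submodule.span_induction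
    (p := fun f _ => ∀ n : ℕ × ℕ, weightedHomogeneousComponent (htnsBiw ι₁ ι₂) n f ∈
      htcnBiIdeal (K := K) ι₁ φ)
    (fun f hf n => ?_) (fun n => ?_) (fun f g _ _ hf hg n => ?_) (fun a f _ hf => ?_) hf
  · obtain ⟨⟨w, hw⟩, h0⟩ := hf
    rcases htcn_weightedComponent_mul_cases (htnsBiw ι₁ ι₂) 1 f hw n with h | ⟨n', h⟩
    · rw [one_mul] at h
      rw [h]
      exact Ideal.zero_mem _
    · rw [one_mul] at h
      rw [h]
      exact Ideal.mul_mem_left _ _ (Ideal.subset_span ⟨⟨w, hw⟩, h0⟩)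
  · rw [map_zero]
    exact Ideal.zero_mem _
  · rw [map_add]
    exact Ideal.add_mem _ (hf n) (hg n)
  · exact htcn_weightedComponent_mul_mem (htnsBiw ι₁ ι₂) _ a f hf


/-- a form in `y` alone is bihomogeneous of bidegree `(0, d)` -/
theorem htcn_isBihom_rename_inr {h : MvPolynomial ι₂ K} {d : ℕ} (hh : h.IsHomogeneous d) :
    IsWeightedHomogeneous (htnsBiw ι₁ ι₂) (rename (Sum.inr : ι₂ → ι₁ ⊕ ι₂) h) (0, d) := by
  intro e he
  obtain ⟨s, rfl, hs⟩ := coeff_rename_ne_zero _ _ _ he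
  have h1 : Finsupp.weight (htnsBiw ι₁ ι₂) (Finsupp.mapDomain Sum.inr s) =
      Finsupp.weight (fun i : ι₂ => (AddMonoidHom.inr ℕ ℕ) ((1 : ι₂ → ℕ) i)) s := by
    rw [Finsupp.weight, Finsupp.weight]
    change Finsupp.linearCombination ℕ _ _ = Finsupp.linearCombination ℕ _ _
    rw [Finsupp.linearCombination_mapDomain]
    rfl
  rw [h1, htcn_weight_comp, hh hs]
  rfl

theorem htcn_rename_inr_mem (φ : ι₂ → F) {h : MvPolynomial ι₂ K} {d : ℕ}
    (hh : h.IsHomogeneous d) (h0 : aeval φ h = 0) :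
    rename (Sum.inr : ι₂ → ι₁ ⊕ ι₂) h ∈ htcnBiIdeal (K := K) ι₁ φ := by
  refine Ideal.subset_span ⟨⟨_, htcn_isBihom_rename_inr hh⟩, ?_⟩
  rw [aeval_rename]
  have h1 := comp_aeval_apply (f := φ) (IsScalarTower.toAlgHom K F (MvPolynomial ι₁ F)) h
  rw [h0, map_zero] at h1
  rw [h1]
  rfl

/-- (B4) the second component of a point of the zero locus of `htcnBiIdeal` lies on the cone of
`htcnIdeal` -/
theorem htcn_aeval_eq_zero_of_bi {L : Type*} [CommRing L] [Algebra K L] (φ : ι₂ → F)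
    (u : ι₁ → L) (y : ι₂ → L)
    (hx : ∀ f ∈ htcnBiIdeal (K := K) ι₁ φ, aeval (Sum.elim u y) f = 0) :
    ∀ g ∈ htcnIdeal (K := K) φ, aeval y g = 0 := by
  intro g hg
  conv_lhs => rw [← sum_homogeneousComponent g, map_sum]
  refine Finset.sum_eq_zero fun d _ => ?_
  have h1 := hx _ (htcn_rename_inr_mem (ι₁ := ι₁) φ (homogeneousComponent_isHomogeneous d g)
    (hg d))
  rw [aeval_rename] at h1
  exact h1


/-- (B6) points `(u, χ ∘ φ)` lie in the zero locus of `htcnBiIdeal` -/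
theorem htcn_aeval_bi_algHom_eq_zero {L : Type*} [CommRing L] [Algebra K L] (φ : ι₂ → F)
    (B : Subalgebra K F) (hφ : ∀ l, φ l ∈ B) (χ : B →ₐ[K] L) (u : ι₁ → L)
    {f : MvPolynomial (ι₁ ⊕ ι₂) K} (hf : f ∈ htcnBiIdeal (K := K) ι₁ φ) :
    aeval (Sum.elim u (fun l => χ ⟨φ l, hφ l⟩)) f = 0 := by
  set ψB : ι₁ ⊕ ι₂ → MvPolynomial ι₁ B := Sum.elim X (fun l => C ⟨φ l, hφ l⟩) with hψB
  have h1 : aeval ψB f = 0 := by
    apply map_injective B.val.toRingHom Subtype.val_injective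
    have h2 := comp_aeval_apply (f := ψB) (mapAlgHom (σ := ι₁) B.val) f
    have h3 : (fun i => mapAlgHom (σ := ι₁) B.val (ψB i)) = htcnSubst ι₁ φ := by
      funext i
      rcases i with i | l
      · simp [hψB, htcnSubst]
      · simp [hψB, htcnSubst]
    rw [h3, htcn_aeval_subst_eq_zero φ hf] at h2
    rw [map_zero]
    exact h2
  set θ : MvPolynomial ι₁ B →ₐ[K] L :=
    ((aeval u : MvPolynomial ι₁ L →ₐ[L] L).restrictScalars K).comp (mapAlgHom (σ := ι₁) χ)
    with hθ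
  have h4 := comp_aeval_apply (f := ψB) θ f
  have h5 : (fun i => θ (ψB i)) = Sum.elim u (fun l => χ ⟨φ l, hφ l⟩) := by
    funext i
    rcases i with i | l
    · simp [hψB, hθ]
    · simp [hψB, hθ]
  rw [h5, h1, map_zero] at h4
  exact h4.symm


section bicertificate

variable [IsAlgClosed K] [Finite ι₁] [Finite ι₂] {ι' : Type*} [Fintype ι'] [DecidableEq ι₂]

omit [IsAlgClosed K] [Finite ι₁] [Finite ι₂] [Fintype ι'] in
/-- the hypothesis `hzero` of `htns_exists_bicertificate` from the absence of base points on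
`(V ∖ 0) × (affine part)` and on `(V ∖ 0) × {e_top}`. -/
theorem htcn_bi_eq_zero_of_no_basePoint (φ : ι₂ → F) (i₀ top : ι₂) (h0 : φ i₀ = 1)
    (hpow : ∀ l, l ≠ top → ∃ n : ℕ, 0 < n ∧ ∃ p : MvPolynomial ι₂ K, p.IsHomogeneous (n - 1) ∧
      aeval φ p = φ l ^ n)
    {a b : ℕ} (p : ι' → MvPolynomial (ι₁ ⊕ ι₂) K)
    (hp : ∀ j, IsWeightedHomogeneous (htnsBiw ι₁ ι₂) (p j) (a, b))
    (haff : ∀ u : ι₁ → K, u ≠ 0 → ∀ χ : Algebra.adjoin K (Set.range φ) →ₐ[K] K, ∃ j,
      eval (Sum.elim u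
        (fun l => χ ⟨φ l, Algebra.subset_adjoin (Set.mem_range_self l)⟩)) (p j) ≠ 0)
    (hinf : ∀ u : ι₁ → K, u ≠ 0 → ∃ j, eval (Sum.elim u (Pi.single top (1 : K))) (p j) ≠ 0)
    (u : ι₁ → K) (y : ι₂ → K)
    (hx : ∀ f ∈ htcnBiIdeal (K := K) ι₁ φ, aeval (Sum.elim u y) f = 0)
    (hpx : ∀ j, aeval (Sum.elim u y) (p j) = 0) : u = 0 ∨ y = 0 := by
  by_contra hcon
  rw [not_or] at hcon
  obtain ⟨hu, hy⟩ := hcon
  have hyI := htcn_aeval_eq_zero_of_bi φ u y hx
  by_cases hy0 : y i₀ = 0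
  · have h1 : ∀ l, l ≠ top → y l = 0 := by
      intro l hl
      obtain ⟨n, hn, r, hr, hrφ⟩ := hpow l hl
      exact htcn_apply_eq_zero_of_pow φ i₀ h0 y hyI hy0 l hn r hr hrφ
    have h2 : y = y top • Pi.single top (1 : K) := by
      funext l
      by_cases hl : l = top
      · subst hl
        simp
      · rw [Pi.smul_apply, Pi.single_eq_of_ne hl, smul_zero, h1 l hl]
    have h3 : y top ≠ 0 := by
      intro h3
      apply hy
      rw [h2, h3, zero_smul]
    obtain ⟨j, hj⟩ := hinf u hu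
    apply hj
    have h4 := hpx j
    rw [aeval_eq_eval, h2, htcn_eval_smul_right (hp j)] at h4
    exact (mul_eq_zero.mp h4).resolve_left (pow_ne_zero _ h3)
  · set c : K := (y i₀)⁻¹ with hc
    have h1 : (c • y) i₀ = 1 := by
      rw [Pi.smul_apply, smul_eq_mul, hc, inv_mul_cancel₀ hy0]
    obtain ⟨χ, hχ⟩ := htcn_exists_algHom φ i₀ h0 (c • y)
      (htcn_aeval_smul_eq_zero φ y hyI c) h1
    obtain ⟨j, hj⟩ := haff u hu χ
    apply hj
    have h2 : (fun l => χ ⟨φ l, Algebra.subset_adjoin (Set.mem_range_self l)⟩) = c • y :=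
      funext hχ
    have h3 := hpx j
    rw [aeval_eq_eval] at h3
    rw [h2, htcn_eval_smul_right (hp j), h3, mul_zero]

/-- (C5) **bihomogeneous Nullstellensatz certificate on `P(V) × C`**. -/
theorem htcn_exists_bicertificate (φ : ι₂ → F) (i₀ top : ι₂) (h0 : φ i₀ = 1)
    (hpow : ∀ l, l ≠ top → ∃ n : ℕ, 0 < n ∧ ∃ p : MvPolynomial ι₂ K, p.IsHomogeneous (n - 1) ∧
      aeval φ p = φ l ^ n)
    {a b : ℕ} (p : ι' → MvPolynomial (ι₁ ⊕ ι₂) K)
    (hp : ∀ j, IsWeightedHomogeneous (htnsBiw ι₁ ι₂) (p j) (a, b))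
    (haff : ∀ u : ι₁ → K, u ≠ 0 → ∀ χ : Algebra.adjoin K (Set.range φ) →ₐ[K] K, ∃ j,
      eval (Sum.elim u
        (fun l => χ ⟨φ l, Algebra.subset_adjoin (Set.mem_range_self l)⟩)) (p j) ≠ 0)
    (hinf : ∀ u : ι₁ → K, u ≠ 0 → ∃ j, eval (Sum.elim u (Pi.single top (1 : K))) (p j) ≠ 0) :
    ∃ (M₁ M₂ : ℕ) (q : (ι₁ × ι₂) × ι' → MvPolynomial (ι₁ ⊕ ι₂) K),
      (∀ c, IsWeightedHomogeneous (htnsBiw ι₁ ι₂) (q c) (M₁, M₂)) ∧
      ∀ i l, ∑ j, q ((i, l), j) * p j -
        X (Sum.inl i) ^ (M₁ + a) * X (Sum.inr l) ^ (M₂ + b) ∈ htcnBiIdeal (K := K) ι₁ φ :=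
  htns_exists_bicertificate (K := K) (htcnBiIdeal (K := K) ι₁ φ) (htcnBiIdeal_homog φ) p hp
    (htcn_bi_eq_zero_of_no_basePoint φ i₀ top h0 hpow p hp haff hinf)

omit [IsAlgClosed K] [Finite ι₁] [Finite ι₂] [DecidableEq ι₂] in
/-- the bicertificate as an identity in `MvPolynomial ι₁ F` (`u` stays a variable, `y = φ`) -/
theorem htcn_bicertificate_aeval (φ : ι₂ → F) {A B : ℕ}
    {q : (ι₁ × ι₂) × ι' → MvPolynomial (ι₁ ⊕ ι₂) K} {p : ι' → MvPolynomial (ι₁ ⊕ ι₂) K}
    (h : ∀ i l, ∑ j, q ((i, l), j) * p j - X (Sum.inl i) ^ A * X (Sum.inr l) ^ B ∈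
      htcnBiIdeal (K := K) ι₁ φ) (i : ι₁) (l : ι₂) :
    ∑ j, aeval (htcnSubst ι₁ φ) (q ((i, l), j)) * aeval (htcnSubst ι₁ φ) (p j) =
      X i ^ A * C (φ l ^ B) := by
  have h1 := htcn_aeval_subst_eq_zero φ (h i l)
  rw [map_sub, map_sum, map_mul, map_pow, map_pow, aeval_X, aeval_X, sub_eq_zero] at h1
  have h2 : htcnSubst ι₁ φ (Sum.inl i) ^ A * htcnSubst ι₁ φ (Sum.inr l) ^ B =
      X i ^ A * C (φ l ^ B) := by
    rw [map_pow]
    rfl
  rw [← h2, ← h1]
  exact Finset.sum_congr rfl fun j _ => (map_mul _ _ _).symm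

end bicertificate


/-! ### invariance under scaling `φ` by a unit (to treat all places uniformly: replace `φ` by
`t ^ e • φ` with values in the valuation ring of the place) -/

theorem htcn_aeval_mul_pow {σ : Type*} (w : σ → ℕ) {n : ℕ} {f : MvPolynomial σ K}
    {A : Type*} [CommRing A] [Algebra K A]
    (hf : IsWeightedHomogeneous w f n) (c : A) (x : σ → A) :
    aeval (fun i => c ^ w i * x i) f = c ^ n * aeval x f := by
  have h1 : IsWeightedHomogeneous w (map (algebraMap K A) f) n := by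
    intro d hd
    apply hf
    intro h0
    apply hd
    rw [coeff_map, h0, map_zero]
  have h2 := htcn_eval_mul_pow w h1 c x
  rw [aeval_def, aeval_def, eval₂_eq_eval_map, eval₂_eq_eval_map]
  exact h2

theorem htcn_aeval_smul {n : ℕ} {f : MvPolynomial ι K} (hf : f.IsHomogeneous n) (c : F)
    (x : ι → F) : aeval (c • x) f = c ^ n * aeval x f := by
  have h := htcn_aeval_mul_pow (1 : ι → ℕ) hf c x
  simpa [Pi.smul_def] using h

theorem htcnIdeal_smul (φ : ι → F) {c : F} (hc : IsUnit c) :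
    htcnIdeal (K := K) (c • φ) = htcnIdeal (K := K) φ := by
  ext f
  rw [htcn_mem_iff, htcn_mem_iff]
  refine forall_congr' fun d => ?_
  rw [htcn_aeval_smul (homogeneousComponent_isHomogeneous d f)]
  exact (hc.pow d).mul_right_eq_zero

theorem htcnBiSet_smul (φ : ι₂ → F) {c : F} (hc : IsUnit c) :
    htcnBiSet (K := K) ι₁ (c • φ) = htcnBiSet (K := K) ι₁ φ := by
  ext f
  refine and_congr_right fun ⟨⟨a, b⟩, hw⟩ => ?_
  have h1 := htcn_isWeightedHomogeneous_comp (htnsBiw ι₁ ι₂) (AddMonoidHom.snd ℕ ℕ) hw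
  have h2 := htcn_aeval_mul_pow _ h1 (C c : MvPolynomial ι₁ F) (htcnSubst ι₁ φ)
  simp only [AddMonoidHom.coe_snd] at h2
  have h3 : (fun i => (C c : MvPolynomial ι₁ F) ^ (htnsBiw ι₁ ι₂ i).2 * htcnSubst ι₁ φ i) =
      htcnSubst ι₁ (c • φ) := by
    funext i
    rcases i with i | l
    · simp [htnsBiw, htcnSubst]
    · simp [htnsBiw, htcnSubst]
  rw [h3] at h2
  rw [h2]
  exact ((hc.map (C : F →+* MvPolynomial ι₁ F)).pow b).mul_right_eq_zero

theorem htcnBiIdeal_smul (φ : ι₂ → F) {c : F} (hc : IsUnit c) :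
    htcnBiIdeal (K := K) ι₁ (c • φ) = htcnBiIdeal (K := K) ι₁ φ := by
  rw [htcnBiIdeal, htcnBiIdeal, htcnBiSet_smul φ hc]


/-! ### the certificates at a point (the hypothesis `h` of `Height.logHeight_eval_ge`) -/

theorem htcn_certificate_at_point {L : Type*} [CommRing L] [Algebra K L] {ι' : Type*}
    [Fintype ι'] (φ : ι → F) (B : Subalgebra K F) (hφ : ∀ i, φ i ∈ B) (χ : B →ₐ[K] L)
    {M N : ℕ} {q : ι × ι' → MvPolynomial ι K} {p : ι' → MvPolynomial ι K}
    (h : ∀ i, ∑ j, q (i, j) * p j - X i ^ (M + N) ∈ htcnIdeal (K := K) φ) (i : ι) :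
    ∑ j, aeval (fun i => χ ⟨φ i, hφ i⟩) (q (i, j)) * aeval (fun i => χ ⟨φ i, hφ i⟩) (p j) =
      χ ⟨φ i, hφ i⟩ ^ (M + N) :=
  htns_aeval_certificate (htcnIdeal (K := K) φ) h (fun i => χ ⟨φ i, hφ i⟩)
    (fun _ hf => htcn_aeval_algHom_eq_zero φ B hφ χ hf) i

theorem htcn_bicertificate_at_point {L : Type*} [CommRing L] [Algebra K L] {ι' : Type*}
    [Fintype ι'] (φ : ι₂ → F) (B : Subalgebra K F) (hφ : ∀ l, φ l ∈ B) (χ : B →ₐ[K] L)
    (u : ι₁ → L) {a b : ℕ} {q : (ι₁ × ι₂) × ι' → MvPolynomial (ι₁ ⊕ ι₂) K}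
    {p : ι' → MvPolynomial (ι₁ ⊕ ι₂) K}
    (h : ∀ i l, ∑ j, q ((i, l), j) * p j - X (Sum.inl i) ^ a * X (Sum.inr l) ^ b ∈
      htcnBiIdeal (K := K) ι₁ φ) (i : ι₁) (l : ι₂) :
    ∑ j, aeval (Sum.elim u (fun l => χ ⟨φ l, hφ l⟩)) (q ((i, l), j)) *
      aeval (Sum.elim u (fun l => χ ⟨φ l, hφ l⟩)) (p j) = u i ^ a * χ ⟨φ l, hφ l⟩ ^ b :=
  htns_aeval_bicertificate (htcnBiIdeal (K := K) ι₁ φ) h u (fun l => χ ⟨φ l, hφ l⟩)
    (fun _ hf => htcn_aeval_bi_algHom_eq_zero φ B hφ χ u hf) i l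


/-! ### variants for a family that generates `F` (e.g. `F = V27pB T`, `φ` = the monomial basis of
`L_n`): points are `K`-algebra homomorphisms `F →ₐ[K] K` -/

/-- the inverse of the inclusion of a subalgebra equal to `⊤` -/
def htcnTopHom (φ : ι → F) (hgen : Algebra.adjoin K (Set.range φ) = ⊤) :
    F →ₐ[K] Algebra.adjoin K (Set.range φ) where
  toFun := fun b => ⟨b, by rw [hgen]; exact Algebra.mem_top⟩
  map_one' := rfl
  map_mul' := fun _ _ => rfl
  map_zero' := rfl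
  map_add' := fun _ _ => rfl
  commutes' := fun _ => rfl

/-- (C2), generating family -/
theorem htcn_exists_algHom_top (φ : ι → F) (hgen : Algebra.adjoin K (Set.range φ) = ⊤)
    (i₀ : ι) (h0 : φ i₀ = 1) (x : ι → K)
    (hx : ∀ f ∈ htcnIdeal (K := K) φ, aeval x f = 0) (hx0 : x i₀ = 1) :
    ∃ χ : F →ₐ[K] K, ∀ i, χ (φ i) = x i := by
  obtain ⟨χ', hχ'⟩ := htcn_exists_algHom φ i₀ h0 x hx hx0
  exact ⟨χ'.comp (htcnTopHom φ hgen), fun i => hχ' i⟩

section certificateTop

variable [IsAlgClosed K] [Finite ι] {ι' : Type*} [Fintype ι'] [DecidableEq ι]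

/-- (C4), generating family: base points are tested on `K`-algebra homomorphisms `F →ₐ[K] K` -/
theorem htcn_exists_certificate_top (φ : ι → F) (hgen : Algebra.adjoin K (Set.range φ) = ⊤)
    (i₀ top : ι) (h0 : φ i₀ = 1)
    (hpow : ∀ i, i ≠ top → ∃ n : ℕ, 0 < n ∧ ∃ p : MvPolynomial ι K, p.IsHomogeneous (n - 1) ∧
      aeval φ p = φ i ^ n)
    {N : ℕ} (p : ι' → MvPolynomial ι K) (hp : ∀ j, (p j).IsHomogeneous N)
    (haff : ∀ χ : F →ₐ[K] K, ∃ j, eval (fun i => χ (φ i)) (p j) ≠ 0)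
    (hinf : ∃ j, eval (Pi.single top (1 : K)) (p j) ≠ 0) :
    ∃ (M : ℕ) (q : ι × ι' → MvPolynomial ι K), (∀ a, (q a).IsHomogeneous M) ∧
      ∀ i, ∑ j, q (i, j) * p j - X i ^ (M + N) ∈ htcnIdeal (K := K) φ :=
  htcn_exists_certificate φ i₀ top h0 hpow p hp
    (fun χ => haff (χ.comp (htcnTopHom φ hgen))) hinf

end certificateTop

section bicertificateTop

variable [IsAlgClosed K] [Finite ι₁] [Finite ι₂] {ι' : Type*} [Fintype ι'] [DecidableEq ι₂]

/-- (C5), generating family: base points are tested on `(V ∖ 0) × (F →ₐ[K] K)` and on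
`(V ∖ 0) × {e_top}` -/
theorem htcn_exists_bicertificate_top (φ : ι₂ → F)
    (hgen : Algebra.adjoin K (Set.range φ) = ⊤) (i₀ top : ι₂) (h0 : φ i₀ = 1)
    (hpow : ∀ l, l ≠ top → ∃ n : ℕ, 0 < n ∧ ∃ p : MvPolynomial ι₂ K, p.IsHomogeneous (n - 1) ∧
      aeval φ p = φ l ^ n)
    {a b : ℕ} (p : ι' → MvPolynomial (ι₁ ⊕ ι₂) K)
    (hp : ∀ j, IsWeightedHomogeneous (htnsBiw ι₁ ι₂) (p j) (a, b))
    (haff : ∀ u : ι₁ → K, u ≠ 0 → ∀ χ : F →ₐ[K] K, ∃ j,
      eval (Sum.elim u (fun l => χ (φ l))) (p j) ≠ 0)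
    (hinf : ∀ u : ι₁ → K, u ≠ 0 → ∃ j, eval (Sum.elim u (Pi.single top (1 : K))) (p j) ≠ 0) :
    ∃ (M₁ M₂ : ℕ) (q : (ι₁ × ι₂) × ι' → MvPolynomial (ι₁ ⊕ ι₂) K),
      (∀ c, IsWeightedHomogeneous (htnsBiw ι₁ ι₂) (q c) (M₁, M₂)) ∧
      ∀ i l, ∑ j, q ((i, l), j) * p j -
        X (Sum.inl i) ^ (M₁ + a) * X (Sum.inr l) ^ (M₂ + b) ∈ htcnBiIdeal (K := K) ι₁ φ :=
  htcn_exists_bicertificate φ i₀ top h0 hpow p hp
    (fun u hu χ => haff u hu (χ.comp (htcnTopHom φ hgen))) hinf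

end bicertificateTop

/-- the certificate at a point `χ : F →ₐ[K] L` -/
theorem htcn_certificate_at_algHom {L : Type*} [CommRing L] [Algebra K L] {ι' : Type*}
    [Fintype ι'] (φ : ι → F) (χ : F →ₐ[K] L)
    {M N : ℕ} {q : ι × ι' → MvPolynomial ι K} {p : ι' → MvPolynomial ι K}
    (h : ∀ i, ∑ j, q (i, j) * p j - X i ^ (M + N) ∈ htcnIdeal (K := K) φ) (i : ι) :
    ∑ j, aeval (fun i => χ (φ i)) (q (i, j)) * aeval (fun i => χ (φ i)) (p j) =
      χ (φ i) ^ (M + N) :=
  htcn_certificate_at_point φ ⊤ (fun _ => Algebra.mem_top) (χ.comp (⊤ : Subalgebra K F).val) h i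

/-- the bicertificate at a point `(u, χ)`, `χ : F →ₐ[K] L` -/
theorem htcn_bicertificate_at_algHom {L : Type*} [CommRing L] [Algebra K L] {ι' : Type*}
    [Fintype ι'] (φ : ι₂ → F) (χ : F →ₐ[K] L)
    (u : ι₁ → L) {a b : ℕ} {q : (ι₁ × ι₂) × ι' → MvPolynomial (ι₁ ⊕ ι₂) K}
    {p : ι' → MvPolynomial (ι₁ ⊕ ι₂) K}
    (h : ∀ i l, ∑ j, q ((i, l), j) * p j - X (Sum.inl i) ^ a * X (Sum.inr l) ^ b ∈
      htcnBiIdeal (K := K) ι₁ φ) (i : ι₁) (l : ι₂) :
    ∑ j, aeval (Sum.elim u (fun l => χ (φ l))) (q ((i, l), j)) *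
      aeval (Sum.elim u (fun l => χ (φ l))) (p j) = u i ^ a * χ (φ l) ^ b :=
  htcn_bicertificate_at_point φ ⊤ (fun _ => Algebra.mem_top) (χ.comp (⊤ : Subalgebra K F).val)
    u h i l

end Fermat.Agent.HT
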