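import Mathlib

/-!
# Local lower bounds from a Nullstellensatz certificate (S17 heights, leaf HT/LocalNss)

Mathlib's `Height.mulHeight_eval_ge` is global.  Here is the same estimate one absolute value
at a time, with the certificate only required AT THE POINT `x`.
-/

set_option autoImplicit false

namespace Fermat.Agent.HT

open MvPolynomial

variable {K : Type*} [Field K] {ι ι' : Type*}

/-- The archimedean size of a polynomial: the sum of the absolute values of its coefficients. -/
noncomputable def htlnSum (v : AbsoluteValue K ℝ) (p : MvPolynomial ι K) : ℝ :=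
  (AddMonoidAlgebra.coeff p).sum fun _ c => v c

/-- The nonarchimedean size of a polynomial: the Gauss norm. -/
noncomputable def htlnMax (v : AbsoluteValue K ℝ) (p : MvPolynomial ι K) : ℝ :=
  ⨆ s : p.support, v (coeff s p)

theorem htlnSum_nonneg (v : AbsoluteValue K ℝ) (p : MvPolynomial ι K) : 0 ≤ htlnSum v p :=
  Finset.sum_nonneg fun _ _ => v.nonneg _

theorem htlnMax_nonneg (v : AbsoluteValue K ℝ) (p : MvPolynomial ι K) : 0 ≤ htlnMax v p :=
  Real.iSup_nonneg fun _ => v.nonneg _

/-- Local upper bound, any absolute value (Mathlib's `AbsoluteValue.eval_mvPolynomial_le`). -/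
theorem htln_le_arch [Finite ι] (v : AbsoluteValue K ℝ) {p : MvPolynomial ι K} {N : ℕ}
    (hp : p.IsHomogeneous N) (x : ι → K) :
    v (p.eval x) ≤ htlnSum v p * (⨆ i, v (x i)) ^ N :=
  AbsoluteValue.eval_mvPolynomial_le v hp x

/-- Local upper bound, nonarchimedean (Mathlib's `IsNonarchimedean.eval_mvPolynomial_le`). -/
theorem htln_le_nonarch [Finite ι] {v : AbsoluteValue K ℝ} (hv : IsNonarchimedean v)
    {p : MvPolynomial ι K} {N : ℕ} (hp : p.IsHomogeneous N) (x : ι → K) :
    v (p.eval x) ≤ htlnMax v p * (⨆ i, v (x i)) ^ N :=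
  IsNonarchimedean.eval_mvPolynomial_le hv hp x

theorem htln_sup_pos [Finite ι] (v : AbsoluteValue K ℝ) {x : ι → K} (hx : x ≠ 0) :
    0 < ⨆ i, v (x i) := by
  obtain ⟨i, hi⟩ := Function.ne_iff.mp hx
  exact lt_of_lt_of_le (v.pos hi) (Finite.le_ciSup (fun j => v (x j)) i)

section Arch

variable [Finite ι] [Fintype ι']

/-- Unnormalised local lower bound, any absolute value. -/
theorem htln_pow_le_arch (v : AbsoluteValue K ℝ) {M N : ℕ}
    {q : ι × ι' → MvPolynomial ι K} (hq : ∀ a, (q a).IsHomogeneous M)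
    (p : ι' → MvPolynomial ι K) {x : ι → K} (hx : x ≠ 0)
    (h : ∀ k, ∑ j, (q (k, j)).eval x * (p j).eval x = x k ^ (M + N)) :
    (⨆ k, v (x k)) ^ (M + N) ≤
      (Fintype.card ι' * ⨆ a, htlnSum v (q a)) * (⨆ k, v (x k)) ^ M * ⨆ j, v ((p j).eval x) := by
  obtain ⟨i₀, hi₀⟩ := Function.ne_iff.mp hx
  have : Nonempty ι := ⟨i₀⟩
  set S := ⨆ k, v (x k) with hS
  set P := ⨆ j, v ((p j).eval x) with hP
  set B := ⨆ a, htlnSum v (q a) with hB
  have hS0 : 0 ≤ S := (htln_sup_pos v hx).le
  have hB0 : 0 ≤ B := Real.iSup_nonneg fun a => htlnSum_nonneg v (q a)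
  have hP0 : 0 ≤ P := Real.iSup_nonneg fun j => v.nonneg _
  obtain ⟨k₀, hk₀⟩ := exists_eq_ciSup_of_finite (f := fun k => v (x k))
  have hk₀' : v (x k₀) = S := hk₀
  calc S ^ (M + N) = v (x k₀ ^ (M + N)) := by rw [map_pow, hk₀']
    _ = v (∑ j, (q (k₀, j)).eval x * (p j).eval x) := by rw [h k₀]
    _ ≤ ∑ j, v ((q (k₀, j)).eval x * (p j).eval x) := v.sum_le _ _
    _ ≤ ∑ _j : ι', B * S ^ M * P := by
        refine Finset.sum_le_sum fun j _ => ?_
        rw [map_mul]
        refine mul_le_mul ?_ (Finite.le_ciSup (fun j => v ((p j).eval x)) j) (v.nonneg _)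
          (mul_nonneg hB0 (pow_nonneg hS0 _))
        refine (htln_le_arch v (hq (k₀, j)) x).trans ?_
        refine mul_le_mul_of_nonneg_right ?_ (pow_nonneg hS0 _)
        exact Finite.le_ciSup (fun a => htlnSum v (q a)) (k₀, j)
    _ = (Fintype.card ι' * B) * S ^ M * P := by
        rw [Finset.sum_const, Finset.card_univ, nsmul_eq_mul]
        ring

/-- **Local lower bound from a certificate at the point, any absolute value.** -/
theorem htln_ge_arch (v : AbsoluteValue K ℝ) {M N : ℕ}
    {q : ι × ι' → MvPolynomial ι K} (hq : ∀ a, (q a).IsHomogeneous M)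
    (p : ι' → MvPolynomial ι K) {x : ι → K} (hx : x ≠ 0)
    (h : ∀ k, ∑ j, (q (k, j)).eval x * (p j).eval x = x k ^ (M + N)) :
    (⨆ k, v (x k)) ^ N ≤
      (Fintype.card ι' * ⨆ a, htlnSum v (q a)) * ⨆ j, v ((p j).eval x) := by
  have hpos := htln_sup_pos v hx
  have h1 := htln_pow_le_arch v hq p hx h
  have hM : 0 < (⨆ k, v (x k)) ^ M := pow_pos hpos _
  refine le_of_mul_le_mul_right ?_ hM
  calc (⨆ k, v (x k)) ^ N * (⨆ k, v (x k)) ^ M = (⨆ k, v (x k)) ^ (M + N) := by
        rw [pow_add]; ring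
    _ ≤ _ := h1
    _ = _ := by ring

/-- Unnormalised local lower bound, nonarchimedean. -/
theorem htln_pow_le_nonarch {v : AbsoluteValue K ℝ} (hv : IsNonarchimedean v) {M N : ℕ}
    {q : ι × ι' → MvPolynomial ι K} (hq : ∀ a, (q a).IsHomogeneous M)
    (p : ι' → MvPolynomial ι K) {x : ι → K} (hx : x ≠ 0)
    (h : ∀ k, ∑ j, (q (k, j)).eval x * (p j).eval x = x k ^ (M + N)) :
    (⨆ k, v (x k)) ^ (M + N) ≤
      (⨆ a, htlnMax v (q a)) * (⨆ k, v (x k)) ^ M * ⨆ j, v ((p j).eval x) := by
  obtain ⟨i₀, hi₀⟩ := Function.ne_iff.mp hx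
  have : Nonempty ι := ⟨i₀⟩
  set S := ⨆ k, v (x k) with hS
  set P := ⨆ j, v ((p j).eval x) with hP
  set B := ⨆ a, htlnMax v (q a) with hB
  have hS0 : 0 ≤ S := (htln_sup_pos v hx).le
  have hB0 : 0 ≤ B := Real.iSup_nonneg fun a => htlnMax_nonneg v (q a)
  have hP0 : 0 ≤ P := Real.iSup_nonneg fun j => v.nonneg _
  obtain ⟨k₀, hk₀⟩ := exists_eq_ciSup_of_finite (f := fun k => v (x k))
  have hk₀' : v (x k₀) = S := hk₀
  calc S ^ (M + N) = v (x k₀ ^ (M + N)) := by rw [map_pow, hk₀']
    _ = v (∑ j, (q (k₀, j)).eval x * (p j).eval x) := by rw [h k₀]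
    _ ≤ ⨆ j, v ((q (k₀, j)).eval x * (p j).eval x) := hv.apply_sum_univ_le
    _ ≤ B * S ^ M * P := by
        refine Real.iSup_le (fun j => ?_) (mul_nonneg (mul_nonneg hB0 (pow_nonneg hS0 _)) hP0)
        rw [map_mul]
        refine mul_le_mul ?_ (Finite.le_ciSup (fun j => v ((p j).eval x)) j) (v.nonneg _)
          (mul_nonneg hB0 (pow_nonneg hS0 _))
        refine (htln_le_nonarch hv (hq (k₀, j)) x).trans ?_
        refine mul_le_mul_of_nonneg_right ?_ (pow_nonneg hS0 _)
        exact Finite.le_ciSup (fun a => htlnMax v (q a)) (k₀, j)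

/-- **Local lower bound from a certificate at the point, nonarchimedean.**  The constant is the
Gauss norm of the certificate: `≤ 1` as soon as all coefficients of `q` are `v`-integral. -/
theorem htln_ge_nonarch {v : AbsoluteValue K ℝ} (hv : IsNonarchimedean v) {M N : ℕ}
    {q : ι × ι' → MvPolynomial ι K} (hq : ∀ a, (q a).IsHomogeneous M)
    (p : ι' → MvPolynomial ι K) {x : ι → K} (hx : x ≠ 0)
    (h : ∀ k, ∑ j, (q (k, j)).eval x * (p j).eval x = x k ^ (M + N)) :
    (⨆ k, v (x k)) ^ N ≤ (⨆ a, htlnMax v (q a)) * ⨆ j, v ((p j).eval x) := by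
  have hpos := htln_sup_pos v hx
  have h1 := htln_pow_le_nonarch hv hq p hx h
  have hM : 0 < (⨆ k, v (x k)) ^ M := pow_pos hpos _
  refine le_of_mul_le_mul_right ?_ hM
  calc (⨆ k, v (x k)) ^ N * (⨆ k, v (x k)) ^ M = (⨆ k, v (x k)) ^ (M + N) := by
        rw [pow_add]; ring
    _ ≤ _ := h1
    _ = _ := by ring

end Arch

end Fermat.Agent.HT

namespace Fermat.Agent.HT

open MvPolynomial NumberField

variable {K : Type*} [Field K] {ι ι' : Type*}

theorem htlnMax_le_one_of_integral (v : AbsoluteValue K ℝ) (p : MvPolynomial ι K)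
    (hp : ∀ s, v (coeff s p) ≤ 1) : htlnMax v p ≤ 1 :=
  Real.iSup_le (fun s => hp s) zero_le_one

/-- Over a number field, the nonarchimedean constants of a finite certificate are `1` at almost
all finite places (so the local bounds can be multiplied up over all places). -/
theorem htln_const_hasFiniteMulSupport [NumberField K] {α : Type*} [Finite α]
    (q : α → MvPolynomial ι K) :
    (fun v : FinitePlace K => max 1 (⨆ a, htlnMax v.val (q a))).HasFiniteMulSupport := by
  classical
  -- the finite set of all nonzero coefficients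
  have hfin : ∀ a, ∀ s : (q a).support,
      (fun v : FinitePlace K => v.val (coeff (s : ι →₀ ℕ) (q a))).HasFiniteMulSupport := fun a s =>
    FinitePlace.hasFiniteMulSupport (MvPolynomial.mem_support_iff.mp s.2)
  -- outside the union of the supports everything is `1`
  have hU : (⋃ a, ⋃ s : (q a).support,
      Function.mulSupport fun v : FinitePlace K => v.val (coeff (s : ι →₀ ℕ) (q a))).Finite :=
    Set.finite_iUnion fun a => Set.finite_iUnion fun s => hfin a s
  refine hU.subset fun v hv => ?_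
  by_contra hnot
  apply hv
  simp only [Set.mem_iUnion, Function.mem_mulSupport, not_exists, not_not] at hnot
  have h1 : (⨆ a, htlnMax v.val (q a)) ≤ 1 := by
    refine Real.iSup_le (fun a => ?_) zero_le_one
    exact Real.iSup_le (fun s => (hnot a s).le) zero_le_one
  exact max_eq_left h1

end Fermat.Agent.HT
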