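import Fermat.Agent.HT.Loc
import Fermat.Agent.HT.LocalNss

/-!
# Local lower bounds from a BIHOMOGENEOUS Nullstellensatz certificate (S17 heights, LOC-2, local half)

Two groups of variables `ι₁ ⊕ ι₂` (`P(V) × C`).  If `q ((i, l), j)` are bihomogeneous of bidegree
`(M₁, M₂)` and, AT THE POINT `(u, y)`, `∑ j, q ((i, l), j)(u, y) * P j = u i ^ (M₁ + N₁) * y l ^ (M₂ + N₂)`
for all `i, l`, then `‖u‖ ^ N₁ * ‖y‖ ^ N₂ ≤ C(w) * max_j |P j|`, with `C` a local constant in the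
sense of `HtConst` depending only on `q`.
-/

namespace Fermat.Agent.HT

open MvPolynomial

variable {K : Type*} [Field K] {ι₁ ι₂ ι' : Type*}

/-- `q` is bihomogeneous of bidegree `(M₁, M₂)` (condition on the support). -/
def HtlbBihom [Fintype ι₁] [Fintype ι₂] (q : MvPolynomial (ι₁ ⊕ ι₂) K) (M₁ M₂ : ℕ) : Prop :=
  ∀ m ∈ q.support, ∑ i, m (Sum.inl i) = M₁ ∧ ∑ l, m (Sum.inr l) = M₂

section Monomial

variable [Fintype ι₁] [Fintype ι₂]

/-- Absolute value of a monomial in two groups of variables. -/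
theorem htlb_monomial_le (v : AbsoluteValue K ℝ) (u : ι₁ → K) (y : ι₂ → K) (m : ι₁ ⊕ ι₂ →₀ ℕ) :
    v (∏ s, Sum.elim u y s ^ m s) ≤
      (⨆ i, v (u i)) ^ (∑ i, m (Sum.inl i)) * (⨆ l, v (y l)) ^ (∑ l, m (Sum.inr l)) := by
  rw [map_prod, Fintype.prod_sum_type]
  simp only [Sum.elim_inl, Sum.elim_inr, map_pow]
  have hU : 0 ≤ ⨆ i, v (u i) := Real.iSup_nonneg fun i => v.nonneg _
  have hY : 0 ≤ ⨆ l, v (y l) := Real.iSup_nonneg fun i => v.nonneg _
  refine mul_le_mul ?_ ?_ (Finset.prod_nonneg fun l _ => pow_nonneg (v.nonneg _) _)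
    (pow_nonneg hU _)
  · rw [← Finset.prod_pow_eq_pow_sum]
    exact Finset.prod_le_prod (fun i _ => pow_nonneg (v.nonneg _) _) fun i _ =>
      pow_le_pow_left₀ (v.nonneg _) (Finite.le_ciSup (fun i => v (u i)) i) _
  · rw [← Finset.prod_pow_eq_pow_sum]
    exact Finset.prod_le_prod (fun i _ => pow_nonneg (v.nonneg _) _) fun i _ =>
      pow_le_pow_left₀ (v.nonneg _) (Finite.le_ciSup (fun l => v (y l)) i) _

/-- Bihomogeneous upper bound, any absolute value. -/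
theorem htlb_eval_le_arch (v : AbsoluteValue K ℝ) {q : MvPolynomial (ι₁ ⊕ ι₂) K} {M₁ M₂ : ℕ}
    (hq : HtlbBihom q M₁ M₂) (u : ι₁ → K) (y : ι₂ → K) :
    v (eval (Sum.elim u y) q) ≤
      htlnSum v q * ((⨆ i, v (u i)) ^ M₁ * (⨆ l, v (y l)) ^ M₂) := by
  rw [eval_eq']
  refine (v.sum_le _ _).trans ?_
  unfold htlnSum
  rw [Finsupp.sum, Finset.sum_mul]
  refine Finset.sum_le_sum fun m hm => ?_
  rw [map_mul]
  have hm' : m ∈ q.support := hm
  obtain ⟨h1, h2⟩ := hq m hm'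
  have := htlb_monomial_le v u y m
  rw [h1, h2] at this
  exact mul_le_mul_of_nonneg_left this (v.nonneg _)

/-- Bihomogeneous upper bound, nonarchimedean. -/
theorem htlb_eval_le_nonarch {v : AbsoluteValue K ℝ} (hv : IsNonarchimedean v)
    {q : MvPolynomial (ι₁ ⊕ ι₂) K} {M₁ M₂ : ℕ}
    (hq : HtlbBihom q M₁ M₂) (u : ι₁ → K) (y : ι₂ → K) :
    v (eval (Sum.elim u y) q) ≤
      htlnMax v q * ((⨆ i, v (u i)) ^ M₁ * (⨆ l, v (y l)) ^ M₂) := by
  rw [eval_eq']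
  have hU : 0 ≤ ⨆ i, v (u i) := Real.iSup_nonneg fun i => v.nonneg _
  have hY : 0 ≤ ⨆ l, v (y l) := Real.iSup_nonneg fun i => v.nonneg _
  have hB : 0 ≤ htlnMax v q * ((⨆ i, v (u i)) ^ M₁ * (⨆ l, v (y l)) ^ M₂) :=
    mul_nonneg (htlnMax_nonneg v q) (mul_nonneg (pow_nonneg hU _) (pow_nonneg hY _))
  refine hv.apply_sum_le.trans (Real.iSup_le (fun m => ?_) hB)
  rw [map_mul]
  obtain ⟨h1, h2⟩ := hq m.1 m.2
  have := htlb_monomial_le v u y m.1
  rw [h1, h2] at this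
  refine mul_le_mul ?_ this (v.nonneg _) (htlnMax_nonneg v q)
  exact Finite.le_ciSup (fun s : q.support => v (coeff (s : ι₁ ⊕ ι₂ →₀ ℕ) q)) m

end Monomial

section Lower

variable [Fintype ι₁] [Fintype ι₂] [Fintype ι']

/-- Unnormalised bihomogeneous local lower bound with an abstract bound `B` for the certificate. -/
theorem htlb_pow_le (v : AbsoluteValue K ℝ) {M₁ M₂ N₁ N₂ : ℕ}
    (q : (ι₁ × ι₂) × ι' → MvPolynomial (ι₁ ⊕ ι₂) K) {u : ι₁ → K} {y : ι₂ → K} (hu : u ≠ 0)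
    (hy : y ≠ 0) (P : ι' → K) {A B : ℝ} (hB : 0 ≤ B)
    (hqB : ∀ c, v (eval (Sum.elim u y) (q c)) ≤
      B * ((⨆ i, v (u i)) ^ M₁ * (⨆ l, v (y l)) ^ M₂))
    (hsum : ∀ f : ι' → K, v (∑ j, f j) ≤ A * ⨆ j, v (f j))
    (h : ∀ i l, ∑ j, eval (Sum.elim u y) (q ((i, l), j)) * P j =
      u i ^ (M₁ + N₁) * y l ^ (M₂ + N₂)) (hA : 0 ≤ A) :
    (⨆ i, v (u i)) ^ (M₁ + N₁) * (⨆ l, v (y l)) ^ (M₂ + N₂) ≤
      (A * B) * ((⨆ i, v (u i)) ^ M₁ * (⨆ l, v (y l)) ^ M₂) * ⨆ j, v (P j) := by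
  obtain ⟨i₁, hi₁⟩ := Function.ne_iff.mp hu
  obtain ⟨l₁, hl₁⟩ := Function.ne_iff.mp hy
  have : Nonempty ι₁ := ⟨i₁⟩
  have : Nonempty ι₂ := ⟨l₁⟩
  set U := ⨆ i, v (u i) with hU
  set Y := ⨆ l, v (y l) with hY
  set Pm := ⨆ j, v (P j) with hPm
  have hU0 : 0 ≤ U := Real.iSup_nonneg fun i => v.nonneg _
  have hY0 : 0 ≤ Y := Real.iSup_nonneg fun i => v.nonneg _
  have hP0 : 0 ≤ Pm := Real.iSup_nonneg fun j => v.nonneg _
  obtain ⟨i₀, hi₀⟩ := exists_eq_ciSup_of_finite (f := fun i => v (u i))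
  obtain ⟨l₀, hl₀⟩ := exists_eq_ciSup_of_finite (f := fun l => v (y l))
  have hi₀' : v (u i₀) = U := hi₀
  have hl₀' : v (y l₀) = Y := hl₀
  have hUY : 0 ≤ U ^ M₁ * Y ^ M₂ := mul_nonneg (pow_nonneg hU0 _) (pow_nonneg hY0 _)
  calc U ^ (M₁ + N₁) * Y ^ (M₂ + N₂)
      = v (u i₀ ^ (M₁ + N₁) * y l₀ ^ (M₂ + N₂)) := by rw [map_mul, map_pow, map_pow, hi₀', hl₀']
    _ = v (∑ j, eval (Sum.elim u y) (q ((i₀, l₀), j)) * P j) := by rw [h i₀ l₀]
    _ ≤ A * ⨆ j, v (eval (Sum.elim u y) (q ((i₀, l₀), j)) * P j) := hsum _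
    _ ≤ A * (B * (U ^ M₁ * Y ^ M₂) * Pm) := by
        refine mul_le_mul_of_nonneg_left ?_ hA
        refine Real.iSup_le (fun j => ?_) (mul_nonneg (mul_nonneg hB hUY) hP0)
        rw [map_mul]
        exact mul_le_mul (hqB _) (Finite.le_ciSup (fun j => v (P j)) j) (v.nonneg _)
          (mul_nonneg hB hUY)
    _ = _ := by ring

/-- Normalised form: divide by `‖u‖ ^ M₁ * ‖y‖ ^ M₂`. -/
theorem htlb_ge_aux (v : AbsoluteValue K ℝ) {M₁ M₂ N₁ N₂ : ℕ}
    (q : (ι₁ × ι₂) × ι' → MvPolynomial (ι₁ ⊕ ι₂) K) {u : ι₁ → K} {y : ι₂ → K} (hu : u ≠ 0)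
    (hy : y ≠ 0) (P : ι' → K) {A B : ℝ} (hB : 0 ≤ B)
    (hqB : ∀ c, v (eval (Sum.elim u y) (q c)) ≤
      B * ((⨆ i, v (u i)) ^ M₁ * (⨆ l, v (y l)) ^ M₂))
    (hsum : ∀ f : ι' → K, v (∑ j, f j) ≤ A * ⨆ j, v (f j))
    (h : ∀ i l, ∑ j, eval (Sum.elim u y) (q ((i, l), j)) * P j =
      u i ^ (M₁ + N₁) * y l ^ (M₂ + N₂)) (hA : 0 ≤ A) :
    (⨆ i, v (u i)) ^ N₁ * (⨆ l, v (y l)) ^ N₂ ≤ (A * B) * ⨆ j, v (P j) := by
  have h1 := htlb_pow_le v q hu hy P hB hqB hsum h hA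
  have hUpos := htln_sup_pos v hu
  have hYpos := htln_sup_pos v hy
  have hpos : 0 < (⨆ i, v (u i)) ^ M₁ * (⨆ l, v (y l)) ^ M₂ :=
    mul_pos (pow_pos hUpos _) (pow_pos hYpos _)
  refine le_of_mul_le_mul_right ?_ hpos
  calc (⨆ i, v (u i)) ^ N₁ * (⨆ l, v (y l)) ^ N₂ *
        ((⨆ i, v (u i)) ^ M₁ * (⨆ l, v (y l)) ^ M₂)
      = (⨆ i, v (u i)) ^ (M₁ + N₁) * (⨆ l, v (y l)) ^ (M₂ + N₂) := by
        rw [pow_add, pow_add]; ring
    _ ≤ _ := h1
    _ = _ := by ring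

/-- **Bihomogeneous local lower bound from a certificate at the point, any absolute value.** -/
theorem htlb_ge_arch (v : AbsoluteValue K ℝ) {M₁ M₂ N₁ N₂ : ℕ}
    {q : (ι₁ × ι₂) × ι' → MvPolynomial (ι₁ ⊕ ι₂) K} (hq : ∀ c, HtlbBihom (q c) M₁ M₂)
    {u : ι₁ → K} {y : ι₂ → K} (hu : u ≠ 0) (hy : y ≠ 0) (P : ι' → K)
    (h : ∀ i l, ∑ j, eval (Sum.elim u y) (q ((i, l), j)) * P j =
      u i ^ (M₁ + N₁) * y l ^ (M₂ + N₂)) :
    (⨆ i, v (u i)) ^ N₁ * (⨆ l, v (y l)) ^ N₂ ≤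
      (Fintype.card ι' * ⨆ c, htlnSum v (q c)) * ⨆ j, v (P j) := by
  refine htlb_ge_aux v q hu hy P (A := Fintype.card ι') (B := ⨆ c, htlnSum v (q c))
    (Real.iSup_nonneg fun c => htlnSum_nonneg v (q c)) (fun c => ?_) (fun f => ?_) h
    (Nat.cast_nonneg _)
  · refine (htlb_eval_le_arch v (hq c) u y).trans ?_
    refine mul_le_mul_of_nonneg_right (Finite.le_ciSup (fun c => htlnSum v (q c)) c) ?_
    exact mul_nonneg (pow_nonneg (Real.iSup_nonneg fun i => v.nonneg _) _)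
      (pow_nonneg (Real.iSup_nonneg fun i => v.nonneg _) _)
  · refine (v.sum_le _ _).trans ?_
    refine (Finset.sum_le_sum fun j _ => Finite.le_ciSup (fun j => v (f j)) j).trans ?_
    rw [Finset.sum_const, Finset.card_univ, nsmul_eq_mul]

/-- **Bihomogeneous local lower bound from a certificate at the point, nonarchimedean.** -/
theorem htlb_ge_nonarch {v : AbsoluteValue K ℝ} (hv : IsNonarchimedean v) {M₁ M₂ N₁ N₂ : ℕ}
    {q : (ι₁ × ι₂) × ι' → MvPolynomial (ι₁ ⊕ ι₂) K} (hq : ∀ c, HtlbBihom (q c) M₁ M₂)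
    {u : ι₁ → K} {y : ι₂ → K} (hu : u ≠ 0) (hy : y ≠ 0) (P : ι' → K)
    (h : ∀ i l, ∑ j, eval (Sum.elim u y) (q ((i, l), j)) * P j =
      u i ^ (M₁ + N₁) * y l ^ (M₂ + N₂)) :
    (⨆ i, v (u i)) ^ N₁ * (⨆ l, v (y l)) ^ N₂ ≤ (⨆ c, htlnMax v (q c)) * ⨆ j, v (P j) := by
  have := htlb_ge_aux v q hu hy P (A := 1) (B := ⨆ c, htlnMax v (q c))
    (Real.iSup_nonneg fun c => htlnMax_nonneg v (q c)) (fun c => ?_) (fun f => ?_) h zero_le_one
  · simpa using this
  · refine (htlb_eval_le_nonarch hv (hq c) u y).trans ?_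
    refine mul_le_mul_of_nonneg_right (Finite.le_ciSup (fun c => htlnMax v (q c)) c) ?_
    exact mul_nonneg (pow_nonneg (Real.iSup_nonneg fun i => v.nonneg _) _)
      (pow_nonneg (Real.iSup_nonneg fun i => v.nonneg _) _)
  · rw [one_mul]
    exact hv.apply_sum_univ_le

end Lower

section Const

/-- Every element of `cs` is bounded by the product defining `HtConst.val`. -/
theorem htlb_le_prod_max (w : AbsoluteValue K ℝ) {cs : Finset K} {a : K} (ha : a ∈ cs) :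
    w a ≤ ∏ c ∈ cs, max 1 (w c) := by
  have := Finset.le_prod_max_one ha (fun c => w c)
  simpa only [max_comm] using this

theorem htlb_one_le_prod_max (w : AbsoluteValue K ℝ) (cs : Finset K) :
    1 ≤ ∏ c ∈ cs, max 1 (w c) :=
  Finset.one_le_prod fun _ _ => le_max_left _ _

open Classical in
/-- The finite set of all coefficients of a finite family of polynomials. -/
noncomputable def htlbCoeffs {σ α : Type*} [Fintype α] (q : α → MvPolynomial σ K) : Finset K :=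
  Finset.univ.biUnion fun c => (q c).support.image fun m => coeff m (q c)

theorem htlb_coeff_mem {σ α : Type*} [Fintype α] (q : α → MvPolynomial σ K) (c : α)
    {m : σ →₀ ℕ} (hm : m ∈ (q c).support) : coeff m (q c) ∈ htlbCoeffs q := by
  classical
  unfold htlbCoeffs
  exact Finset.mem_biUnion.mpr ⟨c, Finset.mem_univ _, Finset.mem_image_of_mem _ hm⟩

/-- The local constant attached to a finite family of polynomials `q` and a multiplicity `n`:
it dominates `n * ⨆ c, htlnSum w (q c)` at every absolute value and `⨆ c, htlnMax w (q c)` at the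
nonarchimedean ones. -/
noncomputable def htlbConst {σ α : Type*} [Fintype α] (q : α → MvPolynomial σ K) (n : ℕ) :
    HtConst K :=
  ⟨htlbCoeffs q, n * ∑ c, (q c).support.card, 1⟩

theorem htlbConst_val_nonarch {σ α : Type*} [Fintype α] (q : α → MvPolynomial σ K) (n : ℕ)
    {w : AbsoluteValue K ℝ} (hw : IsNonarchimedean w) :
    (htlbConst q n).val w = ∏ c ∈ htlbCoeffs q, max 1 (w c) := by
  simp [htlbConst, HtConst.val, hw]

theorem htlbConst_val_arch {σ α : Type*} [Fintype α] (q : α → MvPolynomial σ K) (n : ℕ)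
    {w : AbsoluteValue K ℝ} (hw : ¬ IsNonarchimedean w) :
    (htlbConst q n).val w =
      ((n * ∑ c, (q c).support.card + 1 : ℕ) : ℝ) * ∏ c ∈ htlbCoeffs q, max 1 (w c) := by
  simp [htlbConst, HtConst.val, hw]

theorem htlb_max_le_const {σ α : Type*} [Fintype α] (q : α → MvPolynomial σ K) (n : ℕ)
    {w : AbsoluteValue K ℝ} (hw : IsNonarchimedean w) :
    (⨆ c, htlnMax w (q c)) ≤ (htlbConst q n).val w := by
  rw [htlbConst_val_nonarch q n hw]
  have h1 := htlb_one_le_prod_max w (htlbCoeffs q)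
  refine Real.iSup_le (fun c => ?_) (zero_le_one.trans h1)
  refine Real.iSup_le (fun m => ?_) (zero_le_one.trans h1)
  exact htlb_le_prod_max w (htlb_coeff_mem q c m.2)

theorem htlb_sum_le_const {σ α : Type*} [Fintype α] (q : α → MvPolynomial σ K) (n : ℕ)
    {w : AbsoluteValue K ℝ} (hw : ¬ IsNonarchimedean w) :
    (n : ℝ) * (⨆ c, htlnSum w (q c)) ≤ (htlbConst q n).val w := by
  rw [htlbConst_val_arch q n hw]
  set Pw := ∏ c ∈ htlbCoeffs q, max 1 (w c) with hPw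
  have h1 : 1 ≤ Pw := htlb_one_le_prod_max w (htlbCoeffs q)
  have h0 : 0 ≤ Pw := zero_le_one.trans h1
  have hS : (⨆ c, htlnSum w (q c)) ≤ ((∑ c, (q c).support.card : ℕ) : ℝ) * Pw := by
    refine Real.iSup_le (fun c => ?_) (mul_nonneg (Nat.cast_nonneg _) h0)
    have h2 : htlnSum w (q c) ≤ ((q c).support.card : ℝ) * Pw := by
      unfold htlnSum
      rw [Finsupp.sum]
      refine (Finset.sum_le_sum fun m hm => htlb_le_prod_max w (htlb_coeff_mem q c hm)).trans ?_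
      rw [Finset.sum_const, nsmul_eq_mul]
    refine h2.trans (mul_le_mul_of_nonneg_right ?_ h0)
    exact_mod_cast Finset.single_le_sum (f := fun c => (q c).support.card)
      (fun _ _ => Nat.zero_le _) (Finset.mem_univ c)
  calc (n : ℝ) * (⨆ c, htlnSum w (q c))
      ≤ (n : ℝ) * (((∑ c, (q c).support.card : ℕ) : ℝ) * Pw) :=
        mul_le_mul_of_nonneg_left hS (Nat.cast_nonneg _)
    _ ≤ ((n * ∑ c, (q c).support.card + 1 : ℕ) : ℝ) * Pw := by
        push_cast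
        nlinarith

end Const

section Main

variable [Fintype ι₁] [Fintype ι₂] [Fintype ι']

/-- **LOC-2, local half (blueprint S17-heights v1.1 (b)).**  A bihomogeneous certificate `q` of
bidegree `(M₁, M₂)` gives a local constant `C` (depending only on `q`) such that at EVERY absolute
value `w` and every point `(u, y)`, `u ≠ 0`, `y ≠ 0`, at which the certificate identity holds for
the values `P j`, one has `‖u‖_w ^ N₁ * ‖y‖_w ^ N₂ ≤ C(w) * max_j |P j|_w`. -/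
theorem htlb_ge {M₁ M₂ : ℕ} (q : (ι₁ × ι₂) × ι' → MvPolynomial (ι₁ ⊕ ι₂) K)
    (hq : ∀ c, HtlbBihom (q c) M₁ M₂) (N₁ N₂ : ℕ) :
    ∃ C : HtConst K, ∀ (w : AbsoluteValue K ℝ) (u : ι₁ → K) (y : ι₂ → K) (P : ι' → K),
      u ≠ 0 → y ≠ 0 →
      (∀ i l, ∑ j, eval (Sum.elim u y) (q ((i, l), j)) * P j =
        u i ^ (M₁ + N₁) * y l ^ (M₂ + N₂)) →
      (⨆ i, w (u i)) ^ N₁ * (⨆ l, w (y l)) ^ N₂ ≤ C.val w * ⨆ j, w (P j) := by
  refine ⟨htlbConst q (Fintype.card ι'), fun w u y P hu hy h => ?_⟩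
  have hP0 : 0 ≤ ⨆ j, w (P j) := Real.iSup_nonneg fun j => w.nonneg _
  by_cases hw : IsNonarchimedean w
  · exact (htlb_ge_nonarch hw hq hu hy P h).trans
      (mul_le_mul_of_nonneg_right (htlb_max_le_const q _ hw) hP0)
  · exact (htlb_ge_arch w hq hu hy P h).trans
      (mul_le_mul_of_nonneg_right (htlb_sum_le_const q _ hw) hP0)

/-- Bihomogeneous upper bound in the local formalism: `|p(u, y)|_w ≤ C(w) ‖u‖ ^ a ‖y‖ ^ b`. -/
theorem htlb_eval_le {α : Type*} [Fintype α] {a b : ℕ} (p : α → MvPolynomial (ι₁ ⊕ ι₂) K)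
    (hp : ∀ c, HtlbBihom (p c) a b) :
    ∃ C : HtConst K, ∀ (w : AbsoluteValue K ℝ) (u : ι₁ → K) (y : ι₂ → K) (c : α),
      w (eval (Sum.elim u y) (p c)) ≤ C.val w * ((⨆ i, w (u i)) ^ a * (⨆ l, w (y l)) ^ b) := by
  refine ⟨htlbConst p 1, fun w u y c => ?_⟩
  have h0 : 0 ≤ (⨆ i, w (u i)) ^ a * (⨆ l, w (y l)) ^ b :=
    mul_nonneg (pow_nonneg (Real.iSup_nonneg fun i => w.nonneg _) _)
      (pow_nonneg (Real.iSup_nonneg fun i => w.nonneg _) _)
  by_cases hw : IsNonarchimedean w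
  · refine (htlb_eval_le_nonarch hw (hp c) u y).trans (mul_le_mul_of_nonneg_right ?_ h0)
    exact (Finite.le_ciSup (fun c => htlnMax w (p c)) c).trans (htlb_max_le_const p 1 hw)
  · refine (htlb_eval_le_arch w (hp c) u y).trans (mul_le_mul_of_nonneg_right ?_ h0)
    have := htlb_sum_le_const p 1 hw
    rw [Nat.cast_one, one_mul] at this
    exact (Finite.le_ciSup (fun c => htlnSum w (p c)) c).trans this

end Main

section Single

variable {ι : Type*} [Fintype ι] [Fintype ι']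

/-- **The version without `u`** (single-graded): a homogeneous certificate `q` of degree `M` gives
a local constant `C` with `‖x‖_w ^ N ≤ C(w) * max_j |P j|_w` at every point `x ≠ 0` at which
the certificate identity holds for the values `P j`. -/
theorem htlb_ge_single {M : ℕ} (q : ι × ι' → MvPolynomial ι K)
    (hq : ∀ a, (q a).IsHomogeneous M) (N : ℕ) :
    ∃ C : HtConst K, ∀ (w : AbsoluteValue K ℝ) (x : ι → K) (P : ι' → K), x ≠ 0 →
      (∀ k, ∑ j, eval x (q (k, j)) * P j = x k ^ (M + N)) →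
      (⨆ k, w (x k)) ^ N ≤ C.val w * ⨆ j, w (P j) := by
  refine ⟨htlbConst q (Fintype.card ι'), fun w x P hx h => ?_⟩
  have hP0 : 0 ≤ ⨆ j, w (P j) := Real.iSup_nonneg fun j => w.nonneg _
  have h' : ∀ k, ∑ j, (q (k, j)).eval x * (C (P j) : MvPolynomial ι K).eval x = x k ^ (M + N) := by
    intro k
    simpa only [eval_C] using h k
  by_cases hw : IsNonarchimedean w
  · have := htln_ge_nonarch hw hq (fun j => (C (P j) : MvPolynomial ι K)) hx h'
    simp only [eval_C] at this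
    exact this.trans (mul_le_mul_of_nonneg_right (htlb_max_le_const q _ hw) hP0)
  · have := htln_ge_arch w hq (fun j => (C (P j) : MvPolynomial ι K)) hx h'
    simp only [eval_C] at this
    exact this.trans (mul_le_mul_of_nonneg_right (htlb_sum_le_const q _ hw) hP0)

/-- Homogeneous upper bound in the local formalism: `|p(x)|_w ≤ C(w) ‖x‖ ^ N`. -/
theorem htlb_eval_le_single {α : Type*} [Fintype α] {N : ℕ} (p : α → MvPolynomial ι K)
    (hp : ∀ c, (p c).IsHomogeneous N) :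
    ∃ C : HtConst K, ∀ (w : AbsoluteValue K ℝ) (x : ι → K) (c : α),
      w (eval x (p c)) ≤ C.val w * (⨆ i, w (x i)) ^ N := by
  refine ⟨htlbConst p 1, fun w x c => ?_⟩
  have h0 : 0 ≤ (⨆ i, w (x i)) ^ N := pow_nonneg (Real.iSup_nonneg fun i => w.nonneg _) _
  by_cases hw : IsNonarchimedean w
  · refine (htln_le_nonarch hw (hp c) x).trans (mul_le_mul_of_nonneg_right ?_ h0)
    exact (Finite.le_ciSup (fun c => htlnMax w (p c)) c).trans (htlb_max_le_const p 1 hw)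
  · refine (htln_le_arch w (hp c) x).trans (mul_le_mul_of_nonneg_right ?_ h0)
    have := htlb_sum_le_const p 1 hw
    rw [Nat.cast_one, one_mul] at this
    exact (Finite.le_ciSup (fun c => htlnSum w (p c)) c).trans this

end Single

end Fermat.Agent.HT
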