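import Fermat.Agent.HT.Cone
import Fermat.Agent.HT.LocalNssBi

/-!
# LOC-2 in `φ`-coordinates (blueprint S17-heights v1.1 (b)): final assembly

`(C5)` (`HT/Cone.lean`, helper26) + the local half (`HT/LocalNssBi.lean`): bihomogeneous `p j` of
bidegree `(N₁, N₂)` without base point on `(V ∖ 0) × {points}` and on `(V ∖ 0) × {e_top}` satisfy
`‖u‖_w ^ N₁ * ‖χ ∘ φ‖_w ^ N₂ ≤ C(w) * max_j |p j (u, χ ∘ φ)|_w` with ONE local constant `C`.
-/

namespace Fermat.Agent.HT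

open MvPolynomial

variable {K : Type*} [Field K] {ι₁ ι₂ ι' : Type*}

/-- Bridge: bihomogeneity for the weight `htnsBiw` is the support condition `HtlbBihom`. -/
theorem htlb_bihom_of_weighted [Fintype ι₁] [Fintype ι₂] {q : MvPolynomial (ι₁ ⊕ ι₂) K}
    {M₁ M₂ : ℕ} (h : IsWeightedHomogeneous (htnsBiw ι₁ ι₂) q (M₁, M₂)) : HtlbBihom q M₁ M₂ := by
  intro m hm
  have h1 := h (mem_support_iff.mp hm)
  rw [Finsupp.weight_apply, Finsupp.sum_fintype m (fun i c => c • htnsBiw ι₁ ι₂ i)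
    (fun _ => zero_smul _ _), Fintype.sum_sum_type] at h1
  have h2 := congrArg Prod.fst h1
  have h3 := congrArg Prod.snd h1
  simp only [htnsBiw, Sum.elim_inl, Sum.elim_inr, Prod.fst_add, Prod.snd_add, Prod.fst_sum,
    Prod.snd_sum, Prod.smul_fst, Prod.smul_snd, smul_eq_mul, mul_one, mul_zero,
    Finset.sum_const_zero, add_zero, zero_add] at h2 h3
  exact ⟨h2, h3⟩

/-- The converse bridge. -/
theorem htlb_weighted_of_bihom [Fintype ι₁] [Fintype ι₂] {q : MvPolynomial (ι₁ ⊕ ι₂) K}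
    {M₁ M₂ : ℕ} (h : HtlbBihom q M₁ M₂) : IsWeightedHomogeneous (htnsBiw ι₁ ι₂) q (M₁, M₂) := by
  intro m hm
  obtain ⟨h2, h3⟩ := h m (mem_support_iff.mpr hm)
  rw [Finsupp.weight_apply, Finsupp.sum_fintype m (fun i c => c • htnsBiw ι₁ ι₂ i)
    (fun _ => zero_smul _ _), Fintype.sum_sum_type]
  refine Prod.ext ?_ ?_
  · simp only [htnsBiw, Sum.elim_inl, Sum.elim_inr, Prod.fst_add, Prod.fst_sum,
      Prod.smul_fst, smul_eq_mul, mul_one, mul_zero, Finset.sum_const_zero, add_zero]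
    exact h2
  · simp only [htnsBiw, Sum.elim_inl, Sum.elim_inr, Prod.snd_add, Prod.snd_sum,
      Prod.smul_snd, smul_eq_mul, mul_one, mul_zero, Finset.sum_const_zero, zero_add]
    exact h3

variable {F : Type*} [CommRing F] [Algebra K F]

section Bi

variable [IsAlgClosed K] [Fintype ι₁] [Fintype ι₂] [Fintype ι'] [DecidableEq ι₂]

/-- **LOC-2 in `φ`-coordinates**, `φ` a generating family of the `K`-algebra `F` (points =
`K`-algebra homomorphisms `F →ₐ[K] K`). -/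
theorem htcn_loc2_top (φ : ι₂ → F) (hgen : Algebra.adjoin K (Set.range φ) = ⊤) (i₀ top : ι₂)
    (h0 : φ i₀ = 1)
    (hpow : ∀ l, l ≠ top → ∃ n : ℕ, 0 < n ∧ ∃ p : MvPolynomial ι₂ K, p.IsHomogeneous (n - 1) ∧
      aeval φ p = φ l ^ n)
    {N₁ N₂ : ℕ} (p : ι' → MvPolynomial (ι₁ ⊕ ι₂) K)
    (hp : ∀ j, IsWeightedHomogeneous (htnsBiw ι₁ ι₂) (p j) (N₁, N₂))
    (haff : ∀ u : ι₁ → K, u ≠ 0 → ∀ χ : F →ₐ[K] K, ∃ j,
      eval (Sum.elim u (fun l => χ (φ l))) (p j) ≠ 0)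
    (hinf : ∀ u : ι₁ → K, u ≠ 0 → ∃ j, eval (Sum.elim u (Pi.single top (1 : K))) (p j) ≠ 0) :
    ∃ C : HtConst K, ∀ (w : AbsoluteValue K ℝ) (u : ι₁ → K) (χ : F →ₐ[K] K), u ≠ 0 →
      (⨆ i, w (u i)) ^ N₁ * (⨆ l, w (χ (φ l))) ^ N₂ ≤
        C.val w * ⨆ j, w (eval (Sum.elim u (fun l => χ (φ l))) (p j)) := by
  obtain ⟨M₁, M₂, q, hq, hcert⟩ :=
    htcn_exists_bicertificate_top φ hgen i₀ top h0 hpow p hp haff hinf
  obtain ⟨C, hC⟩ := htlb_ge q (fun c => htlb_bihom_of_weighted (hq c)) N₁ N₂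
  refine ⟨C, fun w u χ hu => ?_⟩
  have hy : (fun l => χ (φ l)) ≠ 0 := by
    intro h
    have := congrFun h i₀
    simp [h0] at this
  refine hC w u (fun l => χ (φ l)) (fun j => eval (Sum.elim u (fun l => χ (φ l))) (p j)) hu hy ?_
  intro i l
  have := htcn_bicertificate_at_algHom φ χ u hcert i l
  simpa only [aeval_eq_eval, coe_eval₂Hom] using this

/-- **LOC-2 in `φ`-coordinates**, general `φ` (points = `K`-algebra homomorphisms of the subalgebra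
generated by the `φ l`). -/
theorem htcn_loc2 (φ : ι₂ → F) (i₀ top : ι₂) (h0 : φ i₀ = 1)
    (hpow : ∀ l, l ≠ top → ∃ n : ℕ, 0 < n ∧ ∃ p : MvPolynomial ι₂ K, p.IsHomogeneous (n - 1) ∧
      aeval φ p = φ l ^ n)
    {N₁ N₂ : ℕ} (p : ι' → MvPolynomial (ι₁ ⊕ ι₂) K)
    (hp : ∀ j, IsWeightedHomogeneous (htnsBiw ι₁ ι₂) (p j) (N₁, N₂))
    (haff : ∀ u : ι₁ → K, u ≠ 0 → ∀ χ : Algebra.adjoin K (Set.range φ) →ₐ[K] K, ∃ j,
      eval (Sum.elim u
        (fun l => χ ⟨φ l, Algebra.subset_adjoin (Set.mem_range_self l)⟩)) (p j) ≠ 0)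
    (hinf : ∀ u : ι₁ → K, u ≠ 0 → ∃ j, eval (Sum.elim u (Pi.single top (1 : K))) (p j) ≠ 0) :
    ∃ C : HtConst K, ∀ (w : AbsoluteValue K ℝ) (u : ι₁ → K)
      (χ : Algebra.adjoin K (Set.range φ) →ₐ[K] K), u ≠ 0 →
      (⨆ i, w (u i)) ^ N₁ *
          (⨆ l, w (χ ⟨φ l, Algebra.subset_adjoin (Set.mem_range_self l)⟩)) ^ N₂ ≤
        C.val w * ⨆ j, w (eval (Sum.elim u
          (fun l => χ ⟨φ l, Algebra.subset_adjoin (Set.mem_range_self l)⟩)) (p j)) := by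
  obtain ⟨M₁, M₂, q, hq, hcert⟩ := htcn_exists_bicertificate φ i₀ top h0 hpow p hp haff hinf
  obtain ⟨C, hC⟩ := htlb_ge q (fun c => htlb_bihom_of_weighted (hq c)) N₁ N₂
  refine ⟨C, fun w u χ hu => ?_⟩
  set y : ι₂ → K := fun l => χ ⟨φ l, Algebra.subset_adjoin (Set.mem_range_self l)⟩ with hy_def
  have hy : y ≠ 0 := by
    intro h
    have h1 := congrFun h i₀
    have h2 : (⟨φ i₀, Algebra.subset_adjoin (Set.mem_range_self i₀)⟩ :
        Algebra.adjoin K (Set.range φ)) = 1 := Subtype.ext h0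
    simp only [hy_def, h2, map_one, Pi.zero_apply] at h1
    exact one_ne_zero h1
  refine hC w u y (fun j => eval (Sum.elim u y) (p j)) hu hy ?_
  intro i l
  have := htcn_bicertificate_at_point φ (Algebra.adjoin K (Set.range φ))
    (fun l => Algebra.subset_adjoin (Set.mem_range_self l)) χ u hcert i l
  simpa only [aeval_eq_eval, coe_eval₂Hom] using this

end Bi

section BiAll

variable [IsAlgClosed K] [Fintype ι₁] [Fintype ι₂] [Fintype ι'] [DecidableEq ι₂]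

/-- `htcn_loc2_top` for ALL `u` (including `u = 0`) when `0 < N₁`. -/
theorem htcn_loc2_top' (φ : ι₂ → F) (hgen : Algebra.adjoin K (Set.range φ) = ⊤) (i₀ top : ι₂)
    (h0 : φ i₀ = 1)
    (hpow : ∀ l, l ≠ top → ∃ n : ℕ, 0 < n ∧ ∃ p : MvPolynomial ι₂ K, p.IsHomogeneous (n - 1) ∧
      aeval φ p = φ l ^ n)
    {N₁ N₂ : ℕ} (hN₁ : 0 < N₁) (p : ι' → MvPolynomial (ι₁ ⊕ ι₂) K)
    (hp : ∀ j, IsWeightedHomogeneous (htnsBiw ι₁ ι₂) (p j) (N₁, N₂))
    (haff : ∀ u : ι₁ → K, u ≠ 0 → ∀ χ : F →ₐ[K] K, ∃ j,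
      eval (Sum.elim u (fun l => χ (φ l))) (p j) ≠ 0)
    (hinf : ∀ u : ι₁ → K, u ≠ 0 → ∃ j, eval (Sum.elim u (Pi.single top (1 : K))) (p j) ≠ 0) :
    ∃ C : HtConst K, ∀ (w : AbsoluteValue K ℝ) (u : ι₁ → K) (χ : F →ₐ[K] K),
      (⨆ i, w (u i)) ^ N₁ * (⨆ l, w (χ (φ l))) ^ N₂ ≤
        C.val w * ⨆ j, w (eval (Sum.elim u (fun l => χ (φ l))) (p j)) := by
  obtain ⟨C, hC⟩ := htcn_loc2_top φ hgen i₀ top h0 hpow p hp haff hinf
  refine ⟨C, fun w u χ => ?_⟩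
  by_cases hu : u = 0
  · subst hu
    have h1 : (⨆ i : ι₁, w ((0 : ι₁ → K) i)) = 0 := by simp
    rw [h1, zero_pow hN₁.ne', zero_mul]
    exact mul_nonneg (htl_val_nonneg C w) (Real.iSup_nonneg fun j => w.nonneg _)
  · exact hC w u χ hu

end BiAll

section Single

variable {ι : Type*} [IsAlgClosed K] [Fintype ι] [Fintype ι'] [DecidableEq ι]

/-- **The version without `u`**, `φ` a generating family: forms `p j` of degree `N` without base
point satisfy `‖χ ∘ φ‖_w ^ N ≤ C(w) * max_j |p j (χ ∘ φ)|_w`. -/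
theorem htcn_loc2_single_top (φ : ι → F) (hgen : Algebra.adjoin K (Set.range φ) = ⊤)
    (i₀ top : ι) (h0 : φ i₀ = 1)
    (hpow : ∀ i, i ≠ top → ∃ n : ℕ, 0 < n ∧ ∃ p : MvPolynomial ι K, p.IsHomogeneous (n - 1) ∧
      aeval φ p = φ i ^ n)
    {N : ℕ} (p : ι' → MvPolynomial ι K) (hp : ∀ j, (p j).IsHomogeneous N)
    (haff : ∀ χ : F →ₐ[K] K, ∃ j, eval (fun i => χ (φ i)) (p j) ≠ 0)
    (hinf : ∃ j, eval (Pi.single top (1 : K)) (p j) ≠ 0) :
    ∃ C : HtConst K, ∀ (w : AbsoluteValue K ℝ) (χ : F →ₐ[K] K),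
      (⨆ i, w (χ (φ i))) ^ N ≤ C.val w * ⨆ j, w (eval (fun i => χ (φ i)) (p j)) := by
  obtain ⟨M, q, hq, hcert⟩ := htcn_exists_certificate_top φ hgen i₀ top h0 hpow p hp haff hinf
  obtain ⟨C, hC⟩ := htlb_ge_single q hq N
  refine ⟨C, fun w χ => ?_⟩
  have hy : (fun i => χ (φ i)) ≠ 0 := by
    intro h
    have := congrFun h i₀
    simp [h0] at this
  refine hC w (fun i => χ (φ i)) (fun j => eval (fun i => χ (φ i)) (p j)) hy ?_
  intro i
  have := htcn_certificate_at_algHom φ χ hcert i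
  simpa only [aeval_eq_eval, coe_eval₂Hom] using this

/-- **The version without `u`**, general `φ`. -/
theorem htcn_loc2_single (φ : ι → F) (i₀ top : ι) (h0 : φ i₀ = 1)
    (hpow : ∀ i, i ≠ top → ∃ n : ℕ, 0 < n ∧ ∃ p : MvPolynomial ι K, p.IsHomogeneous (n - 1) ∧
      aeval φ p = φ i ^ n)
    {N : ℕ} (p : ι' → MvPolynomial ι K) (hp : ∀ j, (p j).IsHomogeneous N)
    (haff : ∀ χ : Algebra.adjoin K (Set.range φ) →ₐ[K] K, ∃ j,
      eval (fun i => χ ⟨φ i, Algebra.subset_adjoin (Set.mem_range_self i)⟩) (p j) ≠ 0)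
    (hinf : ∃ j, eval (Pi.single top (1 : K)) (p j) ≠ 0) :
    ∃ C : HtConst K, ∀ (w : AbsoluteValue K ℝ) (χ : Algebra.adjoin K (Set.range φ) →ₐ[K] K),
      (⨆ i, w (χ ⟨φ i, Algebra.subset_adjoin (Set.mem_range_self i)⟩)) ^ N ≤
        C.val w * ⨆ j, w (eval
          (fun i => χ ⟨φ i, Algebra.subset_adjoin (Set.mem_range_self i)⟩) (p j)) := by
  obtain ⟨M, q, hq, hcert⟩ := htcn_exists_certificate φ i₀ top h0 hpow p hp haff hinf
  obtain ⟨C, hC⟩ := htlb_ge_single q hq N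
  refine ⟨C, fun w χ => ?_⟩
  set y : ι → K := fun i => χ ⟨φ i, Algebra.subset_adjoin (Set.mem_range_self i)⟩ with hy_def
  have hy : y ≠ 0 := by
    intro h
    have h1 := congrFun h i₀
    have h2 : (⟨φ i₀, Algebra.subset_adjoin (Set.mem_range_self i₀)⟩ :
        Algebra.adjoin K (Set.range φ)) = 1 := Subtype.ext h0
    simp only [hy_def, h2, map_one, Pi.zero_apply] at h1
    exact one_ne_zero h1
  refine hC w y (fun j => eval y (p j)) hy ?_
  intro i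
  have := htcn_certificate_at_point φ (Algebra.adjoin K (Set.range φ))
    (fun l => Algebra.subset_adjoin (Set.mem_range_self l)) χ hcert i
  simpa only [aeval_eq_eval, coe_eval₂Hom] using this

end Single

end Fermat.Agent.HT
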