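import Mathlib

/-!
# Kronecker substitution (S17 heights, leaf HT/Gelfond)

`htggKron D : MvPolynomial (Fin n) K →ₐ[K] K[X]`, `X_i ↦ X ^ (D ^ i)`.  On polynomials all of whose
partial degrees are `< D` it preserves the family of coefficients.
-/

set_option autoImplicit false

namespace Fermat.Agent.HT

open Polynomial

/-- The base-`D` value of an exponent vector. -/
def htggExpF {n : ℕ} (D : ℕ) (m : Fin n → ℕ) : ℕ := ∑ i : Fin n, m i * D ^ (i : ℕ)

theorem htggExpF_succ {n : ℕ} (D : ℕ) (m : Fin (n + 1) → ℕ) :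
    htggExpF D m = m 0 + D * htggExpF D (fun j => m j.succ) := by
  unfold htggExpF
  rw [Fin.sum_univ_succ, Finset.mul_sum]
  congr 1
  · simp
  · refine Finset.sum_congr rfl fun j _ => ?_
    simp only [Fin.val_succ, pow_succ]
    ring

theorem htggExpF_inj : ∀ {n : ℕ} (D : ℕ) (m m' : Fin n → ℕ), (∀ i, m i < D) → (∀ i, m' i < D) →
    htggExpF D m = htggExpF D m' → m = m'
  | 0, _, m, m', _, _, _ => by funext i; exact Fin.elim0 i
  | n + 1, D, m, m', hm, hm', h => by
    rw [htggExpF_succ, htggExpF_succ] at h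
    have hD : 0 < D := lt_of_le_of_lt (Nat.zero_le _) (hm 0)
    have h0 : m 0 = m' 0 := by
      have := congrArg (· % D) h
      simpa [Nat.add_mul_mod_self_left, Nat.mod_eq_of_lt (hm 0), Nat.mod_eq_of_lt (hm' 0)] using this
    have ht : htggExpF D (fun j => m j.succ) = htggExpF D (fun j => m' j.succ) := by
      rw [h0] at h
      exact Nat.eq_of_mul_eq_mul_left hD (Nat.add_left_cancel h)
    have := htggExpF_inj D _ _ (fun j => hm j.succ) (fun j => hm' j.succ) ht
    funext i
    refine Fin.cases h0 (fun j => ?_) i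
    exact congrFun this j

variable {K : Type*} [CommRing K]

/-- The Kronecker substitution `X_i ↦ X ^ (D ^ i)`. -/
noncomputable def htggKron {n : ℕ} (D : ℕ) : MvPolynomial (Fin n) K →ₐ[K] K[X] :=
  MvPolynomial.aeval fun i : Fin n => (X : K[X]) ^ D ^ (i : ℕ)

theorem htggKron_monomial {n : ℕ} (D : ℕ) (m : Fin n →₀ ℕ) (a : K) :
    htggKron D (MvPolynomial.monomial m a) = Polynomial.monomial (htggExpF D m) a := by
  unfold htggKron
  rw [MvPolynomial.aeval_monomial, Finsupp.prod_fintype _ _ (fun i => by simp)]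
  simp only [← pow_mul]
  have hsum : (∑ i : Fin n, D ^ (i : ℕ) * m i) = htggExpF D m := by
    unfold htggExpF
    exact Finset.sum_congr rfl fun i _ => Nat.mul_comm _ _
  rw [Finset.prod_pow_eq_pow_sum, ← Polynomial.C_eq_algebraMap, Polynomial.C_mul_X_pow_eq_monomial,
    hsum]

theorem htggKron_eq_sum {n : ℕ} (D : ℕ) (f : MvPolynomial (Fin n) K) :
    htggKron D f = ∑ m ∈ f.support, Polynomial.monomial (htggExpF D m) (f.coeff m) := by
  conv_lhs => rw [f.as_sum]
  rw [map_sum]
  exact Finset.sum_congr rfl fun m _ => htggKron_monomial D m _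

/-- Coefficient of the Kronecker image at the code of an exponent vector in the box. -/
theorem htggKron_coeff_exp {n : ℕ} (D : ℕ) (f : MvPolynomial (Fin n) K)
    (hf : ∀ m ∈ f.support, ∀ i, m i < D) (m : Fin n →₀ ℕ) (hm : ∀ i, m i < D) :
    (htggKron D f).coeff (htggExpF D m) = f.coeff m := by
  rw [htggKron_eq_sum, Polynomial.finsetSum_coeff]
  simp only [Polynomial.coeff_monomial]
  by_cases hmem : m ∈ f.support
  · rw [Finset.sum_eq_single m]
    · simp
    · intro m' hm' hne
      rw [if_neg]
      intro h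
      exact hne (DFunLike.coe_injective (htggExpF_inj D _ _ (hf m' hm') hm h))
    · intro h; exact absurd hmem h
  · rw [Finset.sum_eq_zero]
    · exact (MvPolynomial.notMem_support_iff.mp hmem).symm
    · intro m' hm'
      rw [if_neg]
      intro h
      have : m' = m := DFunLike.coe_injective (htggExpF_inj D _ _ (hf m' hm') hm h)
      exact hmem (this ▸ hm')

/-- Every coefficient of the Kronecker image is `0` or a coefficient of `f`. -/
theorem htggKron_coeff_eq {n : ℕ} (D : ℕ) (f : MvPolynomial (Fin n) K)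
    (hf : ∀ m ∈ f.support, ∀ i, m i < D) (k : ℕ) :
    (htggKron D f).coeff k = 0 ∨ ∃ m ∈ f.support, (htggKron D f).coeff k = f.coeff m := by
  by_cases h : ∃ m ∈ f.support, htggExpF D m = k
  · obtain ⟨m, hm, rfl⟩ := h
    exact Or.inr ⟨m, hm, htggKron_coeff_exp D f hf m (hf m hm)⟩
  · left
    rw [htggKron_eq_sum, Polynomial.finsetSum_coeff]
    refine Finset.sum_eq_zero fun m hm => ?_
    rw [Polynomial.coeff_monomial, if_neg]
    intro hk
    exact h ⟨m, hm, hk⟩

end Fermat.Agent.HT
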