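import Mathlib
import Fermat.Agent.HT.Kronecker

/-!
# Sup norms of coefficient vectors (S17 heights, leaf HT/Gelfond)
-/

set_option autoImplicit false

namespace Fermat.Agent.HT

open Polynomial

variable {K : Type*} [Field K] {σ : Type*}

/-- Gauss/sup norm of the coefficient vector of a multivariate polynomial. -/
noncomputable def htggSup (v : AbsoluteValue K ℝ) (f : MvPolynomial σ K) : ℝ :=
  ⨆ m : σ →₀ ℕ, v (f.coeff m)

/-- Gauss/sup norm of the coefficient vector of a univariate polynomial. -/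
noncomputable def htggSup1 (v : AbsoluteValue K ℝ) (p : K[X]) : ℝ :=
  ⨆ k : ℕ, v (p.coeff k)

theorem htggSup_bdd (v : AbsoluteValue K ℝ) (f : MvPolynomial σ K) :
    BddAbove (Set.range fun m : σ →₀ ℕ => v (f.coeff m)) := by
  classical
  refine ((f.support.image fun m => v (f.coeff m)).finite_toSet.union
    (Set.finite_singleton (0 : ℝ))).bddAbove.mono ?_
  rintro _ ⟨m, rfl⟩
  by_cases hm : m ∈ f.support
  · exact Or.inl (Finset.mem_coe.mpr (Finset.mem_image_of_mem _ hm))
  · right
    simp [MvPolynomial.notMem_support_iff.mp hm]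

theorem htggSup1_bdd (v : AbsoluteValue K ℝ) (p : K[X]) :
    BddAbove (Set.range fun k : ℕ => v (p.coeff k)) := by
  classical
  refine ((p.support.image fun k => v (p.coeff k)).finite_toSet.union
    (Set.finite_singleton (0 : ℝ))).bddAbove.mono ?_
  rintro _ ⟨k, rfl⟩
  by_cases hk : k ∈ p.support
  · exact Or.inl (Finset.mem_coe.mpr (Finset.mem_image_of_mem _ hk))
  · right
    simp [Polynomial.notMem_support_iff.mp hk]

theorem htgg_le_sup (v : AbsoluteValue K ℝ) (f : MvPolynomial σ K) (m : σ →₀ ℕ) :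
    v (f.coeff m) ≤ htggSup v f :=
  le_ciSup (htggSup_bdd v f) m

theorem htgg_le_sup1 (v : AbsoluteValue K ℝ) (p : K[X]) (k : ℕ) :
    v (p.coeff k) ≤ htggSup1 v p :=
  le_ciSup (htggSup1_bdd v p) k

theorem htggSup_nonneg (v : AbsoluteValue K ℝ) (f : MvPolynomial σ K) : 0 ≤ htggSup v f :=
  (v.nonneg _).trans (htgg_le_sup v f 0)

theorem htggSup1_nonneg (v : AbsoluteValue K ℝ) (p : K[X]) : 0 ≤ htggSup1 v p :=
  (v.nonneg _).trans (htgg_le_sup1 v p 0)

theorem htggSup_le (v : AbsoluteValue K ℝ) (f : MvPolynomial σ K) {B : ℝ}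
    (h : ∀ m, v (f.coeff m) ≤ B) : htggSup v f ≤ B :=
  ciSup_le h

theorem htggSup1_le (v : AbsoluteValue K ℝ) (p : K[X]) {B : ℝ}
    (h : ∀ k, v (p.coeff k) ≤ B) : htggSup1 v p ≤ B :=
  ciSup_le h

theorem htggSup_le_of_support (v : AbsoluteValue K ℝ) (f : MvPolynomial σ K) {B : ℝ} (hB : 0 ≤ B)
    (h : ∀ m ∈ f.support, v (f.coeff m) ≤ B) : htggSup v f ≤ B := by
  refine htggSup_le v f fun m => ?_
  by_cases hm : m ∈ f.support
  · exact h m hm
  · simpa [MvPolynomial.notMem_support_iff.mp hm] using hB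

@[simp] theorem htggSup_zero (v : AbsoluteValue K ℝ) : htggSup v (0 : MvPolynomial σ K) = 0 :=
  le_antisymm (htggSup_le v _ fun m => by simp) (htggSup_nonneg v _)

@[simp] theorem htggSup1_zero (v : AbsoluteValue K ℝ) : htggSup1 v (0 : K[X]) = 0 :=
  le_antisymm (htggSup1_le v _ fun m => by simp) (htggSup1_nonneg v _)

theorem htgg_exists_eq_sup (v : AbsoluteValue K ℝ) {f : MvPolynomial σ K} (hf : f ≠ 0) :
    ∃ m ∈ f.support, htggSup v f = v (f.coeff m) := by
  classical
  have hne : f.support.Nonempty := MvPolynomial.support_nonempty.mpr hf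
  obtain ⟨m, hm, hmax⟩ := f.support.exists_max_image (fun m => v (f.coeff m)) hne
  refine ⟨m, hm, le_antisymm ?_ (htgg_le_sup v f m)⟩
  exact htggSup_le_of_support v f (v.nonneg _) hmax

theorem htggSup_pos (v : AbsoluteValue K ℝ) {f : MvPolynomial σ K} (hf : f ≠ 0) :
    0 < htggSup v f := by
  obtain ⟨m, hm, h⟩ := htgg_exists_eq_sup v hf
  rw [h]
  exact v.pos (MvPolynomial.mem_support_iff.mp hm)

/-- The sup norm is the supremum over the support (the form used by `Height.mulHeight`). -/
theorem htggSup_eq_iSup_support (v : AbsoluteValue K ℝ) (f : MvPolynomial σ K) :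
    htggSup v f = ⨆ m : f.support, v (f.coeff (m : σ →₀ ℕ)) := by
  classical
  rcases eq_or_ne f 0 with rfl | hf
  · have : IsEmpty ((0 : MvPolynomial σ K).support) := by
      refine ⟨fun x => ?_⟩
      obtain ⟨m, hm⟩ := x
      exact (MvPolynomial.mem_support_iff.mp hm) (by simp)
    simp [Real.iSup_of_isEmpty]
  · have : Nonempty f.support := (MvPolynomial.support_nonempty.mpr hf).to_subtype
    have hb : BddAbove (Set.range fun m : f.support => v (f.coeff (m : σ →₀ ℕ))) := by
      refine (htggSup_bdd v f).mono ?_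
      rintro _ ⟨m, rfl⟩
      exact ⟨m, rfl⟩
    refine le_antisymm ?_ (ciSup_le fun m => htgg_le_sup v f m)
    refine htggSup_le_of_support v f ?_ fun m hm => le_ciSup hb ⟨m, hm⟩
    exact (v.nonneg _).trans (le_ciSup hb (Classical.arbitrary _))

/-- The univariate sup norm is Mathlib's Gauss norm at radius `1`. -/
theorem htggSup1_eq_gaussNorm (v : AbsoluteValue K ℝ) (p : K[X]) :
    htggSup1 v p = p.gaussNorm v 1 := by
  classical
  rcases eq_or_ne p 0 with rfl | hp
  · simp
  · have hne : p.support.Nonempty := Polynomial.support_nonempty.mpr hp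
    refine le_antisymm (htggSup1_le v p fun k => ?_) ?_
    · simpa using p.le_gaussNorm v (c := 1) zero_le_one k
    · obtain ⟨i, hi⟩ := p.exists_eq_gaussNorm v 1
      rw [hi]
      simpa using htgg_le_sup1 v p i

/-- The Kronecker substitution preserves the sup norm (all partial degrees `< D`). -/
theorem htggSup1_kron (v : AbsoluteValue K ℝ) {n : ℕ} (D : ℕ) (f : MvPolynomial (Fin n) K)
    (hf : ∀ m ∈ f.support, ∀ i, m i < D) : htggSup1 v (htggKron D f) = htggSup v f := by
  refine le_antisymm (htggSup1_le v _ fun k => ?_) (htggSup_le_of_support v f (htggSup1_nonneg v _) ?_)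
  · rcases htggKron_coeff_eq D f hf k with h | ⟨m, -, h⟩
    · rw [h, map_zero]; exact htggSup_nonneg v f
    · rw [h]; exact htgg_le_sup v f m
  · intro m hm
    rw [← htggKron_coeff_exp D f hf m (hf m hm)]
    exact htgg_le_sup1 v _ _

end Fermat.Agent.HT
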