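import Mathlib
import Fermat.Agent.HT.Sup

/-!
# The Gauss–Gelfond lemma for multivariate polynomials (S17 heights, leaf HT/Gelfond)

Local forms: `htgg_sup_mul_nonarch` (Gauss), `htgg_sup_mul_le`, `htgg_sup_mul_ge` (Gelfond).
-/

set_option autoImplicit false

namespace Fermat.Agent.HT

open Polynomial

variable {K : Type*} [Field K]

/-! ### Partial degrees and boxes -/

theorem htgg_box {σ : Type*} (f : MvPolynomial σ K) {d : ℕ} (hf : ∀ i, f.degreeOf i ≤ d) :
    ∀ m ∈ f.support, ∀ i, m i ≤ d :=
  fun _ hm i => (MvPolynomial.monomial_le_degreeOf i hm).trans (hf i)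

theorem htgg_box_mul {σ : Type*} (f g : MvPolynomial σ K) {d e : ℕ}
    (hf : ∀ i, f.degreeOf i ≤ d) (hg : ∀ i, g.degreeOf i ≤ e) :
    ∀ i, (f * g).degreeOf i ≤ d + e :=
  fun i => (MvPolynomial.degreeOf_mul_le i f g).trans (add_le_add (hf i) (hg i))

theorem htgg_degreeOf_le_total {σ : Type*} (f : MvPolynomial σ K) (i : σ) :
    f.degreeOf i ≤ f.totalDegree :=
  MvPolynomial.degreeOf_le_totalDegree f i

/-! ### Renaming variables -/

theorem htggSup_rename_equiv {σ τ : Type*} (v : AbsoluteValue K ℝ) (e : σ ≃ τ)
    (f : MvPolynomial σ K) : htggSup v (MvPolynomial.rename e f) = htggSup v f := by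
  refine le_antisymm (htggSup_le v _ fun m' => ?_) (htggSup_le v _ fun m => ?_)
  · have hm' : m' = (m'.mapDomain e.symm).mapDomain e := by
      rw [← Finsupp.mapDomain_comp]
      simp
    rw [hm', MvPolynomial.coeff_rename_mapDomain e e.injective]
    exact htgg_le_sup v f _
  · rw [← MvPolynomial.coeff_rename_mapDomain e e.injective]
    exact htgg_le_sup v _ _

/-! ### The nonarchimedean case (Gauss's lemma) -/

theorem htgg_sup_mul_nonarch_fin {n : ℕ} {v : AbsoluteValue K ℝ} (hv : IsNonarchimedean v)
    (f g : MvPolynomial (Fin n) K) : htggSup v (f * g) = htggSup v f * htggSup v g := by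
  set D := f.totalDegree + g.totalDegree + 1 with hD
  have hbf : ∀ m ∈ f.support, ∀ i, m i < D := fun m hm i => by
    have := htgg_box f (fun i => htgg_degreeOf_le_total f i) m hm i
    omega
  have hbg : ∀ m ∈ g.support, ∀ i, m i < D := fun m hm i => by
    have := htgg_box g (fun i => htgg_degreeOf_le_total g i) m hm i
    omega
  have hbfg : ∀ m ∈ (f * g).support, ∀ i, m i < D := fun m hm i => by
    have h1 := htgg_box (f * g) (fun i => htgg_degreeOf_le_total (f * g) i) m hm i
    have h2 := MvPolynomial.totalDegree_mul f g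
    omega
  rw [← htggSup1_kron v D (f * g) hbfg, ← htggSup1_kron v D f hbf, ← htggSup1_kron v D g hbg,
    map_mul, htggSup1_eq_gaussNorm, htggSup1_eq_gaussNorm, htggSup1_eq_gaussNorm]
  exact Polynomial.gaussNorm_mul hv one_pos _ _

/-- **Gauss's lemma**: the sup norm of the coefficients is multiplicative at a nonarchimedean
absolute value. -/
theorem htgg_sup_mul_nonarch {σ : Type*} [Finite σ] {v : AbsoluteValue K ℝ}
    (hv : IsNonarchimedean v) (f g : MvPolynomial σ K) :
    htggSup v (f * g) = htggSup v f * htggSup v g := by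
  obtain ⟨n, ⟨e⟩⟩ := Finite.exists_equiv_fin σ
  rw [← htggSup_rename_equiv v e (f * g), ← htggSup_rename_equiv v e f,
    ← htggSup_rename_equiv v e g, map_mul]
  exact htgg_sup_mul_nonarch_fin hv _ _

/-! ### The trivial upper bound (any absolute value) -/

theorem htgg_sup_mul_le {σ : Type*} (v : AbsoluteValue K ℝ) (f g : MvPolynomial σ K) :
    htggSup v (f * g) ≤ f.support.card * (htggSup v f * htggSup v g) := by
  classical
  refine htggSup_le v _ fun m => ?_
  rw [MvPolynomial.coeff_mul]
  -- the sum over the antidiagonal only sees pairs whose first component lies in the support of `f`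
  have hsum : ∑ x ∈ Finset.HasAntidiagonal.antidiagonal m, f.coeff x.1 * g.coeff x.2
      = ∑ x ∈ (Finset.HasAntidiagonal.antidiagonal m).filter (fun x => x.1 ∈ f.support),
          f.coeff x.1 * g.coeff x.2 := by
    rw [Finset.sum_filter]
    refine Finset.sum_congr rfl fun x _ => ?_
    by_cases hx : x.1 ∈ f.support
    · rw [if_pos hx]
    · rw [if_neg hx, MvPolynomial.notMem_support_iff.mp hx, zero_mul]
  rw [hsum]
  calc v (∑ x ∈ (Finset.HasAntidiagonal.antidiagonal m).filter (fun x => x.1 ∈ f.support),
          f.coeff x.1 * g.coeff x.2)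
      ≤ ∑ x ∈ (Finset.HasAntidiagonal.antidiagonal m).filter (fun x => x.1 ∈ f.support),
          v (f.coeff x.1 * g.coeff x.2) := v.sum_le _ _
    _ ≤ ∑ _x ∈ (Finset.HasAntidiagonal.antidiagonal m).filter (fun x => x.1 ∈ f.support),
          (htggSup v f * htggSup v g) := by
        refine Finset.sum_le_sum fun x _ => ?_
        rw [map_mul]
        exact mul_le_mul (htgg_le_sup v f _) (htgg_le_sup v g _) (v.nonneg _) (htggSup_nonneg v f)
    _ = ((Finset.HasAntidiagonal.antidiagonal m).filter (fun x => x.1 ∈ f.support)).card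
          * (htggSup v f * htggSup v g) := by
        rw [Finset.sum_const, nsmul_eq_mul]
    _ ≤ f.support.card * (htggSup v f * htggSup v g) := by
        refine mul_le_mul_of_nonneg_right ?_
          (mul_nonneg (htggSup_nonneg v f) (htggSup_nonneg v g))
        have hinj : ((Finset.HasAntidiagonal.antidiagonal m).filter (fun x => x.1 ∈ f.support)).card
            ≤ f.support.card := by
          refine Finset.card_le_card_of_injOn (fun x => x.1) ?_ ?_
          · intro x hx
            exact (Finset.mem_filter.mp (Finset.mem_coe.mp hx)).2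
          · intro x hx y hy hxy
            have hx' := Finset.HasAntidiagonal.mem_antidiagonal.mp (Finset.mem_filter.mp (Finset.mem_coe.mp hx)).1
            have hy' := Finset.HasAntidiagonal.mem_antidiagonal.mp (Finset.mem_filter.mp (Finset.mem_coe.mp hy)).1
            have hxy' : x.1 = y.1 := hxy
            refine Prod.ext hxy' ?_
            have : x.1 + x.2 = x.1 + y.2 := by rw [hx', hxy', hy']
            exact add_left_cancel this
        exact_mod_cast hinj

end Fermat.Agent.HT
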