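import Mathlib
import Fermat.Agent.HT.Gelfond

/-!
# Gelfond's inequality (archimedean half of the Gauss–Gelfond lemma)
-/

set_option autoImplicit false

namespace Fermat.Agent.HT

open Polynomial

/-! ### Univariate, over `ℂ` -/

theorem htgg_supNorm_le_two_pow_mul (P : ℂ[X]) :
    P.supNorm ≤ 2 ^ P.natDegree * P.mahlerMeasure := by
  refine (P.supNorm_le_choose_natDegree_div_two_mul_mahlerMeasure).trans ?_
  refine mul_le_mul_of_nonneg_right ?_ P.mahlerMeasure_nonneg
  exact_mod_cast Nat.choose_le_two_pow _ _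

theorem htgg_supNorm_mul_ge (P Q : ℂ[X]) :
    P.supNorm * Q.supNorm ≤
      2 ^ P.natDegree * 2 ^ Q.natDegree * (√((P * Q).natDegree + 1) * (P * Q).supNorm) := by
  have h1 := htgg_supNorm_le_two_pow_mul P
  have h2 := htgg_supNorm_le_two_pow_mul Q
  have h3 := (P * Q).mahlerMeasure_le_sqrt_natDegree_add_one_mul_supNorm
  rw [mahlerMeasure_mul] at h3
  calc P.supNorm * Q.supNorm
      ≤ (2 ^ P.natDegree * P.mahlerMeasure) * (2 ^ Q.natDegree * Q.mahlerMeasure) :=
        mul_le_mul h1 h2 Q.supNorm_nonneg (by positivity [P.mahlerMeasure_nonneg])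
    _ = 2 ^ P.natDegree * 2 ^ Q.natDegree * (P.mahlerMeasure * Q.mahlerMeasure) := by ring
    _ ≤ _ := by
        refine mul_le_mul_of_nonneg_left h3 (by positivity)

/-! ### Univariate, over a field with a complex embedding -/

variable {K : Type*} [Field K]

theorem htggSup1_place (φ : K →+* ℂ) (p : K[X]) :
    htggSup1 (NumberField.place φ) p = (p.map φ).supNorm := by
  rw [Polynomial.supNorm_eq_iSup]
  unfold htggSup1
  refine iSup_congr fun k => ?_
  rw [Polynomial.coeff_map, NumberField.place_apply]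

/-- Univariate Gelfond: degrees `≤ N`. -/
theorem htgg_sup1_mul_ge (φ : K →+* ℂ) (p q : K[X]) {N : ℕ} (hp : p.natDegree ≤ N)
    (hq : q.natDegree ≤ N) :
    htggSup1 (NumberField.place φ) p * htggSup1 (NumberField.place φ) q ≤
      (4 : ℝ) ^ N * (2 * N + 1) * htggSup1 (NumberField.place φ) (p * q) := by
  rw [htggSup1_place, htggSup1_place, htggSup1_place, Polynomial.map_mul]
  refine (htgg_supNorm_mul_ge _ _).trans ?_
  rw [Polynomial.natDegree_map, Polynomial.natDegree_map]
  have hdeg : ((p.map φ * q.map φ).natDegree : ℝ) + 1 ≤ 2 * N + 1 := by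
    have h := (Polynomial.natDegree_mul_le (p := p.map φ) (q := q.map φ))
    rw [Polynomial.natDegree_map, Polynomial.natDegree_map] at h
    have : (p.map φ * q.map φ).natDegree ≤ 2 * N := by omega
    have : ((p.map φ * q.map φ).natDegree : ℝ) ≤ 2 * N := by exact_mod_cast this
    linarith
  have hsqrt : √(((p.map φ * q.map φ).natDegree : ℝ) + 1) ≤ 2 * N + 1 := by
    refine (Real.sqrt_le_sqrt hdeg).trans ?_
    have h1 : (1 : ℝ) ≤ 2 * N + 1 := by
      have : (0 : ℝ) ≤ N := Nat.cast_nonneg N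
      linarith
    calc √(2 * (N : ℝ) + 1) ≤ √((2 * N + 1) ^ 2) := by
          refine Real.sqrt_le_sqrt ?_
          nlinarith
      _ = 2 * N + 1 := Real.sqrt_sq (by linarith)
  have hpow : (2 : ℝ) ^ p.natDegree * 2 ^ q.natDegree ≤ 4 ^ N := by
    calc (2 : ℝ) ^ p.natDegree * 2 ^ q.natDegree ≤ 2 ^ N * 2 ^ N := by
          refine mul_le_mul ?_ ?_ (by positivity) (by positivity)
          · exact pow_le_pow_right₀ (by norm_num) hp
          · exact pow_le_pow_right₀ (by norm_num) hq
      _ = 4 ^ N := by rw [← mul_pow]; norm_num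
  have hs := (p.map φ * q.map φ).supNorm_nonneg
  calc 2 ^ p.natDegree * 2 ^ q.natDegree *
        (√(((p.map φ * q.map φ).natDegree : ℝ) + 1) * (p.map φ * q.map φ).supNorm)
      ≤ 4 ^ N * ((2 * N + 1) * (p.map φ * q.map φ).supNorm) := by
        refine mul_le_mul hpow ?_ (by positivity) (by positivity)
        exact mul_le_mul_of_nonneg_right hsqrt hs
    _ = (4 : ℝ) ^ N * (2 * N + 1) * (p.map φ * q.map φ).supNorm := by ring

end Fermat.Agent.HT
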