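import Mathlib
import Fermat.Agent.HT.GelfondArch

/-!
# Gelfond's inequality for multivariate polynomials, and the global Gauss–Gelfond lemma
-/

set_option autoImplicit false

namespace Fermat.Agent.HT

open Polynomial

theorem htggExpF_lt : ∀ {n : ℕ} (D : ℕ) (m : Fin n → ℕ), (∀ i, m i < D) → htggExpF D m < D ^ n
  | 0, _, _, _ => by simp [htggExpF]
  | n + 1, D, m, hm => by
    rw [htggExpF_succ]
    have ih := htggExpF_lt D (fun j => m j.succ) (fun j => hm j.succ)
    have h0 := hm 0
    calc m 0 + D * htggExpF D (fun j => m j.succ)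
        < D + D * htggExpF D (fun j => m j.succ) := by omega
      _ = D * (htggExpF D (fun j => m j.succ) + 1) := by ring
      _ ≤ D * D ^ n := Nat.mul_le_mul_left _ ih
      _ = D ^ (n + 1) := by ring

variable {K : Type*} [Field K]

theorem htggKron_natDegree_le {n : ℕ} (D : ℕ) (f : MvPolynomial (Fin n) K)
    (hf : ∀ m ∈ f.support, ∀ i, m i < D) : (htggKron D f).natDegree ≤ D ^ n := by
  rw [htggKron_eq_sum]
  refine Polynomial.natDegree_sum_le_of_forall_le _ _ fun m hm => ?_
  exact (Polynomial.natDegree_monomial_le _).trans (htggExpF_lt D m (hf m hm)).le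

/-- The constant in Gelfond's inequality: `n` variables, partial degrees `≤ d`. -/
noncomputable def htggC (n d : ℕ) : ℝ := (4 : ℝ) ^ ((2 * d + 1) ^ n) * (2 * ((2 * d + 1) ^ n : ℕ) + 1)

theorem htggC_pos (n d : ℕ) : 0 < htggC n d := by
  unfold htggC
  positivity

theorem htggC_one_le (n d : ℕ) : 1 ≤ htggC n d := by
  unfold htggC
  have h1 : (1 : ℝ) ≤ (4 : ℝ) ^ ((2 * d + 1) ^ n) := one_le_pow₀ (by norm_num)
  have h2 : (1 : ℝ) ≤ 2 * (((2 * d + 1) ^ n : ℕ) : ℝ) + 1 := by
    have : (0 : ℝ) ≤ (((2 * d + 1) ^ n : ℕ) : ℝ) := Nat.cast_nonneg _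
    linarith
  calc (1 : ℝ) = 1 * 1 := by ring
    _ ≤ _ := mul_le_mul h1 h2 (by norm_num) (by positivity)

theorem htgg_sup_mul_ge_fin {n : ℕ} (φ : K →+* ℂ) (f g : MvPolynomial (Fin n) K) {d : ℕ}
    (hf : ∀ i, f.degreeOf i ≤ d) (hg : ∀ i, g.degreeOf i ≤ d) :
    htggSup (NumberField.place φ) f * htggSup (NumberField.place φ) g ≤
      htggC n d * htggSup (NumberField.place φ) (f * g) := by
  set D := 2 * d + 1 with hD
  have hbf : ∀ m ∈ f.support, ∀ i, m i < D := fun m hm i => by
    have := htgg_box f hf m hm i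
    omega
  have hbg : ∀ m ∈ g.support, ∀ i, m i < D := fun m hm i => by
    have := htgg_box g hg m hm i
    omega
  have hbfg : ∀ m ∈ (f * g).support, ∀ i, m i < D := fun m hm i => by
    have := htgg_box (f * g) (htgg_box_mul f g hf hg) m hm i
    omega
  rw [← htggSup1_kron _ D (f * g) hbfg, ← htggSup1_kron _ D f hbf, ← htggSup1_kron _ D g hbg,
    map_mul]
  have := htgg_sup1_mul_ge φ (htggKron D f) (htggKron D g) (N := D ^ n)
    (htggKron_natDegree_le D f hbf) (htggKron_natDegree_le D g hbg)
  unfold htggC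
  rw [← hD]
  push_cast at this ⊢
  exact this

/-- **Gelfond's inequality**: at an archimedean absolute value coming from a complex embedding,
the sup norm of the coefficients is multiplicative up to the explicit constant `htggC`. -/
theorem htgg_sup_mul_ge {σ : Type*} [Fintype σ] (φ : K →+* ℂ) (f g : MvPolynomial σ K) {d : ℕ}
    (hf : ∀ i, f.degreeOf i ≤ d) (hg : ∀ i, g.degreeOf i ≤ d) :
    htggSup (NumberField.place φ) f * htggSup (NumberField.place φ) g ≤
      htggC (Fintype.card σ) d * htggSup (NumberField.place φ) (f * g) := by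
  let e : σ ≃ Fin (Fintype.card σ) := Fintype.equivFin σ
  rw [← htggSup_rename_equiv _ e (f * g), ← htggSup_rename_equiv _ e f,
    ← htggSup_rename_equiv _ e g, map_mul]
  refine htgg_sup_mul_ge_fin φ _ _ (fun j => ?_) (fun j => ?_)
  · have := MvPolynomial.degreeOf_rename_of_injective (p := f) e.injective (e.symm j)
    rw [e.apply_symm_apply] at this
    rw [this]
    exact hf _
  · have := MvPolynomial.degreeOf_rename_of_injective (p := g) e.injective (e.symm j)
    rw [e.apply_symm_apply] at this
    rw [this]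
    exact hg _

end Fermat.Agent.HT
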