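import Mathlib
import Fermat.Agent.HT.GelfondMv

/-!
# The global Gauss–Gelfond lemma over a number field
-/

set_option autoImplicit false

namespace Fermat.Agent.HT

open Polynomial NumberField

variable {K : Type*} [Field K] [NumberField K] {σ : Type*}

/-- Multiplicative height of the coefficient vector. -/
noncomputable def htggMulH (f : MvPolynomial σ K) : ℝ :=
  Height.mulHeight fun m : f.support => f.coeff (m : σ →₀ ℕ)

/-- Logarithmic height of the coefficient vector. -/
noncomputable def htggH (f : MvPolynomial σ K) : ℝ :=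
  Height.logHeight fun m : f.support => f.coeff (m : σ →₀ ℕ)

theorem htggH_eq_log (f : MvPolynomial σ K) : htggH f = Real.log (htggMulH f) := rfl

omit [NumberField K] in
theorem htgg_coeffs_ne_zero {f : MvPolynomial σ K} (hf : f ≠ 0) :
    (fun m : f.support => f.coeff (m : σ →₀ ℕ)) ≠ 0 := by
  obtain ⟨m, hm⟩ := MvPolynomial.support_nonempty.mpr hf
  intro h
  exact (MvPolynomial.mem_support_iff.mp hm) (congrFun h ⟨m, hm⟩)

theorem htggMulH_eq {f : MvPolynomial σ K} (hf : f ≠ 0) :
    htggMulH f = (∏ v : InfinitePlace K, htggSup v.val f ^ v.mult) *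
      ∏ᶠ v : FinitePlace K, htggSup v.val f := by
  unfold htggMulH
  rw [NumberField.mulHeight_eq (htgg_coeffs_ne_zero hf)]
  simp only [htggSup_eq_iSup_support]
  rfl

theorem htggSup_finite_hasFiniteMulSupport {f : MvPolynomial σ K} (hf : f ≠ 0) :
    (fun v : FinitePlace K => htggSup v.val f).HasFiniteMulSupport := by
  simp only [htggSup_eq_iSup_support]
  have : Nonempty f.support := (MvPolynomial.support_nonempty.mpr hf).to_subtype
  refine Function.HasFiniteMulSupport.iSup fun m => ?_
  exact FinitePlace.hasFiniteMulSupport (MvPolynomial.mem_support_iff.mp m.2)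

theorem htggSup_finite_mul [Finite σ] (v : FinitePlace K) (f g : MvPolynomial σ K) :
    htggSup v.val (f * g) = htggSup v.val f * htggSup v.val g :=
  htgg_sup_mul_nonarch (FinitePlace.add_le v) f g

omit [NumberField K] in
theorem htgg_support_card_le [Fintype σ] (f : MvPolynomial σ K) {d : ℕ}
    (hf : ∀ i, f.degreeOf i ≤ d) : f.support.card ≤ (d + 1) ^ Fintype.card σ := by
  classical
  have hbox := htgg_box f hf
  let ι : f.support → (σ → Fin (d + 1)) := fun m i => ⟨(m : σ →₀ ℕ) i, Nat.lt_succ_of_le (hbox m m.2 i)⟩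
  have hinj : Function.Injective ι := by
    intro m m' h
    apply Subtype.ext
    ext i
    have := congrFun h i
    exact Fin.mk.inj_iff.mp this
  have := Fintype.card_le_of_injective ι hinj
  simpa using this

end Fermat.Agent.HT

namespace Fermat.Agent.HT

open Polynomial NumberField

variable {K : Type*} [Field K] [NumberField K] {σ : Type*}

/-- The archimedean factor of the height of the coefficient vector. -/
noncomputable def htggArch (f : MvPolynomial σ K) : ℝ :=
  ∏ v : InfinitePlace K, htggSup v.val f ^ v.mult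

/-- The nonarchimedean factor of the height of the coefficient vector. -/
noncomputable def htggNonarch (f : MvPolynomial σ K) : ℝ :=
  ∏ᶠ v : FinitePlace K, htggSup v.val f

theorem htggMulH_eq' {f : MvPolynomial σ K} (hf : f ≠ 0) :
    htggMulH f = htggArch f * htggNonarch f := htggMulH_eq hf

theorem htggArch_pos {f : MvPolynomial σ K} (hf : f ≠ 0) : 0 < htggArch f :=
  Finset.prod_pos fun v _ => pow_pos (htggSup_pos v.val hf) _

theorem htggNonarch_pos {f : MvPolynomial σ K} (hf : f ≠ 0) : 0 < htggNonarch f :=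
  finprod_induction (fun x : ℝ => 0 < x) zero_lt_one (fun _ _ hx hy => mul_pos hx hy)
    fun v => htggSup_pos v.val hf

theorem htggNonarch_mul [Finite σ] {f g : MvPolynomial σ K} (hf : f ≠ 0) (hg : g ≠ 0) :
    htggNonarch (f * g) = htggNonarch f * htggNonarch g := by
  unfold htggNonarch
  rw [← finprod_mul_distrib (htggSup_finite_hasFiniteMulSupport hf)
    (htggSup_finite_hasFiniteMulSupport hg)]
  exact finprod_congr fun v => htggSup_finite_mul v f g

theorem htggArch_mul_le (f g : MvPolynomial σ K) :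
    htggArch (f * g) ≤ (f.support.card : ℝ) ^ Module.finrank ℚ K * (htggArch f * htggArch g) := by
  unfold htggArch
  rw [← InfinitePlace.sum_mult_eq (K := K), ← Finset.prod_pow_eq_pow_sum, ← Finset.prod_mul_distrib,
    ← Finset.prod_mul_distrib]
  refine Finset.prod_le_prod (fun v _ => pow_nonneg (htggSup_nonneg _ _) _) fun v _ => ?_
  rw [← mul_pow, ← mul_pow]
  exact pow_le_pow_left₀ (htggSup_nonneg _ _) (htgg_sup_mul_le v.val f g) _

theorem htggArch_mul_ge [Fintype σ] (f g : MvPolynomial σ K) {d : ℕ}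
    (hf : ∀ i, f.degreeOf i ≤ d) (hg : ∀ i, g.degreeOf i ≤ d) :
    htggArch f * htggArch g ≤
      htggC (Fintype.card σ) d ^ Module.finrank ℚ K * htggArch (f * g) := by
  unfold htggArch
  rw [← InfinitePlace.sum_mult_eq (K := K), ← Finset.prod_pow_eq_pow_sum, ← Finset.prod_mul_distrib,
    ← Finset.prod_mul_distrib]
  refine Finset.prod_le_prod (fun v _ => mul_nonneg (pow_nonneg (htggSup_nonneg _ _) _)
    (pow_nonneg (htggSup_nonneg _ _) _)) fun v _ => ?_
  rw [← mul_pow, ← mul_pow]
  obtain ⟨φ, hφ⟩ := v.2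
  refine pow_le_pow_left₀ (mul_nonneg (htggSup_nonneg _ _) (htggSup_nonneg _ _)) ?_ _
  rw [← hφ]
  exact htgg_sup_mul_ge φ f g hf hg

theorem htggMulH_mul_le [Finite σ] {f g : MvPolynomial σ K} (hf : f ≠ 0) (hg : g ≠ 0) :
    htggMulH (f * g) ≤
      (f.support.card : ℝ) ^ Module.finrank ℚ K * (htggMulH f * htggMulH g) := by
  rw [htggMulH_eq' (mul_ne_zero hf hg), htggMulH_eq' hf, htggMulH_eq' hg, htggNonarch_mul hf hg]
  have h := htggArch_mul_le f g
  have hpos : 0 < htggNonarch f * htggNonarch g := mul_pos (htggNonarch_pos hf) (htggNonarch_pos hg)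
  calc htggArch (f * g) * (htggNonarch f * htggNonarch g)
      ≤ ((f.support.card : ℝ) ^ Module.finrank ℚ K * (htggArch f * htggArch g)) *
          (htggNonarch f * htggNonarch g) := mul_le_mul_of_nonneg_right h hpos.le
    _ = _ := by ring

theorem htggMulH_mul_ge [Fintype σ] {f g : MvPolynomial σ K} (hf0 : f ≠ 0) (hg0 : g ≠ 0) {d : ℕ}
    (hf : ∀ i, f.degreeOf i ≤ d) (hg : ∀ i, g.degreeOf i ≤ d) :
    htggMulH f * htggMulH g ≤
      htggC (Fintype.card σ) d ^ Module.finrank ℚ K * htggMulH (f * g) := by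
  rw [htggMulH_eq' (mul_ne_zero hf0 hg0), htggMulH_eq' hf0, htggMulH_eq' hg0,
    htggNonarch_mul hf0 hg0]
  have h := htggArch_mul_ge f g hf hg
  have hpos : 0 < htggNonarch f * htggNonarch g :=
    mul_pos (htggNonarch_pos hf0) (htggNonarch_pos hg0)
  calc htggArch f * htggNonarch f * (htggArch g * htggNonarch g)
      = (htggArch f * htggArch g) * (htggNonarch f * htggNonarch g) := by ring
    _ ≤ (htggC (Fintype.card σ) d ^ Module.finrank ℚ K * htggArch (f * g)) *
          (htggNonarch f * htggNonarch g) := mul_le_mul_of_nonneg_right h hpos.le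
    _ = _ := by ring

theorem htggMulH_pos {f : MvPolynomial σ K} (hf : f ≠ 0) : 0 < htggMulH f := by
  rw [htggMulH_eq' hf]
  exact mul_pos (htggArch_pos hf) (htggNonarch_pos hf)

omit [NumberField K] in
theorem htgg_card_le_C [Fintype σ] (f : MvPolynomial σ K) {d : ℕ}
    (hf : ∀ i, f.degreeOf i ≤ d) : (f.support.card : ℝ) ≤ htggC (Fintype.card σ) d := by
  have h1 := htgg_support_card_le f hf
  have h2 : (d + 1) ^ Fintype.card σ ≤ (2 * d + 1) ^ Fintype.card σ :=
    Nat.pow_le_pow_left (by omega) _
  have h3 : ((2 * d + 1) ^ Fintype.card σ : ℕ) < 4 ^ ((2 * d + 1) ^ Fintype.card σ) :=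
    Nat.lt_pow_self (by norm_num)
  have h4 : ((f.support.card : ℕ) : ℝ) ≤ ((4 ^ ((2 * d + 1) ^ Fintype.card σ) : ℕ) : ℝ) := by
    exact_mod_cast (h1.trans h2).trans h3.le
  refine h4.trans ?_
  unfold htggC
  push_cast
  have hx : (0 : ℝ) ≤ ((2 * (d : ℝ) + 1) ^ Fintype.card σ) := by positivity
  have h4pos : (0 : ℝ) < (4 : ℝ) ^ ((2 * d + 1) ^ Fintype.card σ) := by positivity
  nlinarith

/-- **Global Gauss–Gelfond lemma**: over a number field the logarithmic height of the
coefficient vector of a product is the sum of the heights, up to `[K:ℚ] log (htggC n d)`. -/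
theorem htgg_logHeight_mul [Fintype σ] {f g : MvPolynomial σ K} (hf0 : f ≠ 0) (hg0 : g ≠ 0)
    {d : ℕ} (hf : ∀ i, f.degreeOf i ≤ d) (hg : ∀ i, g.degreeOf i ≤ d) :
    |htggH (f * g) - htggH f - htggH g| ≤
      Module.finrank ℚ K * Real.log (htggC (Fintype.card σ) d) := by
  have hfg0 := mul_ne_zero hf0 hg0
  have hC := htggC_pos (Fintype.card σ) d
  have hC1 := htggC_one_le (Fintype.card σ) d
  have hlogC : 0 ≤ Real.log (htggC (Fintype.card σ) d) := Real.log_nonneg hC1
  rw [htggH_eq_log, htggH_eq_log, htggH_eq_log, abs_le]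
  have hpf := htggMulH_pos hf0
  have hpg := htggMulH_pos hg0
  have hpfg := htggMulH_pos hfg0
  constructor
  · -- lower bound from Gelfond
    have h := htggMulH_mul_ge hf0 hg0 hf hg
    have hlog := Real.log_le_log (mul_pos hpf hpg) h
    rw [Real.log_mul hpf.ne' hpg.ne', Real.log_mul (pow_pos hC _).ne' hpfg.ne', Real.log_pow] at hlog
    linarith
  · -- upper bound from the triangle inequality
    have h := htggMulH_mul_le hf0 hg0
    have hcard : (0 : ℝ) < f.support.card := by
      exact_mod_cast Finset.card_pos.mpr (MvPolynomial.support_nonempty.mpr hf0)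
    have hlog := Real.log_le_log hpfg h
    rw [Real.log_mul (pow_pos hcard _).ne' (mul_pos hpf hpg).ne', Real.log_mul hpf.ne' hpg.ne',
      Real.log_pow] at hlog
    have hcl : Real.log (f.support.card : ℝ) ≤ Real.log (htggC (Fintype.card σ) d) :=
      Real.log_le_log hcard (htgg_card_le_C f hf)
    have : (Module.finrank ℚ K : ℝ) * Real.log (f.support.card : ℝ) ≤
        Module.finrank ℚ K * Real.log (htggC (Fintype.card σ) d) :=
      mul_le_mul_of_nonneg_left hcl (Nat.cast_nonneg _)
    linarith

end Fermat.Agent.HT
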