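import Mathlib
import Fermat.Agent.HT.GelfondGlobal

/-!
# Gauss–Gelfond for finite products (Chow forms)
-/

set_option autoImplicit false

namespace Fermat.Agent.HT

open Polynomial NumberField

variable {K : Type*} [Field K] {σ : Type*}

@[simp] theorem htggSup_one (v : AbsoluteValue K ℝ) : htggSup v (1 : MvPolynomial σ K) = 1 := by
  classical
  refine le_antisymm (htggSup_le v _ fun m => ?_) ?_
  · rw [MvPolynomial.coeff_one]
    split_ifs <;> simp
  · have := htgg_le_sup v (1 : MvPolynomial σ K) 0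
    simpa using this

theorem htgg_degreeOf_prod_le {ι : Type*} (s : Finset ι) (F : ι → MvPolynomial σ K) {d : ℕ}
    (hF : ∀ i ∈ s, ∀ j, (F i).degreeOf j ≤ d) (j : σ) :
    (∏ i ∈ s, F i).degreeOf j ≤ s.card * d := by
  classical
  induction s using Finset.induction_on with
  | empty => simp
  | insert a s ha ih =>
    rw [Finset.prod_insert ha, Finset.card_insert_of_notMem ha]
    refine (MvPolynomial.degreeOf_mul_le j _ _).trans ?_
    have h1 := hF a (Finset.mem_insert_self a s) j
    have h2 := ih fun i hi => hF i (Finset.mem_insert_of_mem hi)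
    calc (F a).degreeOf j + (∏ i ∈ s, F i).degreeOf j ≤ d + s.card * d := add_le_add h1 h2
      _ = (s.card + 1) * d := by ring

/-- Gauss's lemma for finite products. -/
theorem htgg_sup_prod_nonarch [Finite σ] {ι : Type*} {v : AbsoluteValue K ℝ}
    (hv : IsNonarchimedean v) (s : Finset ι) (F : ι → MvPolynomial σ K) :
    htggSup v (∏ i ∈ s, F i) = ∏ i ∈ s, htggSup v (F i) := by
  classical
  induction s using Finset.induction_on with
  | empty => simp
  | insert a s ha ih =>
    rw [Finset.prod_insert ha, Finset.prod_insert ha, htgg_sup_mul_nonarch hv, ih]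

theorem htggC_mono (n : ℕ) {d d' : ℕ} (h : d ≤ d') : htggC n d ≤ htggC n d' := by
  unfold htggC
  have h1 : (2 * d + 1) ^ n ≤ (2 * d' + 1) ^ n := Nat.pow_le_pow_left (by omega) _
  have h2 : (4 : ℝ) ^ ((2 * d + 1) ^ n) ≤ (4 : ℝ) ^ ((2 * d' + 1) ^ n) :=
    pow_le_pow_right₀ (by norm_num) h1
  have h3 : (((2 * d + 1) ^ n : ℕ) : ℝ) ≤ (((2 * d' + 1) ^ n : ℕ) : ℝ) := by exact_mod_cast h1
  refine mul_le_mul h2 (by linarith) ?_ (by positivity)
  have : (0 : ℝ) ≤ (((2 * d + 1) ^ n : ℕ) : ℝ) := Nat.cast_nonneg _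
  linarith

/-- Gelfond's inequality for finite products. -/
theorem htgg_sup_prod_ge [Fintype σ] {ι : Type*} (φ : K →+* ℂ) (s : Finset ι)
    (F : ι → MvPolynomial σ K) {d : ℕ} (hF : ∀ i ∈ s, ∀ j, (F i).degreeOf j ≤ d) :
    ∏ i ∈ s, htggSup (NumberField.place φ) (F i) ≤
      htggC (Fintype.card σ) (s.card * d) ^ s.card *
        htggSup (NumberField.place φ) (∏ i ∈ s, F i) := by
  classical
  induction s using Finset.induction_on with
  | empty => simp
  | insert a s ha ih =>
    rw [Finset.prod_insert ha, Finset.prod_insert ha, Finset.card_insert_of_notMem ha]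
    have hFs : ∀ i ∈ s, ∀ j, (F i).degreeOf j ≤ d := fun i hi => hF i (Finset.mem_insert_of_mem hi)
    have ih' := ih hFs
    set C := htggC (Fintype.card σ) ((s.card + 1) * d) with hC
    have hCpos : 0 < C := htggC_pos _ _
    have hC1 : 1 ≤ C := htggC_one_le _ _
    have hmono : htggC (Fintype.card σ) (s.card * d) ≤ C :=
      htggC_mono _ (Nat.mul_le_mul_right d (Nat.le_succ _))
    have hda : ∀ j, (F a).degreeOf j ≤ (s.card + 1) * d := fun j =>
      (hF a (Finset.mem_insert_self a s) j).trans (Nat.le_mul_of_pos_left d (Nat.succ_pos _))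
    have hds : ∀ j, (∏ i ∈ s, F i).degreeOf j ≤ (s.card + 1) * d := fun j =>
      (htgg_degreeOf_prod_le s F hFs j).trans (Nat.mul_le_mul_right d (Nat.le_succ _))
    have h2 := htgg_sup_mul_ge φ (F a) (∏ i ∈ s, F i) hda hds
    have hSa := htggSup_nonneg (NumberField.place φ) (F a)
    calc htggSup (NumberField.place φ) (F a) * ∏ i ∈ s, htggSup (NumberField.place φ) (F i)
        ≤ htggSup (NumberField.place φ) (F a) *
            (htggC (Fintype.card σ) (s.card * d) ^ s.card *
              htggSup (NumberField.place φ) (∏ i ∈ s, F i)) :=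
          mul_le_mul_of_nonneg_left ih' hSa
      _ ≤ htggSup (NumberField.place φ) (F a) *
            (C ^ s.card * htggSup (NumberField.place φ) (∏ i ∈ s, F i)) := by
          refine mul_le_mul_of_nonneg_left ?_ hSa
          refine mul_le_mul_of_nonneg_right ?_ (htggSup_nonneg _ _)
          exact pow_le_pow_left₀ (htggC_pos _ _).le hmono _
      _ = C ^ s.card * (htggSup (NumberField.place φ) (F a) *
            htggSup (NumberField.place φ) (∏ i ∈ s, F i)) := by ring
      _ ≤ C ^ s.card * (C * htggSup (NumberField.place φ) (F a * ∏ i ∈ s, F i)) :=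
          mul_le_mul_of_nonneg_left h2 (pow_nonneg hCpos.le _)
      _ = C ^ (s.card + 1) * htggSup (NumberField.place φ) (F a * ∏ i ∈ s, F i) := by ring

end Fermat.Agent.HT

namespace Fermat.Agent.HT

open Polynomial NumberField

variable {K : Type*} [Field K] {σ : Type*}

/-- The trivial upper bound for finite products, any absolute value. -/
theorem htgg_sup_prod_le [Fintype σ] {ι : Type*} (v : AbsoluteValue K ℝ) (s : Finset ι)
    (F : ι → MvPolynomial σ K) {d : ℕ} (hF : ∀ i ∈ s, ∀ j, (F i).degreeOf j ≤ d) :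
    htggSup v (∏ i ∈ s, F i) ≤
      (((d + 1) ^ Fintype.card σ : ℕ) : ℝ) ^ s.card * ∏ i ∈ s, htggSup v (F i) := by
  classical
  induction s using Finset.induction_on with
  | empty => simp
  | insert a s ha ih =>
    rw [Finset.prod_insert ha, Finset.prod_insert ha, Finset.card_insert_of_notMem ha]
    have hFs : ∀ i ∈ s, ∀ j, (F i).degreeOf j ≤ d := fun i hi => hF i (Finset.mem_insert_of_mem hi)
    have ih' := ih hFs
    have hcard : ((F a).support.card : ℝ) ≤ (((d + 1) ^ Fintype.card σ : ℕ) : ℝ) := by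
      exact_mod_cast htgg_support_card_le (F a) (hF a (Finset.mem_insert_self a s))
    have hSa := htggSup_nonneg v (F a)
    have hB : (0 : ℝ) ≤ (((d + 1) ^ Fintype.card σ : ℕ) : ℝ) := Nat.cast_nonneg _
    calc htggSup v (F a * ∏ i ∈ s, F i)
        ≤ (F a).support.card * (htggSup v (F a) * htggSup v (∏ i ∈ s, F i)) :=
          htgg_sup_mul_le v _ _
      _ ≤ (((d + 1) ^ Fintype.card σ : ℕ) : ℝ) * (htggSup v (F a) *
            ((((d + 1) ^ Fintype.card σ : ℕ) : ℝ) ^ s.card * ∏ i ∈ s, htggSup v (F i))) := by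
          refine mul_le_mul hcard ?_ (mul_nonneg hSa (htggSup_nonneg _ _)) hB
          exact mul_le_mul_of_nonneg_left ih' hSa
      _ = _ := by ring

variable [NumberField K]

/-- **Global Gauss–Gelfond lemma for finite products** (heights of Chow forms are additive up to a
constant depending only on the number of factors, their degrees, the number of variables and
`[K:ℚ]`). -/
theorem htgg_logHeight_prod [Fintype σ] {ι : Type*} (s : Finset ι) (F : ι → MvPolynomial σ K)
    (hF0 : ∀ i ∈ s, F i ≠ 0) {d : ℕ} (hF : ∀ i ∈ s, ∀ j, (F i).degreeOf j ≤ d) :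
    |htggH (∏ i ∈ s, F i) - ∑ i ∈ s, htggH (F i)| ≤
      s.card * (Module.finrank ℚ K * Real.log (htggC (Fintype.card σ) (s.card * d))) := by
  classical
  induction s using Finset.induction_on with
  | empty =>
    simp only [Finset.prod_empty, Finset.sum_empty, sub_zero, Finset.card_empty, Nat.cast_zero,
      zero_mul, abs_nonpos_iff]
    -- height of the constant polynomial 1
    rw [htggH_eq_log, htggMulH_eq (one_ne_zero)]
    simp
  | insert a s ha ih =>
    rw [Finset.prod_insert ha, Finset.sum_insert ha, Finset.card_insert_of_notMem ha]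
    have hFs : ∀ i ∈ s, ∀ j, (F i).degreeOf j ≤ d := fun i hi => hF i (Finset.mem_insert_of_mem hi)
    have hF0s : ∀ i ∈ s, F i ≠ 0 := fun i hi => hF0 i (Finset.mem_insert_of_mem hi)
    have ih' := ih hF0s hFs
    have hprod0 : (∏ i ∈ s, F i) ≠ 0 := Finset.prod_ne_zero_iff.mpr hF0s
    have hda : ∀ j, (F a).degreeOf j ≤ (s.card + 1) * d := fun j =>
      (hF a (Finset.mem_insert_self a s) j).trans (Nat.le_mul_of_pos_left d (Nat.succ_pos _))
    have hds : ∀ j, (∏ i ∈ s, F i).degreeOf j ≤ (s.card + 1) * d := fun j =>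
      (htgg_degreeOf_prod_le s F hFs j).trans (Nat.mul_le_mul_right d (Nat.le_succ _))
    have h2 := htgg_logHeight_mul (hF0 a (Finset.mem_insert_self a s)) hprod0 hda hds
    set L := Real.log (htggC (Fintype.card σ) ((s.card + 1) * d)) with hL
    have hL0 : 0 ≤ L := Real.log_nonneg (htggC_one_le _ _)
    have hmono : Real.log (htggC (Fintype.card σ) (s.card * d)) ≤ L :=
      Real.log_le_log (htggC_pos _ _) (htggC_mono _ (Nat.mul_le_mul_right d (Nat.le_succ _)))
    have hr : (0 : ℝ) ≤ Module.finrank ℚ K := Nat.cast_nonneg _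
    have ih'' : |htggH (∏ i ∈ s, F i) - ∑ i ∈ s, htggH (F i)| ≤
        s.card * (Module.finrank ℚ K * L) :=
      ih'.trans (mul_le_mul_of_nonneg_left (mul_le_mul_of_nonneg_left hmono hr)
        (Nat.cast_nonneg _))
    have key : htggH (F a * ∏ i ∈ s, F i) - (htggH (F a) + ∑ i ∈ s, htggH (F i)) =
        (htggH (F a * ∏ i ∈ s, F i) - htggH (F a) - htggH (∏ i ∈ s, F i)) +
          (htggH (∏ i ∈ s, F i) - ∑ i ∈ s, htggH (F i)) := by ring
    rw [key]
    refine (abs_add_le _ _).trans ?_
    have := add_le_add h2 ih''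
    refine this.trans (le_of_eq ?_)
    push_cast
    ring

end Fermat.Agent.HT
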