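import Mathlib
import Fermat.Agent.HT.GelfondProd

/-!
# Gauss–Gelfond for products of linear forms (Chow forms), local version
-/

set_option autoImplicit false

namespace Fermat.Agent.HT

open MvPolynomial

variable {K : Type*} [Field K] {ι : Type*} [Fintype ι]

/-- The linear form `⟨t, a⟩ = ∑ i, a i * t i`. -/
noncomputable def htggLin (a : ι → K) : MvPolynomial ι K := ∑ i, C (a i) * X i

theorem htggLin_eval (a t : ι → K) : eval t (htggLin a) = ∑ i, a i * t i := by
  simp [htggLin]

theorem htggLin_coeff_single [DecidableEq ι] (a : ι → K) (j : ι) :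
    coeff (Finsupp.single j 1) (htggLin a) = a j := by
  unfold htggLin
  rw [coeff_sum]
  simp only [coeff_C_mul, coeff_X]
  rw [Finset.sum_eq_single j]
  · simp
  · intro i _ hij
    have : Finsupp.single i 1 ≠ Finsupp.single j 1 := by
      intro h
      exact hij ((Finsupp.single_left_injective (one_ne_zero)) h)
    simp [this]
  · intro h; exact absurd (Finset.mem_univ j) h

theorem htggLin_coeff (a : ι → K) (m : ι →₀ ℕ) :
    coeff m (htggLin a) = 0 ∨ ∃ j, coeff m (htggLin a) = a j := by
  classical
  unfold htggLin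
  rw [coeff_sum]
  simp only [coeff_C_mul, coeff_X]
  by_cases h : ∃ j, Finsupp.single j 1 = m
  · obtain ⟨j, rfl⟩ := h
    right
    refine ⟨j, ?_⟩
    rw [Finset.sum_eq_single j]
    · simp
    · intro i _ hij
      have : Finsupp.single i 1 ≠ Finsupp.single j 1 := by
        intro h
        exact hij ((Finsupp.single_left_injective (one_ne_zero)) h)
      simp [this]
    · intro h; exact absurd (Finset.mem_univ j) h
  · left
    refine Finset.sum_eq_zero fun i _ => ?_
    have : Finsupp.single i 1 ≠ m := fun hh => h ⟨i, hh⟩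
    simp [this]

/-- The sup norm of a linear form is the sup norm of its coefficient vector. -/
theorem htggSup_lin (v : AbsoluteValue K ℝ) (a : ι → K) :
    htggSup v (htggLin a) = ⨆ i, v (a i) := by
  classical
  refine le_antisymm (htggSup_le v _ fun m => ?_) ?_
  · rcases htggLin_coeff a m with h | ⟨j, h⟩
    · rw [h, map_zero]; exact Real.iSup_nonneg fun i => v.nonneg _
    · rw [h]; exact Finite.le_ciSup (fun i => v (a i)) j
  · refine Real.iSup_le (fun j => ?_) (htggSup_nonneg v _)
    rw [← htggLin_coeff_single a j]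
    exact htgg_le_sup v _ _

theorem htggLin_degreeOf_le (a : ι → K) (j : ι) : (htggLin a).degreeOf j ≤ 1 := by
  classical
  unfold htggLin
  refine (degreeOf_sum_le j _ _).trans ?_
  refine Finset.sup_le fun i _ => ?_
  refine (degreeOf_C_mul_le _ _ _).trans ?_
  by_cases hij : j = i
  · subst hij; rw [degreeOf_X]; simp
  · rw [degreeOf_X]; simp [hij]

theorem htggLin_eq_zero_iff (a : ι → K) : htggLin a = 0 ↔ a = 0 := by
  classical
  constructor
  · intro h
    funext j
    have := htggLin_coeff_single a j
    rw [h] at this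
    simpa using this.symm
  · rintro rfl
    simp [htggLin]

/-- Gauss's lemma for a Chow form: nonarchimedean. -/
theorem htgg_chow_nonarch {v : AbsoluteValue K ℝ} (hv : IsNonarchimedean v) {α : Type*}
    (s : Finset α) (a : α → ι → K) :
    htggSup v (∏ P ∈ s, htggLin (a P)) = ∏ P ∈ s, ⨆ i, v (a P i) := by
  rw [htgg_sup_prod_nonarch hv]
  exact Finset.prod_congr rfl fun P _ => htggSup_lin v (a P)

/-- Gelfond for a Chow form: archimedean lower bound. -/
theorem htgg_chow_ge (φ : K →+* ℂ) {α : Type*} (s : Finset α) (a : α → ι → K) :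
    ∏ P ∈ s, ⨆ i, NumberField.place φ (a P i) ≤
      htggC (Fintype.card ι) s.card ^ s.card *
        htggSup (NumberField.place φ) (∏ P ∈ s, htggLin (a P)) := by
  have h := htgg_sup_prod_ge φ s (fun P => htggLin (a P)) (d := 1)
    (fun P _ j => htggLin_degreeOf_le (a P) j)
  rw [mul_one] at h
  refine le_trans (le_of_eq ?_) h
  exact Finset.prod_congr rfl fun P _ => (htggSup_lin _ (a P)).symm

/-- Chow form: the trivial upper bound at any absolute value. -/
theorem htgg_chow_le (v : AbsoluteValue K ℝ) {α : Type*} (s : Finset α) (a : α → ι → K) :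
    htggSup v (∏ P ∈ s, htggLin (a P)) ≤
      ((2 ^ Fintype.card ι : ℕ) : ℝ) ^ s.card * ∏ P ∈ s, ⨆ i, v (a P i) := by
  have h := htgg_sup_prod_le v s (fun P => htggLin (a P)) (d := 1)
    (fun P _ j => htggLin_degreeOf_le (a P) j)
  refine h.trans (le_of_eq ?_)
  congr 1
  exact Finset.prod_congr rfl fun P _ => htggSup_lin v (a P)

end Fermat.Agent.HT
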