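import Mathlib
import Fermat.Agent.HT.GelfondLin

/-!
# The bilinear alternating forms `⟨t ∧ t', a ∧ b⟩` and their products (local Gauss–Gelfond)
-/

set_option autoImplicit false

namespace Fermat.Agent.HT

open MvPolynomial

variable {K : Type*} [Field K]

/-- Sup norm of a polynomial given as a sum of monomials with pairwise distinct exponents. -/
theorem htggSup_sum_monomial {σ α : Type*} [Fintype α] (v : AbsoluteValue K ℝ)
    (e : α → σ →₀ ℕ) (he : Function.Injective e) (c : α → K) :
    htggSup v (∑ p, monomial (e p) (c p)) = ⨆ p, v (c p) := by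
  classical
  have hcoeff : ∀ p, coeff (e p) (∑ p, monomial (e p) (c p)) = c p := fun p => by
    rw [coeff_sum, Finset.sum_eq_single p]
    · simp
    · intro p' _ hne
      rw [coeff_monomial, if_neg]
      exact fun h => hne (he h)
    · intro h; exact absurd (Finset.mem_univ p) h
  refine le_antisymm (htggSup_le v _ fun m => ?_) ?_
  · by_cases h : ∃ p, e p = m
    · obtain ⟨p, rfl⟩ := h
      rw [hcoeff]
      exact Finite.le_ciSup (fun p => v (c p)) p
    · rw [coeff_sum, Finset.sum_eq_zero, map_zero]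
      · exact Real.iSup_nonneg fun p => v.nonneg _
      · intro p _
        rw [coeff_monomial, if_neg]
        exact fun hh => h ⟨p, hh⟩
  · refine Real.iSup_le (fun p => ?_) (htggSup_nonneg v _)
    rw [← hcoeff p]
    exact htgg_le_sup v _ _

variable {ι : Type*} [Fintype ι]

/-- The exponent of the monomial `t_i t'_j`. -/
noncomputable def htggWedgeExp (p : ι × ι) : (ι ⊕ ι) →₀ ℕ :=
  Finsupp.single (Sum.inl p.1) 1 + Finsupp.single (Sum.inr p.2) 1

omit [Fintype ι] in
theorem htggWedgeExp_injective : Function.Injective (htggWedgeExp (ι := ι)) := by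
  classical
  intro p p' h
  have h1 := DFunLike.congr_fun h (Sum.inl p.1)
  have h2 := DFunLike.congr_fun h (Sum.inr p.2)
  simp only [htggWedgeExp, Finsupp.add_apply, Finsupp.single_apply, Sum.inl.injEq, reduceCtorEq,
    if_true, if_false, add_zero, Sum.inr.injEq, zero_add] at h1 h2
  refine Prod.ext ?_ ?_
  · by_contra hne
    rw [if_neg (fun hh => hne hh.symm)] at h1
    exact one_ne_zero h1
  · by_contra hne
    rw [if_neg (fun hh => hne hh.symm)] at h2
    exact one_ne_zero h2

/-- The bilinear alternating form `⟨t ∧ t', a ∧ b⟩ = Σ_{i,j} (a_i b_j - a_j b_i) t_i t'_j`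
in the variables `t = inl`, `t' = inr`. -/
noncomputable def htggWedge (a b : ι → K) : MvPolynomial (ι ⊕ ι) K :=
  ∑ p : ι × ι, monomial (htggWedgeExp p) (a p.1 * b p.2 - a p.2 * b p.1)

omit [Fintype ι] in
theorem htgg_monomial_wedge (i j : ι) (c : K) :
    monomial (htggWedgeExp (i, j)) c = C c * X (Sum.inl i) * X (Sum.inr j) := by
  unfold htggWedgeExp
  rw [monomial_single_add, ← C_mul_X_pow_eq_monomial, pow_one, pow_one]
  ring

/-- The two linear forms `⟨t, a⟩` (left variables) and `⟨t', a⟩` (right variables). -/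
noncomputable def htggLinL (a : ι → K) : MvPolynomial (ι ⊕ ι) K := ∑ i, C (a i) * X (Sum.inl i)

/-- See `htggLinL`. -/
noncomputable def htggLinR (a : ι → K) : MvPolynomial (ι ⊕ ι) K := ∑ i, C (a i) * X (Sum.inr i)

theorem htggWedge_eq (a b : ι → K) :
    htggWedge a b = htggLinL a * htggLinR b - htggLinR a * htggLinL b := by
  unfold htggWedge htggLinL htggLinR
  rw [Fintype.sum_prod_type, Finset.sum_mul_sum, Finset.sum_mul_sum]
  have hswap : (∑ i, ∑ j, C (a i) * X (Sum.inr i) * (C (b j) * X (Sum.inl j)) :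
      MvPolynomial (ι ⊕ ι) K) = ∑ i, ∑ j, C (a j) * X (Sum.inr j) * (C (b i) * X (Sum.inl i)) :=
    Finset.sum_comm
  rw [hswap, ← Finset.sum_sub_distrib]
  refine Finset.sum_congr rfl fun i _ => ?_
  rw [← Finset.sum_sub_distrib]
  refine Finset.sum_congr rfl fun j _ => ?_
  rw [htgg_monomial_wedge]
  simp only [map_sub, map_mul]
  ring

theorem htggWedge_eval (a b : ι → K) (t t' : ι → K) :
    eval (Sum.elim t t') (htggWedge a b) =
      (∑ i, a i * t i) * (∑ j, b j * t' j) - (∑ i, a i * t' i) * (∑ j, b j * t j) := by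
  rw [htggWedge_eq]
  simp [htggLinL, htggLinR]

/-- The sup norm of `⟨t ∧ t', a ∧ b⟩` is the sup norm of the 2×2 minors of `(a, b)`. -/
theorem htggSup_wedge (v : AbsoluteValue K ℝ) (a b : ι → K) :
    htggSup v (htggWedge a b) = ⨆ p : ι × ι, v (a p.1 * b p.2 - a p.2 * b p.1) :=
  htggSup_sum_monomial v htggWedgeExp htggWedgeExp_injective _

theorem htggWedge_degreeOf_le (a b : ι → K) (k : ι ⊕ ι) : (htggWedge a b).degreeOf k ≤ 1 := by
  classical
  unfold htggWedge
  refine (degreeOf_sum_le k _ _).trans ?_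
  refine Finset.sup_le fun p _ => ?_
  rw [degreeOf_eq_sup]
  refine Finset.sup_le fun m hm => ?_
  have hm' := support_monomial_subset hm
  rw [Finset.mem_singleton] at hm'
  subst hm'
  unfold htggWedgeExp
  rcases k with k | k
  · simp only [Finsupp.add_apply, Finsupp.single_apply, reduceCtorEq, if_false, add_zero]
    split_ifs <;> omega
  · simp only [Finsupp.add_apply, Finsupp.single_apply, reduceCtorEq, if_false, zero_add]
    split_ifs <;> omega

/-- Gauss's lemma for the mixed form `∏_P ⟨t ∧ t', a_P ∧ b⟩`: nonarchimedean, exact. -/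
theorem htgg_mixed_nonarch {v : AbsoluteValue K ℝ} (hv : IsNonarchimedean v) {α : Type*}
    (s : Finset α) (a : α → ι → K) (b : α → ι → K) :
    htggSup v (∏ P ∈ s, htggWedge (a P) (b P)) =
      ∏ P ∈ s, ⨆ p : ι × ι, v (a P p.1 * b P p.2 - a P p.2 * b P p.1) := by
  rw [htgg_sup_prod_nonarch hv]
  exact Finset.prod_congr rfl fun P _ => htggSup_wedge v (a P) (b P)

/-- Gelfond for the mixed form: archimedean lower bound. -/
theorem htgg_mixed_ge (φ : K →+* ℂ) {α : Type*} (s : Finset α) (a b : α → ι → K) :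
    ∏ P ∈ s, ⨆ p : ι × ι, NumberField.place φ (a P p.1 * b P p.2 - a P p.2 * b P p.1) ≤
      htggC (Fintype.card (ι ⊕ ι)) s.card ^ s.card *
        htggSup (NumberField.place φ) (∏ P ∈ s, htggWedge (a P) (b P)) := by
  have h := htgg_sup_prod_ge φ s (fun P => htggWedge (a P) (b P)) (d := 1)
    (fun P _ j => htggWedge_degreeOf_le (a P) (b P) j)
  rw [mul_one] at h
  refine le_trans (le_of_eq ?_) h
  exact Finset.prod_congr rfl fun P _ => (htggSup_wedge _ (a P) (b P)).symm

/-- The mixed form: trivial upper bound at any absolute value. -/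
theorem htgg_mixed_le (v : AbsoluteValue K ℝ) {α : Type*} (s : Finset α) (a b : α → ι → K) :
    htggSup v (∏ P ∈ s, htggWedge (a P) (b P)) ≤
      ((2 ^ Fintype.card (ι ⊕ ι) : ℕ) : ℝ) ^ s.card *
        ∏ P ∈ s, ⨆ p : ι × ι, v (a P p.1 * b P p.2 - a P p.2 * b P p.1) := by
  have h := htgg_sup_prod_le v s (fun P => htggWedge (a P) (b P)) (d := 1)
    (fun P _ j => htggWedge_degreeOf_le (a P) (b P) j)
  refine h.trans (le_of_eq ?_)
  congr 1
  exact Finset.prod_congr rfl fun P _ => htggSup_wedge v (a P) (b P)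

end Fermat.Agent.HT
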