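import Fermat.Agent.HT.Loc
import Fermat.Agent.HT.GelfondWedge

/-!
# The Gauss–Gelfond lemma in the local formalism `HtAbs` / `HtConst` (blueprint S17-heights §4.1)

Wrappers of `htgg_sup_prod_*`, `htgg_chow_*`, `htgg_mixed_*` in the shape
`∃ C : HtConst K, ∀ w : HtAbs K, … ≤ C.val w * …` (both inequalities with one constant), for
`Finset` products, `Multiset` products and `Fin D`-indexed products.
-/

namespace Fermat.Agent.HT

open MvPolynomial

variable {K : Type*} [Field K]

/-- An admissible absolute value is nonarchimedean or the place of a complex embedding. -/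
theorem htgg_htabs_cases (w : HtAbs K) :
    IsNonarchimedean w.1 ∨ ∃ φ : K →+* ℂ, w.1 = NumberField.place φ := by
  rcases w.2 with h | ⟨φ, hφ⟩
  · exact Or.inl h
  · refine Or.inr ⟨φ, ?_⟩
    ext a
    rw [hφ a]
    rfl

/-- The place of a complex embedding is not nonarchimedean. -/
theorem htgg_place_not_nonarch (φ : K →+* ℂ) : ¬ IsNonarchimedean (NumberField.place φ) := by
  intro h
  have h2 := h 1 1
  have e1 : NumberField.place φ (1 : K) = 1 := map_one _
  have e2 : NumberField.place φ ((1 : K) + 1) = 2 := by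
    rw [NumberField.place_apply, map_add, map_one]
    norm_num
  rw [e1, e2] at h2
  norm_num at h2

/-- The purely numerical local constant: `1` at nonarchimedean `w`, `M + 1` otherwise. -/
def htggConst (K : Type*) [Field K] (M : ℕ) : HtConst K := ⟨∅, M, 0⟩

theorem htggConst_val_nonarch (M : ℕ) {w : AbsoluteValue K ℝ} (hw : IsNonarchimedean w) :
    (htggConst K M).val w = 1 := by
  simp [htggConst, HtConst.val, hw]

theorem htggConst_val_arch (M : ℕ) {w : AbsoluteValue K ℝ} (hw : ¬ IsNonarchimedean w) :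
    (htggConst K M).val w = ((M + 1 : ℕ) : ℝ) := by
  simp [htggConst, HtConst.val, hw]

theorem htggConst_val_place (M : ℕ) (φ : K →+* ℂ) :
    (htggConst K M).val (NumberField.place φ) = ((M + 1 : ℕ) : ℝ) :=
  htggConst_val_arch M (htgg_place_not_nonarch φ)

/-- Any real number is dominated by some `htggConst` at the archimedean places. -/
theorem htgg_exists_const (c : ℝ) : ∃ M : ℕ, c ≤ ((M + 1 : ℕ) : ℝ) := by
  refine ⟨⌈c⌉₊, ?_⟩
  push_cast
  exact (Nat.le_ceil c).trans (by linarith)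

/-- **Gauss–Gelfond, local formalism, general form**: products of at most `D` polynomials in the
variables `σ`, each of degree at most `d` in every variable. -/
theorem htgg_sup_prod_loc (σ : Type*) [Fintype σ] (K : Type*) [Field K] (D d : ℕ) :
    ∃ C : HtConst K, ∀ (w : HtAbs K) {α : Type*} (s : Finset α), s.card ≤ D →
      ∀ F : α → MvPolynomial σ K, (∀ i ∈ s, ∀ j, (F i).degreeOf j ≤ d) →
      (∏ i ∈ s, htggSup w.1 (F i)) ≤ C.val w.1 * htggSup w.1 (∏ i ∈ s, F i) ∧
      htggSup w.1 (∏ i ∈ s, F i) ≤ C.val w.1 * ∏ i ∈ s, htggSup w.1 (F i) := by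
  obtain ⟨M, hM⟩ := htgg_exists_const
    (max (htggC (Fintype.card σ) (D * d) ^ D) ((((d + 1) ^ Fintype.card σ : ℕ) : ℝ) ^ D))
  refine ⟨htggConst K M, fun w α s hs F hF => ?_⟩
  rcases htgg_htabs_cases w with hna | ⟨φ, hφ⟩
  · rw [htggConst_val_nonarch M hna, one_mul, one_mul, htgg_sup_prod_nonarch hna]
    exact ⟨le_rfl, le_rfl⟩
  · rw [hφ, htggConst_val_place]
    have hsup : 0 ≤ htggSup (NumberField.place φ) (∏ i ∈ s, F i) := htggSup_nonneg _ _
    have hprod : 0 ≤ ∏ i ∈ s, htggSup (NumberField.place φ) (F i) :=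
      Finset.prod_nonneg fun P _ => htggSup_nonneg _ _
    constructor
    · refine (htgg_sup_prod_ge φ s F hF).trans (mul_le_mul_of_nonneg_right ?_ hsup)
      refine le_trans ?_ ((le_max_left _ _).trans hM)
      calc htggC (Fintype.card σ) (s.card * d) ^ s.card
          ≤ htggC (Fintype.card σ) (D * d) ^ s.card :=
            pow_le_pow_left₀ (htggC_pos _ _).le (htggC_mono _ (Nat.mul_le_mul_right d hs)) _
        _ ≤ htggC (Fintype.card σ) (D * d) ^ D := pow_le_pow_right₀ (htggC_one_le _ _) hs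
    · refine (htgg_sup_prod_le _ s F hF).trans (mul_le_mul_of_nonneg_right ?_ hprod)
      refine le_trans ?_ ((le_max_right _ _).trans hM)
      refine pow_le_pow_right₀ ?_ hs
      exact_mod_cast Nat.one_le_pow _ _ (Nat.succ_pos d)

/-- **Gauss–Gelfond, local formalism, two factors.** -/
theorem htgg_sup_mul_loc (σ : Type*) [Fintype σ] (K : Type*) [Field K] (d : ℕ) :
    ∃ C : HtConst K, ∀ (w : HtAbs K) (f g : MvPolynomial σ K),
      (∀ j, f.degreeOf j ≤ d) → (∀ j, g.degreeOf j ≤ d) →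
      htggSup w.1 f * htggSup w.1 g ≤ C.val w.1 * htggSup w.1 (f * g) ∧
      htggSup w.1 (f * g) ≤ C.val w.1 * (htggSup w.1 f * htggSup w.1 g) := by
  obtain ⟨C, hC⟩ := htgg_sup_prod_loc σ K 2 d
  refine ⟨C, fun w f g hf hg => ?_⟩
  have h := hC w (Finset.univ : Finset (Fin 2)) (by simp) ![f, g] (by
    intro i _ j
    fin_cases i
    · exact hf j
    · exact hg j)
  simpa [Fin.prod_univ_two] using h

variable {ι : Type*} [Fintype ι]

/-- **Gauss–Gelfond for Chow forms, local formalism** (blueprint §4.1): products of at most `D`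
linear forms in the variables `ι`. Both inequalities, one constant. -/
theorem htgg_chow_loc (ι : Type*) [Fintype ι] (K : Type*) [Field K] (D : ℕ) :
    ∃ C : HtConst K, ∀ (w : HtAbs K) {α : Type*} (s : Finset α), s.card ≤ D → ∀ a : α → ι → K,
      (∏ P ∈ s, ⨆ i, w.1 (a P i)) ≤ C.val w.1 * htggSup w.1 (∏ P ∈ s, htggLin (a P)) ∧
      htggSup w.1 (∏ P ∈ s, htggLin (a P)) ≤ C.val w.1 * ∏ P ∈ s, ⨆ i, w.1 (a P i) := by
  obtain ⟨C, hC⟩ := htgg_sup_prod_loc ι K D 1
  refine ⟨C, fun w α s hs a => ?_⟩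
  have h := hC w s hs (fun P => htggLin (a P)) (fun P _ j => htggLin_degreeOf_le (a P) j)
  simpa only [htggSup_lin] using h

/-- The same for a `Multiset` of points (zeros counted with multiplicity). -/
theorem htgg_chow_loc_multiset (ι : Type*) [Fintype ι] (K : Type*) [Field K] (D : ℕ) :
    ∃ C : HtConst K, ∀ (w : HtAbs K) {α : Type*} (Z : Multiset α), Z.card ≤ D → ∀ a : α → ι → K,
      (Z.map fun P => ⨆ i, w.1 (a P i)).prod ≤
          C.val w.1 * htggSup w.1 (Z.map fun P => htggLin (a P)).prod ∧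
      htggSup w.1 (Z.map fun P => htggLin (a P)).prod ≤
          C.val w.1 * (Z.map fun P => ⨆ i, w.1 (a P i)).prod := by
  obtain ⟨C, hC⟩ := htgg_chow_loc ι K D
  refine ⟨C, fun w α Z hZ a => ?_⟩
  induction Z using Quotient.inductionOn with
  | _ l =>
    have hl : l.length ≤ D := by simpa using hZ
    have h := hC w (Finset.univ : Finset (Fin l.length)) (by simpa using hl) (fun i => a l[i.1])
    rw [Fin.prod_univ_fun_getElem l (fun P => ⨆ i, w.1 (a P i)),
      Fin.prod_univ_fun_getElem l (fun P => htggLin (a P))] at h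
    simpa using h

/-- The same indexed by `Fin D` (the literal shape of blueprint §4.1). -/
theorem htgg_chow_loc_fin (ι : Type*) [Fintype ι] (K : Type*) [Field K] (D : ℕ) :
    ∃ C : HtConst K, ∀ (w : HtAbs K) (ℓ : Fin D → ι → K),
      (∏ i, htlSup w.1 (ℓ i)) ≤ C.val w.1 * htggSup w.1 (∏ i, htggLin (ℓ i)) ∧
      htggSup w.1 (∏ i, htggLin (ℓ i)) ≤ C.val w.1 * ∏ i, htlSup w.1 (ℓ i) := by
  obtain ⟨C, hC⟩ := htgg_chow_loc ι K D
  exact ⟨C, fun w ℓ => hC w Finset.univ (by simp) ℓ⟩

/-- **Gauss–Gelfond for the mixed forms `∏_P ⟨t ∧ t', a_P ∧ b_P⟩`, local formalism.** -/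
theorem htgg_mixed_loc (ι : Type*) [Fintype ι] (K : Type*) [Field K] (D : ℕ) :
    ∃ C : HtConst K, ∀ (w : HtAbs K) {α : Type*} (s : Finset α), s.card ≤ D → ∀ a b : α → ι → K,
      (∏ P ∈ s, ⨆ p : ι × ι, w.1 (a P p.1 * b P p.2 - a P p.2 * b P p.1)) ≤
          C.val w.1 * htggSup w.1 (∏ P ∈ s, htggWedge (a P) (b P)) ∧
      htggSup w.1 (∏ P ∈ s, htggWedge (a P) (b P)) ≤
          C.val w.1 * ∏ P ∈ s, ⨆ p : ι × ι, w.1 (a P p.1 * b P p.2 - a P p.2 * b P p.1) := by
  obtain ⟨C, hC⟩ := htgg_sup_prod_loc (ι ⊕ ι) K D 1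
  refine ⟨C, fun w α s hs a b => ?_⟩
  have h := hC w s hs (fun P => htggWedge (a P) (b P))
    (fun P _ j => htggWedge_degreeOf_le (a P) (b P) j)
  simpa only [htggSup_wedge] using h

/-- Mixed forms, `Multiset` version. -/
theorem htgg_mixed_loc_multiset (ι : Type*) [Fintype ι] (K : Type*) [Field K] (D : ℕ) :
    ∃ C : HtConst K, ∀ (w : HtAbs K) {α : Type*} (Z : Multiset α), Z.card ≤ D →
      ∀ a b : α → ι → K,
      (Z.map fun P => ⨆ p : ι × ι, w.1 (a P p.1 * b P p.2 - a P p.2 * b P p.1)).prod ≤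
          C.val w.1 * htggSup w.1 (Z.map fun P => htggWedge (a P) (b P)).prod ∧
      htggSup w.1 (Z.map fun P => htggWedge (a P) (b P)).prod ≤
          C.val w.1 *
            (Z.map fun P => ⨆ p : ι × ι, w.1 (a P p.1 * b P p.2 - a P p.2 * b P p.1)).prod := by
  obtain ⟨C, hC⟩ := htgg_mixed_loc ι K D
  refine ⟨C, fun w α Z hZ a b => ?_⟩
  induction Z using Quotient.inductionOn with
  | _ l =>
    have hl : l.length ≤ D := by simpa using hZ
    have h := hC w (Finset.univ : Finset (Fin l.length)) (by simpa using hl)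
      (fun i => a l[i.1]) (fun i => b l[i.1])
    rw [Fin.prod_univ_fun_getElem l
        (fun P => ⨆ p : ι × ι, w.1 (a P p.1 * b P p.2 - a P p.2 * b P p.1)),
      Fin.prod_univ_fun_getElem l (fun P => htggWedge (a P) (b P))] at h
    simpa using h

end Fermat.Agent.HT
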