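/-
Program MW (S17), heights half (A), blueprint S17-heights §1 (helper13):
LOCAL CONSTANTS AND ABSOLUTE VALUES.

* `HtAbs K`   : admissible absolute values on a field `K` (nonarchimedean, or `‖φ ·‖` for a ring
                homomorphism `φ : K →+* ℂ`);
* `HtConst K` : the data of a local constant; `C.val w` its value at an absolute value `w`
                (`= 1` at all nonarchimedean `w` at which the finitely many elements `C.cs` are
                integral);
* calculus of constants, `htl_sum_le`, `htl_eval_le`, `htl_root_le`;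
* sup norm `htlSup`, wedge `htlWedge`, chordal distance `htlDist`.
Prefix `htl` / `Ht`.  Mathlib only.
-/
import Mathlib

set_option autoImplicit false
set_option linter.unusedSectionVars false

noncomputable section

attribute [local instance] Classical.propDecidable

namespace Fermat.Agent.HT

variable {K : Type*} [Field K]

/-! ### Admissible absolute values -/

/-- admissible absolute values: nonarchimedean, or induced by a complex embedding -/
def HtAbs (K : Type*) [Field K] :=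
  {w : AbsoluteValue K ℝ // IsNonarchimedean w ∨ ∃ φ : K →+* ℂ, ∀ a, w a = ‖φ a‖}

instance : CoeOut (HtAbs K) (AbsoluteValue K ℝ) := ⟨Subtype.val⟩

instance : CoeFun (HtAbs K) (fun _ => K → ℝ) := ⟨fun w => w.1⟩

theorem HtAbs.coe_apply (w : HtAbs K) (a : K) : w a = w.1 a := rfl

@[ext] theorem HtAbs.ext {w w' : HtAbs K} (h : w.1 = w'.1) : w = w' := Subtype.ext h

/-- constructor: a nonarchimedean absolute value -/
def HtAbs.ofNonarch (w : AbsoluteValue K ℝ) (hw : IsNonarchimedean w) : HtAbs K := ⟨w, Or.inl hw⟩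

/-- constructor: the absolute value of a complex embedding -/
def HtAbs.ofEmb (φ : K →+* ℂ) : HtAbs K :=
  ⟨NumberField.place φ, Or.inr ⟨φ, fun _ => rfl⟩⟩

theorem HtAbs.ofEmb_apply (φ : K →+* ℂ) (a : K) : HtAbs.ofEmb φ a = ‖φ a‖ := rfl

theorem HtAbs.ofNonarch_apply (w : AbsoluteValue K ℝ) (hw : IsNonarchimedean w) (a : K) :
    HtAbs.ofNonarch w hw a = w a := rfl

/-! ### `c^{[arch]}` -/

open Classical in
/-- `c^{[arch]}` : `1` at a nonarchimedean absolute value, `c` otherwise. -/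
def htlArch (w : AbsoluteValue K ℝ) (c : ℝ) : ℝ := if IsNonarchimedean w then 1 else c

theorem htlArch_of_nonarch {w : AbsoluteValue K ℝ} (hw : IsNonarchimedean w) (c : ℝ) :
    htlArch w c = 1 := if_pos hw

theorem htlArch_of_not_nonarch {w : AbsoluteValue K ℝ} (hw : ¬ IsNonarchimedean w) (c : ℝ) :
    htlArch w c = c := if_neg hw

theorem one_le_htlArch (w : AbsoluteValue K ℝ) {c : ℝ} (hc : 1 ≤ c) : 1 ≤ htlArch w c := by
  unfold htlArch; split_ifs
  · exact le_rfl
  · exact hc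

theorem htlArch_pos (w : AbsoluteValue K ℝ) {c : ℝ} (hc : 0 < c) : 0 < htlArch w c := by
  unfold htlArch; split_ifs
  · exact one_pos
  · exact hc

theorem htlArch_nonneg (w : AbsoluteValue K ℝ) {c : ℝ} (hc : 0 ≤ c) : 0 ≤ htlArch w c := by
  unfold htlArch; split_ifs
  · exact zero_le_one
  · exact hc

theorem htlArch_mono (w : AbsoluteValue K ℝ) {c c' : ℝ} (h : c ≤ c') :
    htlArch w c ≤ htlArch w c' := by
  unfold htlArch; split_ifs
  · exact le_rfl
  · exact h

theorem htlArch_mul (w : AbsoluteValue K ℝ) (c c' : ℝ) :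
    htlArch w (c * c') = htlArch w c * htlArch w c' := by
  unfold htlArch; split_ifs <;> simp

theorem htlArch_pow (w : AbsoluteValue K ℝ) (c : ℝ) (j : ℕ) :
    htlArch w (c ^ j) = htlArch w c ^ j := by
  unfold htlArch; split_ifs <;> simp

theorem htlArch_one (w : AbsoluteValue K ℝ) : htlArch w 1 = 1 := by
  unfold htlArch; split_ifs <;> rfl

theorem htlArch_le_of_one_le (w : AbsoluteValue K ℝ) {c : ℝ} (hc : 1 ≤ c) : htlArch w c ≤ c := by
  unfold htlArch; split_ifs
  · exact hc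
  · exact le_rfl

/-- at an admissible absolute value which is not nonarchimedean, `w n = n` -/
theorem HtAbs.apply_natCast_of_not_nonarch (w : HtAbs K) (hw : ¬ IsNonarchimedean w.1) (n : ℕ) :
    w (n : K) = n := by
  rcases w.2 with h | ⟨φ, hφ⟩
  · exact absurd h hw
  · rw [HtAbs.coe_apply, hφ, map_natCast, Complex.norm_natCast]

/-- `w n ≤ n^{[arch]}` for `n ≥ 1` -/
theorem HtAbs.apply_natCast_le (w : HtAbs K) (n : ℕ) : w (n : K) ≤ htlArch w.1 n := by
  by_cases hw : IsNonarchimedean w.1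
  · rw [htlArch_of_nonarch hw]
    exact hw.apply_natCast_le_one
  · rw [htlArch_of_not_nonarch hw, w.apply_natCast_of_not_nonarch hw]

/-! ### Local constants -/

/-- data of a local constant -/
structure HtConst (K : Type*) [Field K] where
  cs : Finset K
  M : ℕ
  k : ℕ

namespace HtConst

open Classical in
/-- the value of a local constant at an absolute value -/
def val (C : HtConst K) (w : AbsoluteValue K ℝ) : ℝ :=
  (if IsNonarchimedean w then 1 else ((C.M + 1 : ℕ) : ℝ)) * (∏ c ∈ C.cs, max 1 (w c)) ^ C.k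

/-- the finite part of a local constant -/
def fin (C : HtConst K) (w : AbsoluteValue K ℝ) : ℝ := (∏ c ∈ C.cs, max 1 (w c)) ^ C.k

theorem val_eq (C : HtConst K) (w : AbsoluteValue K ℝ) :
    C.val w = htlArch w ((C.M + 1 : ℕ) : ℝ) * C.fin w := rfl

theorem one_le_prod (s : Finset K) (w : AbsoluteValue K ℝ) : 1 ≤ ∏ c ∈ s, max 1 (w c) := by
  induction s using Finset.induction with
  | empty => simp
  | insert a s ha ih =>
    rw [Finset.prod_insert ha]
    exact one_le_mul_of_one_le_of_one_le (le_max_left _ _) ih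

theorem one_le_fin (C : HtConst K) (w : AbsoluteValue K ℝ) : 1 ≤ C.fin w :=
  one_le_pow₀ (one_le_prod _ _)

theorem prod_mono {s t : Finset K} (h : s ⊆ t) (w : AbsoluteValue K ℝ) :
    ∏ c ∈ s, max 1 (w c) ≤ ∏ c ∈ t, max 1 (w c) := by
  rw [← Finset.prod_sdiff h]
  exact le_mul_of_one_le_left (le_trans zero_le_one (one_le_prod s w)) (one_le_prod _ w)

/-- the constant `1` -/
protected def one : HtConst K := ⟨∅, 0, 0⟩

/-- product of two constants -/
protected def mul (C₁ C₂ : HtConst K) : HtConst K :=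
  ⟨C₁.cs ∪ C₂.cs, C₁.M + C₂.M + C₁.M * C₂.M, C₁.k + C₂.k⟩

/-- power of a constant -/
protected def pow (C : HtConst K) (j : ℕ) : HtConst K :=
  ⟨C.cs, (C.M + 1) ^ j - 1, C.k * j⟩

/-- the constant `n^{[arch]}` (more precisely `(n+1)^{[arch]}`) -/
protected def ofNat (n : ℕ) : HtConst K := ⟨∅, n, 0⟩

/-- the constant `max 1 (w a)` -/
protected def ofElem (a : K) : HtConst K := ⟨{a}, 0, 1⟩

/-- the constant `∏_{a ∈ s} max 1 (w a)` -/
protected def ofFinset (s : Finset K) : HtConst K := ⟨s, 0, 1⟩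

end HtConst

/-- **`1 ≤ C.val w`** -/
theorem htl_one_le_val (C : HtConst K) (w : AbsoluteValue K ℝ) : 1 ≤ C.val w := by
  rw [HtConst.val_eq]
  have h1 : (1 : ℝ) ≤ htlArch w ((C.M + 1 : ℕ) : ℝ) := one_le_htlArch w (by exact_mod_cast Nat.le_add_left 1 C.M)
  exact one_le_mul_of_one_le_of_one_le h1 (C.one_le_fin w)

theorem htl_val_pos (C : HtConst K) (w : AbsoluteValue K ℝ) : 0 < C.val w :=
  lt_of_lt_of_le one_pos (htl_one_le_val C w)

theorem htl_val_nonneg (C : HtConst K) (w : AbsoluteValue K ℝ) : 0 ≤ C.val w :=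
  (htl_val_pos C w).le

theorem htl_val_ne_zero (C : HtConst K) (w : AbsoluteValue K ℝ) : C.val w ≠ 0 :=
  (htl_val_pos C w).ne'

theorem htl_le_val_mul (C : HtConst K) (w : AbsoluteValue K ℝ) {x : ℝ} (hx : 0 ≤ x) :
    x ≤ C.val w * x :=
  le_mul_of_one_le_left hx (htl_one_le_val C w)

@[simp] theorem htl_val_one (w : AbsoluteValue K ℝ) : (HtConst.one : HtConst K).val w = 1 := by
  rw [HtConst.val_eq]
  simp [HtConst.one, HtConst.fin, htlArch_one]

theorem htl_val_ofNat (n : ℕ) (w : AbsoluteValue K ℝ) :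
    (HtConst.ofNat n : HtConst K).val w = htlArch w ((n + 1 : ℕ) : ℝ) := by
  rw [HtConst.val_eq]
  simp [HtConst.ofNat, HtConst.fin]

theorem htl_val_ofElem (a : K) (w : AbsoluteValue K ℝ) :
    (HtConst.ofElem a).val w = max 1 (w a) := by
  rw [HtConst.val_eq]
  simp [HtConst.ofElem, HtConst.fin, htlArch_one]

theorem htl_val_ofFinset (s : Finset K) (w : AbsoluteValue K ℝ) :
    (HtConst.ofFinset s).val w = ∏ a ∈ s, max 1 (w a) := by
  rw [HtConst.val_eq]
  simp [HtConst.ofFinset, HtConst.fin, htlArch_one]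

/-- explicit product of constants -/
theorem htl_val_mul_le (C₁ C₂ : HtConst K) (w : AbsoluteValue K ℝ) :
    C₁.val w * C₂.val w ≤ (C₁.mul C₂).val w := by
  rw [HtConst.val_eq, HtConst.val_eq, HtConst.val_eq]
  have hM : (((C₁.mul C₂).M + 1 : ℕ) : ℝ) = ((C₁.M + 1 : ℕ) : ℝ) * ((C₂.M + 1 : ℕ) : ℝ) := by
    simp only [HtConst.mul]; push_cast; ring
  rw [hM, htlArch_mul]
  have hP₁ := HtConst.prod_mono (Finset.subset_union_left (s₁ := C₁.cs) (s₂ := C₂.cs)) w
  have hP₂ := HtConst.prod_mono (Finset.subset_union_right (s₁ := C₁.cs) (s₂ := C₂.cs)) w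
  have h1 : C₁.fin w * C₂.fin w ≤ (C₁.mul C₂).fin w := by
    simp only [HtConst.fin, HtConst.mul, pow_add]
    have h0 : (0 : ℝ) ≤ ∏ c ∈ C₁.cs, max 1 (w c) := le_trans zero_le_one (HtConst.one_le_prod _ _)
    have h0' : (0 : ℝ) ≤ ∏ c ∈ C₂.cs, max 1 (w c) := le_trans zero_le_one (HtConst.one_le_prod _ _)
    gcongr
  have hA₁ : 0 ≤ htlArch w ((C₁.M + 1 : ℕ) : ℝ) := htlArch_nonneg w (by positivity)
  have hA₂ : 0 ≤ htlArch w ((C₂.M + 1 : ℕ) : ℝ) := htlArch_nonneg w (by positivity)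
  calc htlArch w ((C₁.M + 1 : ℕ) : ℝ) * C₁.fin w * (htlArch w ((C₂.M + 1 : ℕ) : ℝ) * C₂.fin w)
      = htlArch w ((C₁.M + 1 : ℕ) : ℝ) * htlArch w ((C₂.M + 1 : ℕ) : ℝ) *
          (C₁.fin w * C₂.fin w) := by ring
    _ ≤ htlArch w ((C₁.M + 1 : ℕ) : ℝ) * htlArch w ((C₂.M + 1 : ℕ) : ℝ) *
          (C₁.mul C₂).fin w := by gcongr

theorem htl_val_le_mul_left (C₁ C₂ : HtConst K) (w : AbsoluteValue K ℝ) :
    C₁.val w ≤ (C₁.mul C₂).val w :=
  le_trans (le_mul_of_one_le_right (htl_val_nonneg C₁ w) (htl_one_le_val C₂ w))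
    (htl_val_mul_le C₁ C₂ w)

theorem htl_val_le_mul_right (C₁ C₂ : HtConst K) (w : AbsoluteValue K ℝ) :
    C₂.val w ≤ (C₁.mul C₂).val w :=
  le_trans (le_mul_of_one_le_left (htl_val_nonneg C₂ w) (htl_one_le_val C₁ w))
    (htl_val_mul_le C₁ C₂ w)

/-- explicit power of a constant -/
theorem htl_val_pow_eq (C : HtConst K) (j : ℕ) (w : AbsoluteValue K ℝ) :
    (C.pow j).val w = C.val w ^ j := by
  rw [HtConst.val_eq, HtConst.val_eq, mul_pow]
  have hM : (((C.pow j).M + 1 : ℕ) : ℝ) = ((C.M + 1 : ℕ) : ℝ) ^ j := by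
    simp only [HtConst.pow]
    rw [Nat.sub_add_cancel (Nat.one_le_pow _ _ (Nat.succ_pos _))]
    push_cast; ring
  rw [hM, htlArch_pow]
  simp only [HtConst.fin, HtConst.pow, pow_mul]

/-- **calculus of constants: product** -/
theorem htl_val_mul (C₁ C₂ : HtConst K) :
    ∃ C₃ : HtConst K, ∀ w : AbsoluteValue K ℝ, C₁.val w * C₂.val w ≤ C₃.val w :=
  ⟨C₁.mul C₂, htl_val_mul_le C₁ C₂⟩

/-- **calculus of constants: power** -/
theorem htl_val_pow (C : HtConst K) (j : ℕ) :
    ∃ C' : HtConst K, ∀ w : AbsoluteValue K ℝ, C.val w ^ j ≤ C'.val w :=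
  ⟨C.pow j, fun w => (htl_val_pow_eq C j w).ge⟩

/-- **calculus of constants: maximum** -/
theorem htl_val_max (C₁ C₂ : HtConst K) :
    ∃ C₃ : HtConst K, ∀ w : AbsoluteValue K ℝ, max (C₁.val w) (C₂.val w) ≤ C₃.val w :=
  ⟨C₁.mul C₂, fun w => max_le (htl_val_le_mul_left C₁ C₂ w) (htl_val_le_mul_right C₁ C₂ w)⟩

/-- a common upper bound for a finite family of constants -/
theorem htl_val_finset {ι : Type*} (s : Finset ι) (C : ι → HtConst K) :
    ∃ C' : HtConst K, ∀ i ∈ s, ∀ w : AbsoluteValue K ℝ, (C i).val w ≤ C'.val w := by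
  classical
  induction s using Finset.induction with
  | empty => exact ⟨HtConst.one, fun i hi => absurd hi (Finset.notMem_empty i)⟩
  | insert a s _ ih =>
    obtain ⟨C', hC'⟩ := ih
    refine ⟨(C a).mul C', fun i hi w => ?_⟩
    rcases Finset.mem_insert.1 hi with rfl | hi
    · exact htl_val_le_mul_left _ _ w
    · exact le_trans (hC' i hi w) (htl_val_le_mul_right _ _ w)

/-- a product of a finite family of constants -/
theorem htl_val_prod {ι : Type*} (s : Finset ι) (C : ι → HtConst K) :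
    ∃ C' : HtConst K, ∀ w : AbsoluteValue K ℝ, ∏ i ∈ s, (C i).val w ≤ C'.val w := by
  classical
  induction s using Finset.induction with
  | empty => exact ⟨HtConst.one, fun w => by simp⟩
  | insert a s ha ih =>
    obtain ⟨C', hC'⟩ := ih
    refine ⟨(C a).mul C', fun w => ?_⟩
    rw [Finset.prod_insert ha]
    exact le_trans (mul_le_mul_of_nonneg_left (hC' w) (htl_val_nonneg _ w))
      (htl_val_mul_le _ _ w)

/-- **every element is bounded by a constant** -/
theorem htl_of_abs (a : K) : ∃ C : HtConst K, ∀ w : AbsoluteValue K ℝ, w a ≤ C.val w :=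
  ⟨HtConst.ofElem a, fun w => by rw [htl_val_ofElem]; exact le_max_right _ _⟩

/-- the same for the inverse: `(w a)⁻¹ ≤ C.val w` for `a ≠ 0` -/
theorem htl_of_abs_inv (a : K) : ∃ C : HtConst K, ∀ w : AbsoluteValue K ℝ, (w a)⁻¹ ≤ C.val w := by
  obtain ⟨C, hC⟩ := htl_of_abs a⁻¹
  exact ⟨C, fun w => by rw [← map_inv₀]; exact hC w⟩

/-- **natural numbers are bounded by a constant** (at admissible absolute values) -/
theorem htl_of_nat (n : ℕ) : ∃ C : HtConst K, ∀ w : HtAbs K, w (n : K) ≤ C.val w :=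
  ⟨HtConst.ofNat n, fun w => by
    rw [htl_val_ofNat]
    exact le_trans (w.apply_natCast_le n) (htlArch_mono _ (by push_cast; linarith))⟩

/-- `n^{[arch]}` is bounded by a constant -/
theorem htl_arch_le_val (n : ℕ) :
    ∃ C : HtConst K, ∀ w : AbsoluteValue K ℝ, htlArch w n ≤ C.val w :=
  ⟨HtConst.ofNat n, fun w => by
    rw [htl_val_ofNat]; exact htlArch_mono _ (by push_cast; linarith)⟩

/-- chaining two estimates -/
theorem htl_trans {C₁ C₂ : HtConst K} {w : AbsoluteValue K ℝ} {a b c : ℝ} (hc : 0 ≤ c)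
    (h₁ : a ≤ C₁.val w * b) (h₂ : b ≤ C₂.val w * c) : a ≤ (C₁.mul C₂).val w * c :=
  calc a ≤ C₁.val w * b := h₁
    _ ≤ C₁.val w * (C₂.val w * c) := mul_le_mul_of_nonneg_left h₂ (htl_val_nonneg _ _)
    _ = (C₁.val w * C₂.val w) * c := by ring
    _ ≤ (C₁.mul C₂).val w * c := mul_le_mul_of_nonneg_right (htl_val_mul_le _ _ _) hc

/-- weakening the constant -/
theorem htl_weaken {C C' : HtConst K} {w : AbsoluteValue K ℝ} {a b : ℝ} (hb : 0 ≤ b)
    (h : a ≤ C.val w * b) (hCC' : C.val w ≤ C'.val w) : a ≤ C'.val w * b :=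
  le_trans h (mul_le_mul_of_nonneg_right hCC' hb)

/-! ### The sup norm of a finite tuple -/

section Sup

variable {ι : Type*} [Finite ι]

/-- the sup norm of a finite tuple -/
def htlSup (w : AbsoluteValue K ℝ) (y : ι → K) : ℝ := ⨆ i, w (y i)

theorem htlSup_def (w : AbsoluteValue K ℝ) (y : ι → K) : htlSup w y = ⨆ i, w (y i) := rfl

theorem htl_le_sup (w : AbsoluteValue K ℝ) (y : ι → K) (i : ι) : w (y i) ≤ htlSup w y :=
  Finite.le_ciSup (fun j => w (y j)) i

theorem htlSup_nonneg (w : AbsoluteValue K ℝ) (y : ι → K) : 0 ≤ htlSup w y :=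
  Real.iSup_nonneg fun _ => w.nonneg _

theorem htlSup_le {w : AbsoluteValue K ℝ} {y : ι → K} {B : ℝ} (hB : 0 ≤ B)
    (h : ∀ i, w (y i) ≤ B) : htlSup w y ≤ B :=
  Real.iSup_le h hB

theorem htlSup_le_iff [Nonempty ι] {w : AbsoluteValue K ℝ} {y : ι → K} {B : ℝ} :
    htlSup w y ≤ B ↔ ∀ i, w (y i) ≤ B :=
  ciSup_le_iff (Finite.bddAbove_range _)

theorem htlSup_le_iff' {w : AbsoluteValue K ℝ} {y : ι → K} {B : ℝ} (hB : 0 ≤ B) :
    htlSup w y ≤ B ↔ ∀ i, w (y i) ≤ B :=
  ⟨fun h i => le_trans (htl_le_sup w y i) h, htlSup_le hB⟩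

theorem htl_exists_eq_sup [Nonempty ι] (w : AbsoluteValue K ℝ) (y : ι → K) :
    ∃ i, htlSup w y = w (y i) := by
  obtain ⟨i, hi⟩ := exists_eq_ciSup_of_finite (f := fun i => w (y i))
  exact ⟨i, hi.symm⟩

theorem htlSup_zero (w : AbsoluteValue K ℝ) : htlSup w (0 : ι → K) = 0 := by
  refine le_antisymm (htlSup_le le_rfl fun i => ?_) (htlSup_nonneg _ _)
  simp

theorem htlSup_eq_zero_iff {w : AbsoluteValue K ℝ} {y : ι → K} : htlSup w y = 0 ↔ y = 0 := by
  constructor
  · intro h
    funext i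
    have h1 : w (y i) ≤ 0 := h ▸ htl_le_sup w y i
    exact (map_eq_zero w).1 (le_antisymm h1 (w.nonneg _))
  · rintro rfl; exact htlSup_zero w

theorem htlSup_pos_iff {w : AbsoluteValue K ℝ} {y : ι → K} : 0 < htlSup w y ↔ y ≠ 0 := by
  rw [lt_iff_le_and_ne, ne_comm, Ne, htlSup_eq_zero_iff]
  exact ⟨fun h => h.2, fun h => ⟨htlSup_nonneg _ _, h⟩⟩

theorem htlSup_smul (w : AbsoluteValue K ℝ) (c : K) (y : ι → K) :
    htlSup w (c • y) = w c * htlSup w y := by
  unfold htlSup
  rw [Real.mul_iSup_of_nonneg (w.nonneg c)]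
  simp only [Pi.smul_apply, smul_eq_mul, map_mul]

theorem htlSup_neg (w : AbsoluteValue K ℝ) (y : ι → K) : htlSup w (-y) = htlSup w y := by
  unfold htlSup; simp only [Pi.neg_apply, map_neg_eq_map]

theorem htlSup_comp_le {ι' : Type*} [Finite ι'] (w : AbsoluteValue K ℝ) (y : ι → K)
    (f : ι' → ι) : htlSup w (y ∘ f) ≤ htlSup w y :=
  htlSup_le (htlSup_nonneg _ _) fun i => htl_le_sup w y (f i)

theorem htlSup_comp_equiv {ι' : Type*} [Finite ι'] (w : AbsoluteValue K ℝ) (y : ι → K)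
    (e : ι' ≃ ι) : htlSup w (y ∘ e) = htlSup w y := by
  refine le_antisymm (htlSup_comp_le w y e) ?_
  refine htlSup_le (htlSup_nonneg _ _) fun i => ?_
  have := htl_le_sup w (y ∘ e) (e.symm i)
  simpa using this

theorem htlSup_mono {w : AbsoluteValue K ℝ} {y y' : ι → K} (h : ∀ i, w (y i) ≤ w (y' i)) :
    htlSup w y ≤ htlSup w y' :=
  htlSup_le (htlSup_nonneg _ _) fun i => le_trans (h i) (htl_le_sup w y' i)

/-- the sup norm of a pointwise product -/
theorem htlSup_mul_le (w : AbsoluteValue K ℝ) (y y' : ι → K) :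
    htlSup w (y * y') ≤ htlSup w y * htlSup w y' := by
  refine htlSup_le (mul_nonneg (htlSup_nonneg _ _) (htlSup_nonneg _ _)) fun i => ?_
  rw [Pi.mul_apply, map_mul]
  exact mul_le_mul (htl_le_sup w y i) (htl_le_sup w y' i) (w.nonneg _) (htlSup_nonneg _ _)

/-- `max 1 ‖y‖ = ‖(1, y)‖`-type statement: a coordinate equal to `1` makes the sup norm `≥ 1` -/
theorem htl_one_le_sup {w : AbsoluteValue K ℝ} {y : ι → K} {i : ι} (hi : y i = 1) :
    1 ≤ htlSup w y := by
  have := htl_le_sup w y i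
  rwa [hi, map_one] at this

end Sup

/-! ### Finite sums -/

section Sum

/-- **the triangle inequality, both cases in one lemma**: `w (∑ a_i) ≤ (card s)^{[arch]} · B`. -/
theorem htl_sum_le (w : AbsoluteValue K ℝ) {ι : Type*} (s : Finset ι) (a : ι → K) {B : ℝ}
    (hB : 0 ≤ B) (h : ∀ i ∈ s, w (a i) ≤ B) :
    w (∑ i ∈ s, a i) ≤ htlArch w s.card * B := by
  by_cases hw : IsNonarchimedean w
  · rw [htlArch_of_nonarch hw, one_mul]
    refine le_trans hw.apply_sum_le (Real.iSup_le (fun i => h i.1 i.2) hB)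
  · rw [htlArch_of_not_nonarch hw]
    refine le_trans (w.sum_le s a) ?_
    calc ∑ i ∈ s, w (a i) ≤ ∑ _i ∈ s, B := Finset.sum_le_sum h
      _ = s.card * B := by rw [Finset.sum_const, nsmul_eq_mul]

/-- the value of a linear form -/
theorem htl_linear_le (w : AbsoluteValue K ℝ) {ι : Type*} [Fintype ι] (a y : ι → K) :
    w (∑ i, a i * y i) ≤ htlArch w (Fintype.card ι) * (htlSup w a * htlSup w y) := by
  refine htl_sum_le w Finset.univ _ (mul_nonneg (htlSup_nonneg _ _) (htlSup_nonneg _ _)) ?_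
  intro i _
  rw [map_mul]
  exact mul_le_mul (htl_le_sup w a i) (htl_le_sup w y i) (w.nonneg _) (htlSup_nonneg _ _)

/-- the two-term case -/
theorem htl_add_le (w : AbsoluteValue K ℝ) (a b : K) :
    w (a + b) ≤ htlArch w 2 * max (w a) (w b) := by
  by_cases hw : IsNonarchimedean w
  · rw [htlArch_of_nonarch hw, one_mul]; exact hw a b
  · rw [htlArch_of_not_nonarch hw]
    have := w.add_le a b
    have h1 := le_max_left (w a) (w b)
    have h2 := le_max_right (w a) (w b)
    linarith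

theorem htl_sub_le (w : AbsoluteValue K ℝ) (a b : K) :
    w (a - b) ≤ htlArch w 2 * max (w a) (w b) := by
  have := htl_add_le w a (-b)
  rwa [map_neg_eq_map, ← sub_eq_add_neg] at this

end Sum

/-! ### Values of polynomials -/

section Eval

open MvPolynomial

/-- every element of a finite set is bounded by the product of the `max 1 (w ·)` -/
theorem htl_le_prod_max (w : AbsoluteValue K ℝ) (s : Finset K) {c : K} (hc : c ∈ s) :
    w c ≤ ∏ c' ∈ s, max 1 (w c') := by
  rw [← Finset.mul_prod_erase s _ hc]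
  calc w c ≤ max 1 (w c) := le_max_right _ _
    _ ≤ max 1 (w c) * ∏ c' ∈ s.erase c, max 1 (w c') :=
      le_mul_of_one_le_right (le_trans zero_le_one (le_max_left _ _)) (HtConst.one_le_prod _ _)

/-- the value of a monomial -/
theorem htl_monomial_le (w : AbsoluteValue K ℝ) {ι : Type*} [Fintype ι] (y : ι → K)
    (d : ι → ℕ) : w (∏ i, y i ^ d i) ≤ htlSup w y ^ (∑ i, d i) := by
  rw [map_prod, ← Finset.prod_pow_eq_pow_sum]
  refine Finset.prod_le_prod (fun i _ => w.nonneg _) fun i _ => ?_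
  rw [map_pow]
  exact pow_le_pow_left₀ (w.nonneg _) (htl_le_sup w y i) _

/-- the total degree of a monomial -/
theorem htl_weight_one {ι : Type*} [Fintype ι] (d : ι →₀ ℕ) :
    Finsupp.weight (1 : ι → ℕ) d = ∑ i, d i := by
  rw [Finsupp.weight_apply, Finsupp.sum_fintype _ _ (fun i => by simp)]
  simp

/-- the constant attached to a polynomial: its coefficients and the number of its monomials -/
def htlPolyConst {σ : Type*} (p : MvPolynomial σ K) : HtConst K :=
  ⟨p.support.image fun d => coeff d p, p.support.card, 1⟩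

theorem htl_val_polyConst {σ : Type*} (p : MvPolynomial σ K) (w : AbsoluteValue K ℝ) :
    (htlPolyConst p).val w = htlArch w ((p.support.card + 1 : ℕ) : ℝ) *
      ∏ c ∈ p.support.image (fun d => coeff d p), max 1 (w c) := by
  rw [HtConst.val_eq]; simp [htlPolyConst, HtConst.fin]

/-- general principle: a bound for all monomials of `p` gives a bound for the value of `p` -/
theorem htl_eval_le_of_monomial_le {σ : Type*} [Fintype σ] (p : MvPolynomial σ K)
    (w : AbsoluteValue K ℝ) (y : σ → K) {B : ℝ} (hB : 0 ≤ B)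
    (h : ∀ d ∈ p.support, w (∏ i, y i ^ d i) ≤ B) :
    w (eval y p) ≤ (htlPolyConst p).val w * B := by
  rw [eval_eq', htl_val_polyConst]
  set P := ∏ c ∈ p.support.image (fun d => coeff d p), max 1 (w c) with hP
  have hP1 : 1 ≤ P := HtConst.one_le_prod _ _
  have h1 : w (∑ d ∈ p.support, coeff d p * ∏ i, y i ^ d i) ≤
      htlArch w p.support.card * (P * B) := by
    refine htl_sum_le w _ _ (mul_nonneg (le_trans zero_le_one hP1) hB) fun d hd => ?_
    rw [map_mul]
    refine mul_le_mul ?_ (h d hd) (w.nonneg _) (le_trans zero_le_one hP1)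
    exact htl_le_prod_max w _ (Finset.mem_image_of_mem _ hd)
  refine le_trans h1 ?_
  rw [← mul_assoc]
  refine mul_le_mul_of_nonneg_right ?_ hB
  refine mul_le_mul_of_nonneg_right (htlArch_mono w ?_) (le_trans zero_le_one hP1)
  push_cast; linarith

/-- **`htl_eval_le`**: a homogeneous polynomial of degree `D` is bounded by `C · ‖y‖^D`. -/
theorem htl_eval_le {ι : Type*} [Finite ι] {p : MvPolynomial ι K} {D : ℕ}
    (hp : p.IsHomogeneous D) :
    ∃ C : HtConst K, ∀ (w : AbsoluteValue K ℝ) (y : ι → K),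
      w (eval y p) ≤ C.val w * htlSup w y ^ D := by
  cases nonempty_fintype ι
  refine ⟨htlPolyConst p, fun w y => ?_⟩
  refine htl_eval_le_of_monomial_le p w y (pow_nonneg (htlSup_nonneg _ _) _) fun d hd => ?_
  have hdeg : ∑ i, d i = D := by
    have := hp (mem_support_iff.1 hd)
    rwa [htl_weight_one] at this
  rw [← hdeg]
  exact htl_monomial_le w y d

/-- explicit form of `htl_eval_le` -/
theorem htl_eval_le' {ι : Type*} [Finite ι] {p : MvPolynomial ι K} {D : ℕ}
    (hp : p.IsHomogeneous D) (w : AbsoluteValue K ℝ) (y : ι → K) :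
    w (eval y p) ≤ (htlPolyConst p).val w * htlSup w y ^ D := by
  cases nonempty_fintype ι
  refine htl_eval_le_of_monomial_le p w y (pow_nonneg (htlSup_nonneg _ _) _) fun d hd => ?_
  have hdeg : ∑ i, d i = D := by
    have := hp (mem_support_iff.1 hd)
    rwa [htl_weight_one] at this
  rw [← hdeg]
  exact htl_monomial_le w y d

/-- the bidegree weight on two groups of variables (definitionally helper26's `htnsBiw`) -/
def htlBiw (ι₁ ι₂ : Type*) : ι₁ ⊕ ι₂ → ℕ × ℕ := Sum.elim (fun _ => (1, 0)) (fun _ => (0, 1))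

theorem htl_weight_biw {ι₁ ι₂ : Type*} [Fintype ι₁] [Fintype ι₂] (d : ι₁ ⊕ ι₂ →₀ ℕ) :
    Finsupp.weight (htlBiw ι₁ ι₂) d = (∑ i, d (Sum.inl i), ∑ j, d (Sum.inr j)) := by
  rw [Finsupp.weight_apply, Finsupp.sum_fintype _ _ (fun i => by simp), Fintype.sum_sum_type]
  simp only [htlBiw, Sum.elim_inl, Sum.elim_inr]
  ext
  · simp [Prod.fst_sum]
  · simp [Prod.snd_sum]

/-- **`htl_eval_le`, bihomogeneous version**: two groups of variables, bidegree `(D₁, D₂)`. -/
theorem htl_eval_le_bi {ι₁ ι₂ : Type*} [Finite ι₁] [Finite ι₂]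
    {p : MvPolynomial (ι₁ ⊕ ι₂) K} {D₁ D₂ : ℕ}
    (hp : IsWeightedHomogeneous (htlBiw ι₁ ι₂) p (D₁, D₂)) (w : AbsoluteValue K ℝ)
    (y₁ : ι₁ → K) (y₂ : ι₂ → K) :
    w (eval (Sum.elim y₁ y₂) p) ≤ (htlPolyConst p).val w * (htlSup w y₁ ^ D₁ * htlSup w y₂ ^ D₂) := by
  cases nonempty_fintype ι₁
  cases nonempty_fintype ι₂
  refine htl_eval_le_of_monomial_le p w _
    (mul_nonneg (pow_nonneg (htlSup_nonneg _ _) _) (pow_nonneg (htlSup_nonneg _ _) _)) fun d hd => ?_
  have hwt := hp (mem_support_iff.1 hd)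
  rw [htl_weight_biw, Prod.mk.injEq] at hwt
  rw [Fintype.prod_sum_type, map_mul, ← hwt.1, ← hwt.2]
  simp only [Sum.elim_inl, Sum.elim_inr]
  exact mul_le_mul (htl_monomial_le w y₁ fun i => d (Sum.inl i))
    (htl_monomial_le w y₂ fun j => d (Sum.inr j)) (w.nonneg _) (pow_nonneg (htlSup_nonneg _ _) _)

/-- existential form of the bihomogeneous bound -/
theorem htl_eval_le_bi' {ι₁ ι₂ : Type*} [Finite ι₁] [Finite ι₂]
    {p : MvPolynomial (ι₁ ⊕ ι₂) K} {D₁ D₂ : ℕ}
    (hp : IsWeightedHomogeneous (htlBiw ι₁ ι₂) p (D₁, D₂)) :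
    ∃ C : HtConst K, ∀ (w : AbsoluteValue K ℝ) (y₁ : ι₁ → K) (y₂ : ι₂ → K),
      w (eval (Sum.elim y₁ y₂) p) ≤ C.val w * (htlSup w y₁ ^ D₁ * htlSup w y₂ ^ D₂) :=
  ⟨htlPolyConst p, htl_eval_le_bi hp⟩

end Eval

/-! ### Roots of monic polynomials -/

section Root

theorem htl_geom_half (M : ℕ) :
    ∑ l ∈ Finset.range M, ((1 : ℝ) / 2) ^ (l + 1) = 1 - (1 / 2) ^ M := by
  induction M with
  | zero => simp
  | succ M ih => rw [Finset.sum_range_succ, ih]; ring

/-- **`htl_root_le`**: if `b^M + c₁ b^{M-1} + … + c_M = 0` and `w c_l ≤ A^l` then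
`w b ≤ 2^{[arch]} · A`. -/
theorem htl_root_le (w : AbsoluteValue K ℝ) {M : ℕ} (c : ℕ → K) (hc0 : c 0 = 1) (b : K)
    (hroot : ∑ l ∈ Finset.range (M + 1), c l * b ^ (M - l) = 0) {A : ℝ} (hA : 0 ≤ A)
    (hc : ∀ l, 1 ≤ l → l ≤ M → w (c l) ≤ A ^ l) : w b ≤ htlArch w 2 * A := by
  -- `b^M = - Σ_{l<M} c_{l+1} b^{M-(l+1)}`
  rw [Finset.sum_range_succ', hc0, one_mul, Nat.sub_zero] at hroot
  have hbM : b ^ M = -∑ l ∈ Finset.range M, c (l + 1) * b ^ (M - (l + 1)) :=
    eq_neg_of_add_eq_zero_right hroot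
  set β := w b with hβ
  have hβ0 : 0 ≤ β := w.nonneg b
  have hterm : ∀ l ∈ Finset.range M, w (c (l + 1) * b ^ (M - (l + 1))) ≤
      A ^ (l + 1) * β ^ (M - (l + 1)) := by
    intro l hl
    rw [map_mul, map_pow]
    have hl' : l + 1 ≤ M := Finset.mem_range.1 hl
    exact mul_le_mul_of_nonneg_right (hc (l + 1) (Nat.le_add_left 1 l) hl') (pow_nonneg hβ0 _)
  have hβM : β ^ M = w (∑ l ∈ Finset.range M, c (l + 1) * b ^ (M - (l + 1))) := by
    rw [hβ, ← map_pow, hbM, map_neg_eq_map]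
  by_contra hcon
  push Not at hcon
  have hapos : 0 ≤ htlArch w 2 * A := mul_nonneg (htlArch_nonneg w (by norm_num)) hA
  have hβpos : 0 < β := lt_of_le_of_lt hapos hcon
  by_cases hw : IsNonarchimedean w
  · rw [htlArch_of_nonarch hw, one_mul] at hcon
    -- every term is `≤ A β^{M-1}`
    rcases Nat.eq_zero_or_pos M with hM | hM
    · subst hM
      simp at hβM
    have hle : β ^ M ≤ A * β ^ (M - 1) := by
      refine le_trans hβM.le ?_
      have := htl_sum_le w (Finset.range M) (fun l => c (l + 1) * b ^ (M - (l + 1)))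
        (B := A * β ^ (M - 1)) (mul_nonneg hA (pow_nonneg hβ0 _)) (fun l hl => by
          refine le_trans (hterm l hl) ?_
          have hl' : l + 1 ≤ M := Finset.mem_range.1 hl
          have h1 : A ^ (l + 1) ≤ A * β ^ l := by
            rw [pow_succ']
            exact mul_le_mul_of_nonneg_left (pow_le_pow_left₀ hA hcon.le l) hA
          calc A ^ (l + 1) * β ^ (M - (l + 1)) ≤ A * β ^ l * β ^ (M - (l + 1)) :=
                mul_le_mul_of_nonneg_right h1 (pow_nonneg hβ0 _)
            _ = A * β ^ (M - 1) := by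
                rw [mul_assoc, ← pow_add]
                congr 2
                omega)
      rwa [htlArch_of_nonarch hw, one_mul] at this
    have hM1 : β ^ M = β * β ^ (M - 1) := by
      rw [← pow_succ']; congr 1; omega
    rw [hM1] at hle
    have := le_of_mul_le_mul_right hle (pow_pos hβpos _)
    linarith
  · rw [htlArch_of_not_nonarch hw] at hcon
    -- `A^l β^{M-l} ≤ β^M / 2^l`
    have hle : β ^ M ≤ ∑ l ∈ Finset.range M, β ^ M * ((1 : ℝ) / 2) ^ (l + 1) := by
      refine le_trans hβM.le ?_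
      refine le_trans (w.sum_le _ _) (Finset.sum_le_sum fun l hl => le_trans (hterm l hl) ?_)
      have hl' : l + 1 ≤ M := Finset.mem_range.1 hl
      have hA2 : A ≤ β * (1 / 2) := by linarith
      have h1 : A ^ (l + 1) ≤ (β * (1 / 2)) ^ (l + 1) := pow_le_pow_left₀ hA hA2 _
      calc A ^ (l + 1) * β ^ (M - (l + 1)) ≤ (β * (1 / 2)) ^ (l + 1) * β ^ (M - (l + 1)) :=
            mul_le_mul_of_nonneg_right h1 (pow_nonneg hβ0 _)
        _ = β ^ M * (1 / 2) ^ (l + 1) := by
            rw [mul_pow, mul_right_comm, ← pow_add]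
            congr 2
            omega
    rw [← Finset.mul_sum, htl_geom_half] at hle
    have hpos : 0 < β ^ M * (1 / 2) ^ M := mul_pos (pow_pos hβpos _) (by positivity)
    nlinarith

/-- polynomial form of `htl_root_le` -/
theorem htl_root_le_poly (w : AbsoluteValue K ℝ) (p : Polynomial K) (hp : p.Monic) (b : K)
    (hb : p.eval b = 0) {A : ℝ} (hA : 0 ≤ A)
    (hc : ∀ l, 1 ≤ l → l ≤ p.natDegree → w (p.coeff (p.natDegree - l)) ≤ A ^ l) :
    w b ≤ htlArch w 2 * A := by
  refine htl_root_le w (M := p.natDegree) (fun l => p.coeff (p.natDegree - l)) ?_ b ?_ hA hc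
  · simp only [Nat.sub_zero]; exact hp.coeff_natDegree
  · rw [Polynomial.eval_eq_sum_range] at hb
    rw [← hb, ← Finset.sum_range_reflect]
    refine Finset.sum_congr rfl fun l hl => ?_
    have hl' : l < p.natDegree + 1 := Finset.mem_range.1 hl
    have h1 : p.natDegree + 1 - 1 - l = p.natDegree - l := by omega
    have h2 : p.natDegree - (p.natDegree - l) = l := by omega
    simp only [h1, h2]

/-- `htl_root_le` as an estimate with a constant: `w b ≤ C.val w · A` -/
theorem htl_root_le_val :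
    ∃ C : HtConst K, ∀ (w : AbsoluteValue K ℝ) (M : ℕ) (c : ℕ → K) (_ : c 0 = 1) (b : K)
      (_ : ∑ l ∈ Finset.range (M + 1), c l * b ^ (M - l) = 0) (A : ℝ) (_ : 0 ≤ A)
      (_ : ∀ l, 1 ≤ l → l ≤ M → w (c l) ≤ A ^ l), w b ≤ C.val w * A := by
  refine ⟨HtConst.ofNat 1, fun w M c hc0 b hroot A hA hc => ?_⟩
  rw [htl_val_ofNat]
  have := htl_root_le w c hc0 b hroot hA hc
  norm_num at this ⊢
  exact this

end Root

/-! ### Wedge and chordal distance -/

section Wedge

variable {ι : Type*}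

/-- the wedge (all `2 × 2` minors) of two tuples -/
def htlWedge (y y' : ι → K) : ι × ι → K := fun p => y p.1 * y' p.2 - y p.2 * y' p.1

theorem htlWedge_apply (y y' : ι → K) (a b : ι) :
    htlWedge y y' (a, b) = y a * y' b - y b * y' a := rfl

@[simp] theorem htlWedge_self (y : ι → K) : htlWedge y y = 0 := by
  funext p; simp [htlWedge, mul_comm]

theorem htlWedge_swap (y y' : ι → K) : htlWedge y' y = -htlWedge y y' := by
  funext p; simp only [htlWedge, Pi.neg_apply]; ring

theorem htlWedge_swap_apply (y y' : ι → K) (p : ι × ι) :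
    htlWedge y y' p.swap = -htlWedge y y' p := by
  simp only [htlWedge, Prod.fst_swap, Prod.snd_swap]; ring

theorem htlWedge_add_left (y₁ y₂ y' : ι → K) :
    htlWedge (y₁ + y₂) y' = htlWedge y₁ y' + htlWedge y₂ y' := by
  funext p; simp only [htlWedge, Pi.add_apply]; ring

theorem htlWedge_add_right (y y₁ y₂ : ι → K) :
    htlWedge y (y₁ + y₂) = htlWedge y y₁ + htlWedge y y₂ := by
  funext p; simp only [htlWedge, Pi.add_apply]; ring

theorem htlWedge_smul_left (c : K) (y y' : ι → K) :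
    htlWedge (c • y) y' = c • htlWedge y y' := by
  funext p; simp only [htlWedge, Pi.smul_apply, smul_eq_mul]; ring

theorem htlWedge_smul_right (c : K) (y y' : ι → K) :
    htlWedge y (c • y') = c • htlWedge y y' := by
  funext p; simp only [htlWedge, Pi.smul_apply, smul_eq_mul]; ring

@[simp] theorem htlWedge_zero_left (y' : ι → K) : htlWedge (0 : ι → K) y' = 0 := by
  funext p; simp [htlWedge]

@[simp] theorem htlWedge_zero_right (y : ι → K) : htlWedge y (0 : ι → K) = 0 := by
  funext p; simp [htlWedge]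

/-- the wedge vanishes iff the tuples are proportional (one direction) -/
theorem htlWedge_smul_self (c : K) (y : ι → K) : htlWedge y (c • y) = 0 := by
  rw [htlWedge_smul_right, htlWedge_self, smul_zero]

/-- if `y' i₀ = 1 = y i₀`-type normalisation: the wedge detects equality.  If the wedge vanishes and
`y i₀ ≠ 0` then `y'` is a multiple of `y`. -/
theorem htl_eq_smul_of_wedge_eq_zero {y y' : ι → K} (h : htlWedge y y' = 0) {i₀ : ι}
    (hi₀ : y i₀ ≠ 0) : y' = (y' i₀ / y i₀) • y := by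
  funext i
  have := congrFun h (i₀, i)
  simp only [htlWedge, Pi.zero_apply] at this
  simp only [Pi.smul_apply, smul_eq_mul]
  field_simp
  linear_combination this

variable [Finite ι]

/-- **the sup norm of the wedge**: `‖y ∧ y'‖ ≤ 2^{[arch]} ‖y‖ ‖y'‖`. -/
theorem htlSup_wedge_le (w : AbsoluteValue K ℝ) (y y' : ι → K) :
    htlSup w (htlWedge y y') ≤ htlArch w 2 * (htlSup w y * htlSup w y') := by
  have hnn : 0 ≤ htlSup w y * htlSup w y' := mul_nonneg (htlSup_nonneg _ _) (htlSup_nonneg _ _)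
  refine htlSup_le (mul_nonneg (htlArch_nonneg w (by norm_num)) hnn) fun p => ?_
  refine le_trans (htl_sub_le w _ _) (mul_le_mul_of_nonneg_left (max_le ?_ ?_)
    (htlArch_nonneg w (by norm_num)))
  · rw [map_mul]
    exact mul_le_mul (htl_le_sup w y _) (htl_le_sup w y' _) (w.nonneg _) (htlSup_nonneg _ _)
  · rw [map_mul]
    exact mul_le_mul (htl_le_sup w y _) (htl_le_sup w y' _) (w.nonneg _) (htlSup_nonneg _ _)

/-- the chordal distance of two tuples (of two points of projective space) -/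
def htlDist (w : AbsoluteValue K ℝ) (y y' : ι → K) : ℝ :=
  htlSup w (htlWedge y y') / (htlSup w y * htlSup w y')

theorem htlDist_nonneg (w : AbsoluteValue K ℝ) (y y' : ι → K) : 0 ≤ htlDist w y y' :=
  div_nonneg (htlSup_nonneg _ _) (mul_nonneg (htlSup_nonneg _ _) (htlSup_nonneg _ _))

/-- **`δ ≤ 2^{[arch]}`** (`≤ 1` nonarchimedean, `≤ 2` archimedean) -/
theorem htlDist_le (w : AbsoluteValue K ℝ) (y y' : ι → K) : htlDist w y y' ≤ htlArch w 2 := by
  unfold htlDist
  rcases eq_or_lt_of_le (mul_nonneg (htlSup_nonneg w y) (htlSup_nonneg w y')) with h | h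
  · rw [← h, div_zero]; exact htlArch_nonneg w (by norm_num)
  · rw [div_le_iff₀ h]; exact htlSup_wedge_le w y y'

theorem htlDist_le_one {w : AbsoluteValue K ℝ} (hw : IsNonarchimedean w) (y y' : ι → K) :
    htlDist w y y' ≤ 1 := by
  have := htlDist_le w y y'
  rwa [htlArch_of_nonarch hw] at this

theorem htlDist_le_two (w : AbsoluteValue K ℝ) (y y' : ι → K) : htlDist w y y' ≤ 2 :=
  le_trans (htlDist_le w y y') (htlArch_le_of_one_le w (by norm_num))

theorem htlDist_comm (w : AbsoluteValue K ℝ) (y y' : ι → K) :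
    htlDist w y y' = htlDist w y' y := by
  unfold htlDist
  rw [htlWedge_swap y' y, htlSup_neg, mul_comm]

@[simp] theorem htlDist_self (w : AbsoluteValue K ℝ) (y : ι → K) : htlDist w y y = 0 := by
  unfold htlDist; rw [htlWedge_self, htlSup_zero, zero_div]

/-- invariance under scaling the first argument -/
theorem htlDist_smul_left (w : AbsoluteValue K ℝ) {c : K} (hc : c ≠ 0) (y y' : ι → K) :
    htlDist w (c • y) y' = htlDist w y y' := by
  unfold htlDist
  rw [htlWedge_smul_left, htlSup_smul, htlSup_smul, mul_assoc]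
  exact mul_div_mul_left _ _ (w.ne_zero hc)

/-- invariance under scaling the second argument -/
theorem htlDist_smul_right (w : AbsoluteValue K ℝ) {c : K} (hc : c ≠ 0) (y y' : ι → K) :
    htlDist w y (c • y') = htlDist w y y' := by
  rw [htlDist_comm, htlDist_smul_left w hc, htlDist_comm]

/-- the defining relation, without division -/
theorem htlDist_mul (w : AbsoluteValue K ℝ) {y y' : ι → K} (hy : y ≠ 0) (hy' : y' ≠ 0) :
    htlDist w y y' * (htlSup w y * htlSup w y') = htlSup w (htlWedge y y') := by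
  unfold htlDist
  exact div_mul_cancel₀ _ (mul_pos (htlSup_pos_iff.2 hy) (htlSup_pos_iff.2 hy')).ne'

theorem htlDist_eq_zero_iff (w : AbsoluteValue K ℝ) {y y' : ι → K} (hy : y ≠ 0) (hy' : y' ≠ 0) :
    htlDist w y y' = 0 ↔ htlWedge y y' = 0 := by
  have hpos := (mul_pos (htlSup_pos_iff (w := w).2 hy) (htlSup_pos_iff (w := w).2 hy')).ne'
  unfold htlDist
  rw [div_eq_zero_iff, htlSup_eq_zero_iff]
  exact ⟨fun h => h.resolve_right hpos, Or.inl⟩

/-- **a value of a linear form vanishing at `y'`** is bounded by the distance: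
if `∑ a_i y'_i = 0` then `w (∑ a_i y_i) · ‖y'‖ ≤ (card ι)²^{[arch]} ‖a‖ ‖y ∧ y'‖`. -/
theorem htl_linear_le_wedge [Fintype ι] (w : AbsoluteValue K ℝ) (a y y' : ι → K)
    (h : ∑ i, a i * y' i = 0) (j : ι) :
    w (∑ i, a i * y i) * w (y' j) ≤
      htlArch w (Fintype.card ι) * (htlSup w a * htlSup w (htlWedge y y')) := by
  have hid : (∑ i, a i * y i) * y' j = ∑ i, a i * htlWedge y y' (i, j) := by
    have h2 : ∑ i, a i * htlWedge y y' (i, j) =
        (∑ i, a i * y i) * y' j - y j * ∑ i, a i * y' i := by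
      rw [Finset.sum_mul, Finset.mul_sum, ← Finset.sum_sub_distrib]
      refine Finset.sum_congr rfl fun i _ => ?_
      simp only [htlWedge]; ring
    rw [h2, h, mul_zero, sub_zero]
  rw [← map_mul, hid]
  refine htl_sum_le w Finset.univ _ (mul_nonneg (htlSup_nonneg _ _) (htlSup_nonneg _ _)) ?_
  intro i _
  rw [map_mul]
  exact mul_le_mul (htl_le_sup w a i) (htl_le_sup w _ (i, j)) (w.nonneg _) (htlSup_nonneg _ _)

end Wedge

end Fermat.Agent.HT
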