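import Fermat.Agent.HT.Hadamard
import Fermat.Agent.HT.Loc

/-!
# The abstract refined Hadamard inequality in the `HtAbs` / `HtConst` formalism
(S17 heights, blueprint §8.3; owner helper18, prefix `hthl`)

`hthl_det_le` : from the `≤` half of the local decomposition estimate with a local constant
`C : HtConst K`, uniformly in the admissible absolute value `w : HtAbs K`, the Hadamard bound for
all `r × r` minors of the evaluation matrix with ONE local constant `C'`, uniformly in `w`,
in the points (repetitions allowed) and in the index map.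

`hthl_log_le` : the logarithmic form of such a bound when the determinant is nonzero (all the
factors are then automatically positive).
-/

set_option autoImplicit false

namespace Fermat.Agent.HT

open Finset Matrix

variable {K : Type*} [Field K]

/-- the local constant of the Hadamard inequality: `C ^ r * (r! + 1)^{[arch]}` -/
noncomputable def hthlConst (C : HtConst K) (r : ℕ) : HtConst K :=
  (C.pow r).mul (HtConst.ofNat r.factorial)

theorem hthlConst_val_ge (C : HtConst K) (r : ℕ) (w : AbsoluteValue K ℝ) :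
    C.val w ^ r * htlArch w ((r.factorial + 1 : ℕ) : ℝ) ≤ (hthlConst C r).val w := by
  unfold hthlConst
  refine le_trans (le_of_eq ?_) (htl_val_mul_le _ _ w)
  rw [htl_val_pow_eq, htl_val_ofNat]

/-- **Abstract refined Hadamard inequality, `HtAbs`/`HtConst` form.**  The points `Q i` need not
be distinct (for repeated points the determinant vanishes). -/
theorem hthl_det_le {J Pt : Type*} [Fintype J] (ψ : Pt → J → K)
    (dist : AbsoluteValue K ℝ → Pt → Pt → ℝ) (hdist : ∀ w P R, 0 ≤ dist w P R)
    (C : HtConst K)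
    (hstar : ∀ (w : HtAbs K) (s : J → K) (l : Finset Pt) (R : Pt), R ∉ l →
      (∀ P ∈ l, ∑ j, s j * ψ P j = 0) →
      w (∑ j, s j * ψ R j) ≤ C.val w * htlSup w s * htlSup w (ψ R) * ∏ P ∈ l, dist w P R)
    (r : ℕ) (w : HtAbs K) (Q : Fin r → Pt) (c : Fin r → J) :
    w (Matrix.det (Matrix.of fun i a => ψ (Q i) (c a))) ≤
      (hthlConst C r).val w * (∏ i, htlSup w (ψ (Q i))) *
        ∏ i, ∏ k ∈ Finset.univ.filter (· < i), dist w (Q k) (Q i) := by
  have hsup : ∀ i, 0 ≤ htlSup (w : AbsoluteValue K ℝ) (ψ (Q i)) := fun i => htlSup_nonneg _ _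
  have hP1 : 0 ≤ ∏ i, htlSup (w : AbsoluteValue K ℝ) (ψ (Q i)) :=
    Finset.prod_nonneg fun i _ => hsup i
  have hP2 : 0 ≤ ∏ i, ∏ k ∈ Finset.univ.filter (· < i), dist w (Q k) (Q i) :=
    Finset.prod_nonneg fun i _ => Finset.prod_nonneg fun k _ => hdist _ _ _
  by_cases hQ : Function.Injective Q
  · -- distinct points: the abstract inequality
    have hC0 : 0 ≤ C.val w := htl_val_nonneg C w
    have hst : ∀ (s : J → K) (l : Finset Pt) (R : Pt), R ∉ l →
        (∀ P ∈ l, ∑ j, s j * ψ P j = 0) →
        (w : AbsoluteValue K ℝ) (∑ j, s j * ψ R j) ≤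
          C.val w * (⨆ j, (w : AbsoluteValue K ℝ) (s j)) *
            (⨆ j, (w : AbsoluteValue K ℝ) (ψ R j)) * ∏ P ∈ l, dist w P R :=
      fun s l R hR hl => hstar w s l R hR hl
    by_cases hw : IsNonarchimedean (w : AbsoluteValue K ℝ)
    · have h := hthd_det_le_nonarch (w : AbsoluteValue K ℝ) hw ψ (dist w) (hdist w) hC0 hst r Q hQ c
      refine le_trans h ?_
      have hge := hthlConst_val_ge C r (w : AbsoluteValue K ℝ)
      rw [htlArch_of_nonarch hw, mul_one] at hge
      have h1 : C.val w ^ r * (∏ i, ⨆ j, (w : AbsoluteValue K ℝ) (ψ (Q i) j)) ≤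
          (hthlConst C r).val w * ∏ i, htlSup (w : AbsoluteValue K ℝ) (ψ (Q i)) :=
        mul_le_mul_of_nonneg_right hge hP1
      exact mul_le_mul_of_nonneg_right h1 hP2
    · have h := hthd_det_le (w : AbsoluteValue K ℝ) ψ (dist w) (hdist w) hC0 hst r Q hQ c
      refine le_trans h ?_
      have hge := hthlConst_val_ge C r (w : AbsoluteValue K ℝ)
      rw [htlArch_of_not_nonarch hw] at hge
      have hfac : C.val w ^ r * (r.factorial : ℝ) ≤ (hthlConst C r).val w := by
        refine le_trans ?_ hge
        refine mul_le_mul_of_nonneg_left ?_ (pow_nonneg hC0 r)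
        push_cast
        linarith
      have h1 : C.val w ^ r * (r.factorial : ℝ) *
          (∏ i, ⨆ j, (w : AbsoluteValue K ℝ) (ψ (Q i) j)) ≤
          (hthlConst C r).val w * ∏ i, htlSup (w : AbsoluteValue K ℝ) (ψ (Q i)) :=
        mul_le_mul_of_nonneg_right hfac hP1
      exact mul_le_mul_of_nonneg_right h1 hP2
  · -- a repeated point: two equal rows
    have hdet : Matrix.det (Matrix.of fun i a => ψ (Q i) (c a)) = 0 := by
      obtain ⟨i, k, hik, hne⟩ := Function.not_injective_iff.1 hQ
      refine Matrix.det_zero_of_row_eq hne ?_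
      funext a
      simp only [Matrix.of_apply, hik]
    rw [hdet, HtAbs.coe_apply, map_zero]
    exact mul_nonneg (mul_nonneg (htl_val_nonneg _ _) hP1) hP2

end Fermat.Agent.HT
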