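import Fermat.Agent.HT.Loc

/-!
# Logarithmic form of a Hadamard-type bound
(S17 heights, blueprint §8.3/(8.4)(a); owner helper18, prefix `hthg`)

From a multiplicative local bound

  `w d ≤ Cv * ∏ b, ‖ω b‖_w * ∏ i, ∏ k < i, δ_w(y k, y i)`,   `d ≠ 0`,

all factors are positive, hence all the tuples `ω b`, `y k`, `y k ∧ y i` (`k < i`) are nonzero
(`hthg_ne_zero`), and the bound can be written additively (`hthg_log_le`):

  `log w d ≤ log Cv + ∑ b, log ‖ω b‖_w + ∑ i, ∑ k < i, (log ‖y k ∧ y i‖_w - log ‖y k‖_w - log ‖y i‖_w)`.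
-/

set_option autoImplicit false

namespace Fermat.Agent.HT

open Finset

variable {K : Type*} [Field K] {r : ℕ} {J ι : Type*} [Finite J] [Finite ι]

/-- positivity of all the factors of a Hadamard-type bound with nonzero left hand side -/
theorem hthg_pos (w : AbsoluteValue K ℝ) (ω : Fin r → J → K) (y : Fin r → ι → K) {d : K}
    (hd : d ≠ 0) {Cv : ℝ}
    (h : w d ≤ Cv * (∏ b, htlSup w (ω b)) *
      ∏ i, ∏ k ∈ Finset.univ.filter (· < i), htlDist w (y k) (y i)) :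
    (∀ b, 0 < htlSup w (ω b)) ∧
      ∀ i, ∀ k ∈ Finset.univ.filter (· < i), 0 < htlDist w (y k) (y i) := by
  have hwd : 0 < w d := w.pos hd
  have hA0 : 0 ≤ ∏ b, htlSup w (ω b) := Finset.prod_nonneg fun b _ => htlSup_nonneg _ _
  have hB0 : 0 ≤ ∏ i, ∏ k ∈ Finset.univ.filter (· < i), htlDist w (y k) (y i) :=
    Finset.prod_nonneg fun i _ => Finset.prod_nonneg fun k _ => htlDist_nonneg _ _ _
  have hP : 0 < Cv * (∏ b, htlSup w (ω b)) *
      ∏ i, ∏ k ∈ Finset.univ.filter (· < i), htlDist w (y k) (y i) := lt_of_lt_of_le hwd h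
  have hA : (∏ b, htlSup w (ω b)) ≠ 0 := by
    intro h0
    rw [h0, mul_zero, zero_mul] at hP
    exact lt_irrefl _ hP
  have hB : (∏ i, ∏ k ∈ Finset.univ.filter (· < i), htlDist w (y k) (y i)) ≠ 0 := by
    intro h0
    rw [h0, mul_zero] at hP
    exact lt_irrefl _ hP
  refine ⟨fun b => ?_, fun i k hk => ?_⟩
  · exact lt_of_le_of_ne (htlSup_nonneg _ _)
      (Ne.symm (Finset.prod_ne_zero_iff.1 hA b (Finset.mem_univ b)))
  · have h1 := Finset.prod_ne_zero_iff.1 hB i (Finset.mem_univ i)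
    exact lt_of_le_of_ne (htlDist_nonneg _ _ _) (Ne.symm (Finset.prod_ne_zero_iff.1 h1 k hk))

/-- a positive chordal distance: numerator and both norms are positive -/
theorem hthg_dist_pos {w : AbsoluteValue K ℝ} {y y' : ι → K} (h : 0 < htlDist w y y') :
    0 < htlSup w (htlWedge y y') ∧ 0 < htlSup w y ∧ 0 < htlSup w y' := by
  unfold htlDist at h
  have hN : htlSup w (htlWedge y y') ≠ 0 := fun h0 => by
    rw [h0, zero_div] at h; exact lt_irrefl _ h
  have hD : htlSup w y * htlSup w y' ≠ 0 := fun h0 => by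
    rw [h0, div_zero] at h; exact lt_irrefl _ h
  refine ⟨lt_of_le_of_ne (htlSup_nonneg _ _) (Ne.symm hN),
    lt_of_le_of_ne (htlSup_nonneg _ _) (Ne.symm (left_ne_zero_of_mul hD)),
    lt_of_le_of_ne (htlSup_nonneg _ _) (Ne.symm (right_ne_zero_of_mul hD))⟩

/-- **all the tuples occurring in a Hadamard-type bound with `d ≠ 0` are nonzero** -/
theorem hthg_ne_zero (w : AbsoluteValue K ℝ) (ω : Fin r → J → K) (y : Fin r → ι → K) {d : K}
    (hd : d ≠ 0) {Cv : ℝ}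
    (h : w d ≤ Cv * (∏ b, htlSup w (ω b)) *
      ∏ i, ∏ k ∈ Finset.univ.filter (· < i), htlDist w (y k) (y i)) :
    (∀ b, ω b ≠ 0) ∧
      ∀ i k, k < i → htlWedge (y k) (y i) ≠ 0 ∧ y k ≠ 0 ∧ y i ≠ 0 := by
  obtain ⟨h1, h2⟩ := hthg_pos w ω y hd h
  refine ⟨fun b => htlSup_pos_iff.1 (h1 b), fun i k hki => ?_⟩
  obtain ⟨hN, hy, hy'⟩ := hthg_dist_pos (h2 i k (Finset.mem_filter.2 ⟨Finset.mem_univ k, hki⟩))
  exact ⟨htlSup_pos_iff.1 hN, htlSup_pos_iff.1 hy, htlSup_pos_iff.1 hy'⟩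

/-- **logarithmic form of a Hadamard-type bound** -/
theorem hthg_log_le (w : AbsoluteValue K ℝ) (ω : Fin r → J → K) (y : Fin r → ι → K) {d : K}
    (hd : d ≠ 0) {Cv : ℝ} (hCv : 0 < Cv)
    (h : w d ≤ Cv * (∏ b, htlSup w (ω b)) *
      ∏ i, ∏ k ∈ Finset.univ.filter (· < i), htlDist w (y k) (y i)) :
    Real.log (w d) ≤ Real.log Cv + ∑ b, Real.log (htlSup w (ω b)) +
      ∑ i, ∑ k ∈ Finset.univ.filter (· < i),
        (Real.log (htlSup w (htlWedge (y k) (y i))) - Real.log (htlSup w (y k)) -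
          Real.log (htlSup w (y i))) := by
  obtain ⟨h1, h2⟩ := hthg_pos w ω y hd h
  have hwd : 0 < w d := w.pos hd
  have hA : (∏ b, htlSup w (ω b)) ≠ 0 :=
    Finset.prod_ne_zero_iff.2 fun b _ => (h1 b).ne'
  have hB : (∏ i, ∏ k ∈ Finset.univ.filter (· < i), htlDist w (y k) (y i)) ≠ 0 :=
    Finset.prod_ne_zero_iff.2 fun i _ => Finset.prod_ne_zero_iff.2 fun k hk => (h2 i k hk).ne'
  have hlog := Real.log_le_log hwd h
  rw [Real.log_mul (mul_ne_zero hCv.ne' hA) hB, Real.log_mul hCv.ne' hA,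
    Real.log_prod (fun b _ => (h1 b).ne'),
    Real.log_prod (fun i _ => Finset.prod_ne_zero_iff.2 fun k hk => (h2 i k hk).ne')] at hlog
  refine le_trans hlog (le_of_eq ?_)
  congr 1
  refine Finset.sum_congr rfl fun i _ => ?_
  rw [Real.log_prod (fun k hk => (h2 i k hk).ne')]
  refine Finset.sum_congr rfl fun k hk => ?_
  obtain ⟨hN, hy, hy'⟩ := hthg_dist_pos (h2 i k hk)
  unfold htlDist
  rw [Real.log_div hN.ne' (mul_ne_zero hy.ne' hy'.ne'), Real.log_mul hy.ne' hy'.ne']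
  ring

end Fermat.Agent.HT
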