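import Mathlib

/-!
# Abstract refined Hadamard inequality (S17 heights, leaf HT/Hadamard)

One absolute value `v` on a field `K`.  Points `P : Pt` have evaluation vectors `ψ P : J → K`
(`J` indexes a basis of sections); a section is a coefficient vector `s : J → K` with value
`∑ j, s j * ψ P j` at `P`.  If the value at `R` of every section vanishing on a finite set `l`
of points is bounded by `C * |s| * |ψ R| * ∏ P ∈ l, d P R` (the `≤` half of the local
decomposition estimate), then every `r × r` minor of the evaluation matrix at `r` distinct points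
is bounded by `const * ∏ i, |ψ (Q i)| * ∏ k < i, d (Q k) (Q i)`.

Proof: Laplace expansion along the last row; the cofactor vector is a section vanishing at the
first `r` points.
-/

set_option autoImplicit false

namespace Fermat.Agent.HT

open Finset Matrix

variable {K : Type*} [Field K]

/-- The product of the distances over the pairs `k < i`. -/
noncomputable def hthdPairs {Pt : Type*} (d : Pt → Pt → ℝ) {r : ℕ} (Q : Fin r → Pt) : ℝ :=
  ∏ i, ∏ k, if k < i then d (Q k) (Q i) else 1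

theorem hthdPairs_eq_filter {Pt : Type*} (d : Pt → Pt → ℝ) {r : ℕ} (Q : Fin r → Pt) :
    hthdPairs d Q = ∏ i, ∏ k ∈ Finset.univ.filter (· < i), d (Q k) (Q i) := by
  unfold hthdPairs
  refine Finset.prod_congr rfl fun i _ => ?_
  rw [Finset.prod_filter]

theorem hthdPairs_nonneg {Pt : Type*} (d : Pt → Pt → ℝ) (hd : ∀ P R, 0 ≤ d P R) {r : ℕ}
    (Q : Fin r → Pt) : 0 ≤ hthdPairs d Q := by
  unfold hthdPairs
  refine Finset.prod_nonneg fun i _ => Finset.prod_nonneg fun k _ => ?_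
  split_ifs
  · exact hd _ _
  · exact zero_le_one

theorem hthdPairs_succ {Pt : Type*} (d : Pt → Pt → ℝ) {r : ℕ} (Q : Fin (r + 1) → Pt) :
    hthdPairs d Q = hthdPairs d (Q ∘ Fin.castSucc) *
      ∏ k : Fin r, d (Q (Fin.castSucc k)) (Q (Fin.last r)) := by
  unfold hthdPairs
  rw [Fin.prod_univ_castSucc]
  congr 1
  · refine Finset.prod_congr rfl fun i _ => ?_
    rw [Fin.prod_univ_castSucc]
    have h1 : ¬ (Fin.last r < Fin.castSucc i) := not_lt.mpr (Fin.le_last _)
    simp only [h1, if_false, mul_one, Fin.castSucc_lt_castSucc_iff, Function.comp_apply]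
  · rw [Fin.prod_univ_castSucc]
    simp only [Fin.castSucc_lt_last, if_true, lt_self_iff_false, if_false, mul_one]

/-- The constant of the abstract Hadamard inequality. -/
noncomputable def hthdConst (C : ℝ) (κ : ℕ → ℝ) (r : ℕ) : ℝ :=
  ∏ k ∈ Finset.range r, (C * κ (k + 1))

theorem hthdConst_zero (C : ℝ) (κ : ℕ → ℝ) : hthdConst C κ 0 = 1 := by
  simp [hthdConst]

theorem hthdConst_succ (C : ℝ) (κ : ℕ → ℝ) (r : ℕ) :
    hthdConst C κ (r + 1) = hthdConst C κ r * (C * κ (r + 1)) := by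
  simp [hthdConst, Finset.prod_range_succ]

theorem hthdConst_nonneg {C : ℝ} (hC : 0 ≤ C) {κ : ℕ → ℝ} (hκ : ∀ n, 0 ≤ κ n) (r : ℕ) :
    0 ≤ hthdConst C κ r :=
  Finset.prod_nonneg fun _ _ => mul_nonneg hC (hκ _)

theorem hthdConst_nat (C : ℝ) (r : ℕ) :
    hthdConst C (fun n => (n : ℝ)) r = C ^ r * (r.factorial : ℝ) := by
  induction r with
  | zero => simp [hthdConst_zero]
  | succ r ih =>
    rw [hthdConst_succ, ih, Nat.factorial_succ]
    push_cast
    ring

theorem hthdConst_one (C : ℝ) (r : ℕ) : hthdConst C (fun _ => (1 : ℝ)) r = C ^ r := by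
  induction r with
  | zero => simp [hthdConst_zero]
  | succ r ih => rw [hthdConst_succ, ih]; ring

section Core

variable (v : AbsoluteValue K ℝ) {J Pt : Type*} [Fintype J]

/-- The evaluation matrix of the points `Q i` in the coordinates `c a`. -/
def hthdMat (ψ : Pt → J → K) {r : ℕ} (Q : Fin r → Pt) (c : Fin r → J) :
    Matrix (Fin r) (Fin r) K :=
  Matrix.of fun i a => ψ (Q i) (c a)

/-- The cofactor section of the Laplace expansion along the last row. -/
noncomputable def hthdCof (ψ : Pt → J → K) {r : ℕ} (Q : Fin (r + 1) → Pt) (c : Fin (r + 1) → J)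
    (j : J) : K :=
  by classical exact ∑ a : Fin (r + 1), if c a = j then
    (-1) ^ ((Fin.last r : ℕ) + (a : ℕ)) *
      Matrix.det (hthdMat ψ (Q ∘ Fin.castSucc) (c ∘ a.succAbove)) else 0

theorem hthdCof_eval (ψ : Pt → J → K) {r : ℕ} (Q : Fin (r + 1) → Pt) (c : Fin (r + 1) → J)
    (R : Pt) :
    ∑ j, hthdCof ψ Q c j * ψ R j =
      Matrix.det ((hthdMat ψ Q c).updateRow (Fin.last r) (fun a => ψ R (c a))) := by
  classical
  rw [Matrix.det_succ_row _ (Fin.last r)]
  simp only [Matrix.updateRow_self, Matrix.submatrix_updateRow_succAbove]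
  unfold hthdCof
  simp only [Finset.sum_mul]
  rw [Finset.sum_comm]
  refine Finset.sum_congr rfl fun a _ => ?_
  simp only [ite_mul, zero_mul]
  rw [Finset.sum_ite_eq]
  simp only [Finset.mem_univ, if_true]
  have hsub : (hthdMat ψ Q c).submatrix (Fin.last r).succAbove a.succAbove =
      hthdMat ψ (Q ∘ Fin.castSucc) (c ∘ a.succAbove) := by
    ext i b
    simp [hthdMat, Fin.succAbove_last]
  rw [hsub]
  ring

theorem hthdCof_eval_castSucc (ψ : Pt → J → K) {r : ℕ} (Q : Fin (r + 1) → Pt)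
    (c : Fin (r + 1) → J) (i : Fin r) :
    ∑ j, hthdCof ψ Q c j * ψ (Q (Fin.castSucc i)) j = 0 := by
  classical
  rw [hthdCof_eval]
  refine Matrix.det_zero_of_row_eq (i := Fin.last r) (j := Fin.castSucc i)
    (Fin.castSucc_lt_last i).ne' ?_
  ext a
  rw [Matrix.updateRow_self, Matrix.updateRow_ne (Fin.castSucc_lt_last i).ne]
  rfl

theorem hthdCof_eval_last (ψ : Pt → J → K) {r : ℕ} (Q : Fin (r + 1) → Pt)
    (c : Fin (r + 1) → J) :
    ∑ j, hthdCof ψ Q c j * ψ (Q (Fin.last r)) j = Matrix.det (hthdMat ψ Q c) := by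
  classical
  rw [hthdCof_eval]
  congr 1
  exact Matrix.updateRow_eq_self _ _

/-- **Abstract refined Hadamard inequality**, with a general triangle constant `κ`. -/
theorem hthd_core (ψ : Pt → J → K) (d : Pt → Pt → ℝ) (hd : ∀ P R, 0 ≤ d P R)
    {C : ℝ} (hC : 0 ≤ C) (κ : ℕ → ℝ) (hκ0 : ∀ n, 0 ≤ κ n)
    (hκ : ∀ (n : ℕ) (f : Fin n → K) (M : ℝ), 0 ≤ M → (∀ a, v (f a) ≤ M) →
      v (∑ a, f a) ≤ κ n * M)
    (hstar : ∀ (s : J → K) (l : Finset Pt) (R : Pt), R ∉ l →
      (∀ P ∈ l, ∑ j, s j * ψ P j = 0) →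
      v (∑ j, s j * ψ R j) ≤ C * (⨆ j, v (s j)) * (⨆ j, v (ψ R j)) * ∏ P ∈ l, d P R) :
    ∀ (r : ℕ) (Q : Fin r → Pt), Function.Injective Q → ∀ c : Fin r → J,
      v (Matrix.det (hthdMat ψ Q c)) ≤
        hthdConst C κ r * (∏ i, ⨆ j, v (ψ (Q i) j)) * hthdPairs d Q := by
  classical
  intro r
  induction r with
  | zero =>
    intro Q _ c
    simp [hthdConst_zero, hthdPairs]
  | succ r ih =>
    intro Q hQ c
    have hQ' : Function.Injective (Q ∘ Fin.castSucc) :=
      hQ.comp (Fin.castSucc_injective r)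
    set S' : ℝ := ∏ i : Fin r, ⨆ j, v (ψ (Q (Fin.castSucc i)) j) with hS'
    set Slast : ℝ := ⨆ j, v (ψ (Q (Fin.last r)) j) with hSlast
    set D' : ℝ := hthdPairs d (Q ∘ Fin.castSucc) with hD'
    set Dlast : ℝ := ∏ k : Fin r, d (Q (Fin.castSucc k)) (Q (Fin.last r)) with hDlast
    have hS'0 : 0 ≤ S' :=
      Finset.prod_nonneg fun i _ => Real.iSup_nonneg fun j => v.nonneg _
    have hSlast0 : 0 ≤ Slast := Real.iSup_nonneg fun j => v.nonneg _
    have hD'0 : 0 ≤ D' := hthdPairs_nonneg d hd _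
    have hDlast0 : 0 ≤ Dlast := Finset.prod_nonneg fun k _ => hd _ _
    have hc0 : 0 ≤ hthdConst C κ r := hthdConst_nonneg hC hκ0 r
    set M : ℝ := hthdConst C κ r * S' * D' with hM
    have hM0 : 0 ≤ M := mul_nonneg (mul_nonneg hc0 hS'0) hD'0
    -- the cofactor section is small
    have hcof : ∀ j, v (hthdCof ψ Q c j) ≤ κ (r + 1) * M := by
      intro j
      unfold hthdCof
      refine hκ (r + 1) _ M hM0 fun a => ?_
      split_ifs with h
      · rw [map_mul, map_pow, v.map_neg, map_one, one_pow, one_mul]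
        exact ih (Q ∘ Fin.castSucc) hQ' (c ∘ a.succAbove)
      · rw [map_zero]; exact hM0
    have hsup : (⨆ j, v (hthdCof ψ Q c j)) ≤ κ (r + 1) * M :=
      Real.iSup_le hcof (mul_nonneg (hκ0 _) hM0)
    -- apply the hypothesis to the cofactor section
    set l : Finset Pt := Finset.univ.image fun i : Fin r => Q (Fin.castSucc i) with hl
    have hRl : Q (Fin.last r) ∉ l := by
      rw [hl, Finset.mem_image]
      rintro ⟨i, -, hi⟩
      exact (Fin.castSucc_lt_last i).ne (hQ hi)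
    have hvan : ∀ P ∈ l, ∑ j, hthdCof ψ Q c j * ψ P j = 0 := by
      intro P hP
      rw [hl, Finset.mem_image] at hP
      obtain ⟨i, -, rfl⟩ := hP
      exact hthdCof_eval_castSucc ψ Q c i
    have hprod : ∏ P ∈ l, d P (Q (Fin.last r)) = Dlast := by
      rw [hl, Finset.prod_image]
      intro i _ k _ hik
      exact Fin.castSucc_injective r (hQ hik)
    have h1 := hstar (hthdCof ψ Q c) l (Q (Fin.last r)) hRl hvan
    rw [hthdCof_eval_last, hprod] at h1
    have hSprod : (∏ i, ⨆ j, v (ψ (Q i) j)) = S' * Slast := by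
      rw [Fin.prod_univ_castSucc]
    rw [hSprod, hthdPairs_succ, hthdConst_succ]
    calc v (Matrix.det (hthdMat ψ Q c))
        ≤ C * (⨆ j, v (hthdCof ψ Q c j)) * Slast * Dlast := h1
      _ ≤ C * (κ (r + 1) * M) * Slast * Dlast := by
          refine mul_le_mul_of_nonneg_right (mul_le_mul_of_nonneg_right ?_ hSlast0) hDlast0
          exact mul_le_mul_of_nonneg_left hsup hC
      _ = hthdConst C κ r * (C * κ (r + 1)) * (S' * Slast) * (D' * Dlast) := by
          rw [hM]; ring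

end Core

/-- the triangle constant of an arbitrary absolute value -/
theorem hthd_kappa_arch (v : AbsoluteValue K ℝ) (n : ℕ) (f : Fin n → K) (M : ℝ) (_hM : 0 ≤ M)
    (hf : ∀ a, v (f a) ≤ M) : v (∑ a, f a) ≤ (n : ℝ) * M := by
  calc v (∑ a, f a) ≤ ∑ a, v (f a) := v.sum_le _ _
    _ ≤ ∑ _a : Fin n, M := Finset.sum_le_sum fun a _ => hf a
    _ = (n : ℝ) * M := by simp

/-- the triangle constant of a nonarchimedean absolute value -/
theorem hthd_kappa_nonarch {v : AbsoluteValue K ℝ} (hv : IsNonarchimedean v) (n : ℕ)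
    (f : Fin n → K) (M : ℝ) (hM : 0 ≤ M) (hf : ∀ a, v (f a) ≤ M) :
    v (∑ a, f a) ≤ (1 : ℝ) * M := by
  rw [one_mul]
  induction n with
  | zero => simpa using hM
  | succ n ih =>
    rw [Fin.sum_univ_castSucc]
    exact (hv _ _).trans (max_le (ih _ fun a => hf _) (hf _))

section Main

variable (v : AbsoluteValue K ℝ) {J Pt : Type*} [Fintype J]

/-- **Abstract refined Hadamard inequality**, any absolute value: constant `C ^ r * r!`. -/
theorem hthd_det_le (ψ : Pt → J → K) (d : Pt → Pt → ℝ) (hd : ∀ P R, 0 ≤ d P R)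
    {C : ℝ} (hC : 0 ≤ C)
    (hstar : ∀ (s : J → K) (l : Finset Pt) (R : Pt), R ∉ l →
      (∀ P ∈ l, ∑ j, s j * ψ P j = 0) →
      v (∑ j, s j * ψ R j) ≤ C * (⨆ j, v (s j)) * (⨆ j, v (ψ R j)) * ∏ P ∈ l, d P R)
    (r : ℕ) (Q : Fin r → Pt) (hQ : Function.Injective Q) (c : Fin r → J) :
    v (Matrix.det (Matrix.of fun i a => ψ (Q i) (c a))) ≤
      (C ^ r * (r.factorial : ℝ)) * (∏ i, ⨆ j, v (ψ (Q i) j)) *
        ∏ i, ∏ k ∈ Finset.univ.filter (· < i), d (Q k) (Q i) := by
  have h := hthd_core v ψ d hd hC (fun n => (n : ℝ)) (fun n => Nat.cast_nonneg n)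
    (hthd_kappa_arch v) hstar r Q hQ c
  rw [hthdConst_nat, hthdPairs_eq_filter] at h
  exact h

/-- **Abstract refined Hadamard inequality**, nonarchimedean: constant `C ^ r`. -/
theorem hthd_det_le_nonarch (hv : IsNonarchimedean v) (ψ : Pt → J → K) (d : Pt → Pt → ℝ)
    (hd : ∀ P R, 0 ≤ d P R) {C : ℝ} (hC : 0 ≤ C)
    (hstar : ∀ (s : J → K) (l : Finset Pt) (R : Pt), R ∉ l →
      (∀ P ∈ l, ∑ j, s j * ψ P j = 0) →
      v (∑ j, s j * ψ R j) ≤ C * (⨆ j, v (s j)) * (⨆ j, v (ψ R j)) * ∏ P ∈ l, d P R)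
    (r : ℕ) (Q : Fin r → Pt) (hQ : Function.Injective Q) (c : Fin r → J) :
    v (Matrix.det (Matrix.of fun i a => ψ (Q i) (c a))) ≤
      C ^ r * (∏ i, ⨆ j, v (ψ (Q i) j)) *
        ∏ i, ∏ k ∈ Finset.univ.filter (· < i), d (Q k) (Q i) := by
  have h := hthd_core v ψ d hd hC (fun _ => (1 : ℝ)) (fun _ => zero_le_one)
    (hthd_kappa_nonarch hv) hstar r Q hQ c
  rw [hthdConst_one, hthdPairs_eq_filter] at h
  exact h

end Main

section Sections

variable (v : AbsoluteValue K ℝ) {J Pt : Type*} [Fintype J]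

/-- Multilinear expansion of the evaluation determinant of arbitrary sections `s a : J → K`
in terms of the coordinate minors. -/
theorem hthd_det_sections_eq (ψ : Pt → J → K) {r : ℕ} (Q : Fin r → Pt) (s : Fin r → J → K) :
    Matrix.det (Matrix.of fun i a => ∑ j, s a j * ψ (Q i) j) =
      ∑ c : Fin r → J, (∏ a, s a (c a)) * Matrix.det (hthdMat ψ Q c) := by
  classical
  rw [← Matrix.det_transpose]
  have h1 : (Matrix.of fun i a => ∑ j, s a j * ψ (Q i) j)ᵀ =
      fun a => ∑ j, s a j • (fun i => ψ (Q i) j) := by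
    funext a i
    simp [Matrix.transpose_apply, Finset.sum_apply]
  rw [h1]
  have h2 := (Matrix.detRowAlternating (R := K) (n := Fin r)).toMultilinearMap.map_sum
    (fun (a : Fin r) (j : J) => s a j • (fun i => ψ (Q i) j))
  have h2' : Matrix.det (fun a => ∑ j, s a j • (fun i => ψ (Q i) j)) =
      ∑ c : Fin r → J, Matrix.det (fun a => s a (c a) • (fun i => ψ (Q i) (c a))) := h2
  rw [h2']
  refine Finset.sum_congr rfl fun c _ => ?_
  have h3 := (Matrix.detRowAlternating (R := K) (n := Fin r)).toMultilinearMap.map_smul_univ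
    (fun a => s a (c a)) (fun a => (fun i => ψ (Q i) (c a)))
  have h3' : Matrix.det (fun a => s a (c a) • (fun i => ψ (Q i) (c a))) =
      (∏ a, s a (c a)) • Matrix.det (fun a => (fun i => ψ (Q i) (c a))) := h3
  rw [h3', smul_eq_mul]
  congr 1
  rw [← Matrix.det_transpose]
  rfl

/-- Refined Hadamard for arbitrary sections, any absolute value. -/
theorem hthd_det_sections_le (ψ : Pt → J → K) (d : Pt → Pt → ℝ) (hd : ∀ P R, 0 ≤ d P R)
    {C : ℝ} (hC : 0 ≤ C)
    (hstar : ∀ (s : J → K) (l : Finset Pt) (R : Pt), R ∉ l →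
      (∀ P ∈ l, ∑ j, s j * ψ P j = 0) →
      v (∑ j, s j * ψ R j) ≤ C * (⨆ j, v (s j)) * (⨆ j, v (ψ R j)) * ∏ P ∈ l, d P R)
    (r : ℕ) (Q : Fin r → Pt) (hQ : Function.Injective Q) (s : Fin r → J → K) :
    v (Matrix.det (Matrix.of fun i a => ∑ j, s a j * ψ (Q i) j)) ≤
      (∏ a, ∑ j, v (s a j)) * ((C ^ r * (r.factorial : ℝ)) * (∏ i, ⨆ j, v (ψ (Q i) j)) *
        ∏ i, ∏ k ∈ Finset.univ.filter (· < i), d (Q k) (Q i)) := by
  classical
  rw [hthd_det_sections_eq]
  set Bd : ℝ := (C ^ r * (r.factorial : ℝ)) * (∏ i, ⨆ j, v (ψ (Q i) j)) *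
        ∏ i, ∏ k ∈ Finset.univ.filter (· < i), d (Q k) (Q i) with hBd
  calc v (∑ c : Fin r → J, (∏ a, s a (c a)) * Matrix.det (hthdMat ψ Q c))
      ≤ ∑ c : Fin r → J, v ((∏ a, s a (c a)) * Matrix.det (hthdMat ψ Q c)) := v.sum_le _ _
    _ ≤ ∑ c : Fin r → J, (∏ a, v (s a (c a))) * Bd := by
        refine Finset.sum_le_sum fun c _ => ?_
        rw [map_mul, map_prod]
        refine mul_le_mul_of_nonneg_left ?_ (Finset.prod_nonneg fun a _ => v.nonneg _)
        exact hthd_det_le v ψ d hd hC hstar r Q hQ c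
    _ = (∏ a, ∑ j, v (s a j)) * Bd := by
        rw [← Finset.sum_mul, Finset.prod_univ_sum]
        rfl

/-- Refined Hadamard for arbitrary sections, nonarchimedean. -/
theorem hthd_det_sections_le_nonarch (hv : IsNonarchimedean v) (ψ : Pt → J → K)
    (d : Pt → Pt → ℝ) (hd : ∀ P R, 0 ≤ d P R) {C : ℝ} (hC : 0 ≤ C)
    (hstar : ∀ (s : J → K) (l : Finset Pt) (R : Pt), R ∉ l →
      (∀ P ∈ l, ∑ j, s j * ψ P j = 0) →
      v (∑ j, s j * ψ R j) ≤ C * (⨆ j, v (s j)) * (⨆ j, v (ψ R j)) * ∏ P ∈ l, d P R)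
    (r : ℕ) (Q : Fin r → Pt) (hQ : Function.Injective Q) (s : Fin r → J → K) :
    v (Matrix.det (Matrix.of fun i a => ∑ j, s a j * ψ (Q i) j)) ≤
      (∏ a, ⨆ j, v (s a j)) * (C ^ r * (∏ i, ⨆ j, v (ψ (Q i) j)) *
        ∏ i, ∏ k ∈ Finset.univ.filter (· < i), d (Q k) (Q i)) := by
  classical
  rw [hthd_det_sections_eq]
  set Bd : ℝ := C ^ r * (∏ i, ⨆ j, v (ψ (Q i) j)) *
        ∏ i, ∏ k ∈ Finset.univ.filter (· < i), d (Q k) (Q i) with hBd
  have hBd0 : 0 ≤ Bd := by
    refine mul_nonneg (mul_nonneg (pow_nonneg hC _) ?_) ?_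
    · exact Finset.prod_nonneg fun i _ => Real.iSup_nonneg fun j => v.nonneg _
    · exact Finset.prod_nonneg fun i _ => Finset.prod_nonneg fun k _ => hd _ _
  have hS0 : 0 ≤ ∏ a, ⨆ j, v (s a j) :=
    Finset.prod_nonneg fun a _ => Real.iSup_nonneg fun j => v.nonneg _
  refine (IsNonarchimedean.apply_sum_univ_le hv).trans ?_
  refine Real.iSup_le (fun c => ?_) (mul_nonneg hS0 hBd0)
  rw [map_mul, map_prod]
  refine mul_le_mul ?_ (hthd_det_le_nonarch v hv ψ d hd hC hstar r Q hQ c) (v.nonneg _) hS0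
  refine Finset.prod_le_prod (fun a _ => v.nonneg _) fun a _ => ?_
  exact Finite.le_ciSup (fun j => v (s a j)) (c a)

end Sections

end Fermat.Agent.HT
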