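import Mathlib

/-!
# Program MW (S17), leaf (NSS): projective Nullstellensatz certificates

If homogeneous polynomials `p j` of degree `N` (over a field `k`) have no common zero on the cone of
a homogeneous ideal `I`, except the origin, over an algebraically closed extension `K` of `k`, then
there are homogeneous `q (i, j)` of ONE degree `M` over `k` with
`∑ j, q (i, j) * p j ≡ X i ^ (M + N)` modulo `I`.  Evaluated at a point of the cone this is verbatim
the hypothesis of Mathlib's `Height.logHeight_eval_ge`.  Prefix `htns_`.
-/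

noncomputable section

namespace Fermat.Agent.HT

open MvPolynomial

variable {k : Type*} [Field k] {ι ι' : Type*}

/-- homogeneous component of a product with a homogeneous polynomial -/
theorem htns_homogeneousComponent_mul {R : Type*} [CommSemiring R] {N : ℕ} (a p : MvPolynomial ι R)
    (hp : p.IsHomogeneous N) (e : ℕ) (he : N ≤ e) :
    homogeneousComponent e (a * p) = homogeneousComponent (e - N) a * p := by
  classical
  conv_lhs => rw [← sum_homogeneousComponent a, Finset.sum_mul, map_sum]
  have key : ∀ i ∈ Finset.range (a.totalDegree + 1),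
      homogeneousComponent e (homogeneousComponent i a * p) =
        if i = e - N then homogeneousComponent i a * p else 0 := by
    intro i _
    have h1 : (homogeneousComponent i a * p).IsHomogeneous (i + N) :=
      (homogeneousComponent_isHomogeneous i a).mul hp
    rw [homogeneousComponent_of_mem h1]
    by_cases h : i = e - N
    · rw [if_pos h, if_pos (by omega)]
    · rw [if_neg h, if_neg (by omega)]
  rw [Finset.sum_congr rfl key, Finset.sum_ite_eq']
  split_ifs with h
  · rfl
  · rw [Finset.mem_range, not_lt] at h
    rw [homogeneousComponent_eq_zero _ _ (by omega), zero_mul]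

theorem htns_homogeneousComponent_sum_mul {R : Type*} [CommSemiring R] [Fintype ι'] {N : ℕ}
    (a p : ι' → MvPolynomial ι R) (hp : ∀ j, (p j).IsHomogeneous N) (e : ℕ) (he : N ≤ e) :
    homogeneousComponent e (∑ j, a j * p j) = ∑ j, homogeneousComponent (e - N) (a j) * p j := by
  rw [map_sum]
  exact Finset.sum_congr rfl fun j _ => htns_homogeneousComponent_mul (a j) (p j) (hp j) e he

variable {K : Type*} [Field K] [Algebra k K] [IsAlgClosed K] [Finite ι] [Fintype ι']

/-- **Projective Nullstellensatz certificate** on the cone of a homogeneous ideal. -/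
theorem htns_exists_certificate (I : Ideal (MvPolynomial ι k))
    (hI : ∀ f ∈ I, ∀ n, homogeneousComponent n f ∈ I) {N : ℕ} (p : ι' → MvPolynomial ι k)
    (hp : ∀ j, (p j).IsHomogeneous N)
    (hzero : ∀ x : ι → K, (∀ f ∈ I, aeval x f = 0) → (∀ j, aeval x (p j) = 0) → x = 0) :
    ∃ (M : ℕ) (q : ι × ι' → MvPolynomial ι k), (∀ a, (q a).IsHomogeneous M) ∧
      ∀ i, ∑ j, q (i, j) * p j - X i ^ (M + N) ∈ I := by
  classical
  have hfin : Fintype ι := Fintype.ofFinite ι
  set J : Ideal (MvPolynomial ι k) := I ⊔ Ideal.span (Set.range p) with hJ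
  -- every variable lies in the radical of `J`
  have hrad : ∀ i, (X i : MvPolynomial ι k) ∈ J.radical := by
    intro i
    rw [← vanishingIdeal_zeroLocus_eq_radical (K := K) J, mem_vanishingIdeal_iff]
    intro x hx
    have hx0 : x = 0 := by
      apply hzero x
      · intro f hf
        exact hx f (Ideal.mem_sup_left hf)
      · intro j
        exact hx (p j) (Ideal.mem_sup_right (Ideal.subset_span ⟨j, rfl⟩))
    rw [hx0, aeval_X, Pi.zero_apply]
  choose e he using hrad
  -- a common exponent, at least `N`
  set E : ℕ := (Finset.univ.sup e) + N with hE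
  have hpow : ∀ i, (X i : MvPolynomial ι k) ^ E ∈ J := by
    intro i
    have h1 : e i ≤ E := (Finset.le_sup (f := e) (Finset.mem_univ i)).trans (Nat.le_add_right _ _)
    rw [← Nat.sub_add_cancel h1, pow_add]
    exact J.mul_mem_left _ (he i)
  -- split into the `I`-part and the `p`-part
  have hsplit : ∀ i, ∃ (f : MvPolynomial ι k) (a : ι' → MvPolynomial ι k), f ∈ I ∧
      f + ∑ j, a j * p j = X i ^ E := by
    intro i
    obtain ⟨f, hf, g, hg, hfg⟩ := Submodule.mem_sup.mp (hpow i)
    obtain ⟨a, ha⟩ := (Ideal.mem_span_range_iff_exists_fun).mp hg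
    exact ⟨f, a, hf, by rw [ha, hfg]⟩
  choose f a hf hfa using hsplit
  refine ⟨E - N, fun ij => homogeneousComponent (E - N) (a ij.1 ij.2), fun ij =>
    homogeneousComponent_isHomogeneous _ _, fun i => ?_⟩
  have hEN : N ≤ E := Nat.le_add_left _ _
  have h1 := congrArg (homogeneousComponent E) (hfa i)
  rw [map_add, htns_homogeneousComponent_sum_mul (a i) p hp E hEN,
    homogeneousComponent_eq_self (isHomogeneous_X_pow i E)] at h1
  rw [Nat.sub_add_cancel hEN, ← h1]
  have : ∑ j, homogeneousComponent (E - N) (a i j) * p j -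
      (homogeneousComponent E (f i) + ∑ j, homogeneousComponent (E - N) (a i j) * p j) =
      -homogeneousComponent E (f i) := by ring
  rw [this]
  exact I.neg_mem (hI _ (hf i) E)

omit [IsAlgClosed K] [Finite ι] in
/-- the certificate evaluated at a point of the cone, over any `k`-algebra: verbatim the hypothesis
`h` of `Height.logHeight_eval_ge` -/
theorem htns_aeval_certificate {L : Type*} [CommRing L] [Algebra k L]
    (I : Ideal (MvPolynomial ι k)) {M N : ℕ} {q : ι × ι' → MvPolynomial ι k}
    {p : ι' → MvPolynomial ι k} (h : ∀ i, ∑ j, q (i, j) * p j - X i ^ (M + N) ∈ I)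
    (x : ι → L) (hx : ∀ f ∈ I, aeval x f = 0) (i : ι) :
    ∑ j, aeval x (q (i, j)) * aeval x (p j) = x i ^ (M + N) := by
  have h1 := hx _ (h i)
  rw [map_sub, map_sum, map_pow, aeval_X, sub_eq_zero] at h1
  rw [← h1]
  exact Finset.sum_congr rfl fun j _ => (map_mul _ _ _).symm


section numberField

variable {F : Type*} [Field F] [NumberField F] {K : Type*} [Field K] [Algebra F K] [IsAlgClosed K]
  {ι ι' : Type*} [Finite ι] [Fintype ι']

/-- lower height bound on the `F`-points of a projective variety for a base-point-free family of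
forms (`F` a number field; for points over varying extensions use `htns_aeval_certificate`
with an absolute height). -/
theorem htns_logHeight_ge (I : Ideal (MvPolynomial ι F))
    (hI : ∀ f ∈ I, ∀ n, homogeneousComponent n f ∈ I) {N : ℕ} (p : ι' → MvPolynomial ι F)
    (hp : ∀ j, (p j).IsHomogeneous N)
    (hzero : ∀ x : ι → K, (∀ f ∈ I, aeval x f = 0) → (∀ j, aeval x (p j) = 0) → x = 0) :
    ∃ C : ℝ, ∀ x : ι → F, (∀ f ∈ I, eval x f = 0) →
      C + N * Height.logHeight x ≤ Height.logHeight (fun j => eval x (p j)) := by
  obtain ⟨M, q, hq, hcert⟩ := htns_exists_certificate (K := K) I hI p hp hzero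
  obtain ⟨C, hC⟩ := Height.logHeight_eval_ge' (N := N) hq
  refine ⟨C, fun x hx => hC p fun i => ?_⟩
  have h := htns_aeval_certificate (L := F) I hcert x (fun f hf => by
    rw [← hx f hf]; exact (coe_aeval_eq_eval x ▸ rfl)) i
  simpa [aeval_eq_eval] using h

end numberField


section gradedVariant

attribute [local instance] MvPolynomial.gradedAlgebra

variable {k : Type*} [Field k] {ι ι' : Type*} {K : Type*} [Field K] [Algebra k K] [IsAlgClosed K]
  [Finite ι] [Fintype ι']

/-- `htns_exists_certificate` for an ideal that is homogeneous in the sense of Mathlib's graded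
rings (with the local instance `MvPolynomial.gradedAlgebra`). -/
theorem htns_exists_certificate' (I : Ideal (MvPolynomial ι k))
    (hI : I.IsHomogeneous (homogeneousSubmodule ι k)) {N : ℕ} (p : ι' → MvPolynomial ι k)
    (hp : ∀ j, (p j).IsHomogeneous N)
    (hzero : ∀ x : ι → K, (∀ f ∈ I, aeval x f = 0) → (∀ j, aeval x (p j) = 0) → x = 0) :
    ∃ (M : ℕ) (q : ι × ι' → MvPolynomial ι k), (∀ a, (q a).IsHomogeneous M) ∧
      ∀ i, ∑ j, q (i, j) * p j - X i ^ (M + N) ∈ I :=
  htns_exists_certificate (K := K) I (fun _ hf n => homogeneousComponent_mem_of_mem hI hf n) p hp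
    hzero

end gradedVariant

end Fermat.Agent.HT
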