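import Fermat.Agent.HT.Nss

/-!
# Program MW (S17), leaf (NSS), bihomogeneous version

Two groups of variables `ι₁ ⊕ ι₂` (think `P(V) × C`), bidegree = weighted degree for the weight
`htnsBiw` with values in `ℕ × ℕ`.  If bihomogeneous `p j` of bidegree `(a, b)` have no common zero
`(u, y)` with `u ≠ 0` and `y ≠ 0` on the zero locus of a bihomogeneous ideal `I`, there are
bihomogeneous `q ((i, l), j)` of ONE bidegree `(M₁, M₂)` with
`∑ j, q ((i, l), j) * p j ≡ X (inl i) ^ (M₁ + a) * X (inr l) ^ (M₂ + b)` modulo `I`.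
-/

noncomputable section

namespace Fermat.Agent.HT

open MvPolynomial

/-- product with a weighted homogeneous polynomial shifts weighted homogeneous components -/
theorem htns_weightedComponent_mul {σ R M : Type*} [CommSemiring R] [AddCancelCommMonoid M]
    (w : σ → M) {m : M} (a p : MvPolynomial σ R) (hp : IsWeightedHomogeneous w p m) (n : M) :
    weightedHomogeneousComponent w (n + m) (a * p) = weightedHomogeneousComponent w n a * p := by
  classical
  ext d
  rw [coeff_weightedHomogeneousComponent, coeff_mul, coeff_mul]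
  simp only [coeff_weightedHomogeneousComponent]
  split_ifs with h
  · apply Finset.sum_congr rfl
    intro x hx
    by_cases hp0 : coeff x.2 p = 0
    · simp [hp0]
    · have hx2 := hp hp0
      have hd : x.1 + x.2 = d := Finset.HasAntidiagonal.mem_antidiagonal.mp hx
      have h1 : Finsupp.weight w x.1 = n := by
        have h2 := congrArg (Finsupp.weight w) hd
        rw [map_add, hx2, h] at h2
        exact add_right_cancel h2
      rw [if_pos h1]
  · symm
    apply Finset.sum_eq_zero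
    intro x hx
    by_cases hp0 : coeff x.2 p = 0
    · simp [hp0]
    · have hx2 := hp hp0
      have hd : x.1 + x.2 = d := Finset.HasAntidiagonal.mem_antidiagonal.mp hx
      have h1 : Finsupp.weight w x.1 ≠ n := by
        intro h3
        apply h
        rw [← hd, map_add, hx2, h3]
      rw [if_neg h1, zero_mul]

theorem htns_weightedComponent_sum_mul {σ R M ι' : Type*} [CommSemiring R] [AddCancelCommMonoid M]
    [Fintype ι'] (w : σ → M) {m : M} (a p : ι' → MvPolynomial σ R)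
    (hp : ∀ j, IsWeightedHomogeneous w (p j) m) (n : M) :
    weightedHomogeneousComponent w (n + m) (∑ j, a j * p j) =
      ∑ j, weightedHomogeneousComponent w n (a j) * p j := by
  rw [map_sum]
  exact Finset.sum_congr rfl fun j _ => htns_weightedComponent_mul w (a j) (p j) (hp j) n

/-- the bidegree weight on two groups of variables -/
def htnsBiw (ι₁ ι₂ : Type*) : ι₁ ⊕ ι₂ → ℕ × ℕ := Sum.elim (fun _ => (1, 0)) (fun _ => (0, 1))

variable {k : Type*} [Field k] {ι₁ ι₂ ι' : Type*}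

theorem htns_isBihom_X_mul_X (i : ι₁) (l : ι₂) (A B : ℕ) :
    IsWeightedHomogeneous (htnsBiw ι₁ ι₂)
      ((X (Sum.inl i) : MvPolynomial (ι₁ ⊕ ι₂) k) ^ A * X (Sum.inr l) ^ B) (A, B) := by
  have h1 := ((isWeightedHomogeneous_X k (htnsBiw ι₁ ι₂) (Sum.inl i)).pow A).mul
    ((isWeightedHomogeneous_X k (htnsBiw ι₁ ι₂) (Sum.inr l)).pow B)
  have h2 : A • htnsBiw ι₁ ι₂ (Sum.inl i) + B • htnsBiw ι₁ ι₂ (Sum.inr l) = (A, B) := by
    simp [htnsBiw]
  rwa [h2] at h1

variable {K : Type*} [Field K] [Algebra k K] [IsAlgClosed K] [Finite ι₁] [Finite ι₂] [Fintype ι']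

/-- **Bihomogeneous Nullstellensatz certificate.** -/
theorem htns_exists_bicertificate (I : Ideal (MvPolynomial (ι₁ ⊕ ι₂) k))
    (hI : ∀ f ∈ I, ∀ n : ℕ × ℕ, weightedHomogeneousComponent (htnsBiw ι₁ ι₂) n f ∈ I) {a b : ℕ}
    (p : ι' → MvPolynomial (ι₁ ⊕ ι₂) k)
    (hp : ∀ j, IsWeightedHomogeneous (htnsBiw ι₁ ι₂) (p j) (a, b))
    (hzero : ∀ (u : ι₁ → K) (y : ι₂ → K), (∀ f ∈ I, aeval (Sum.elim u y) f = 0) →
      (∀ j, aeval (Sum.elim u y) (p j) = 0) → u = 0 ∨ y = 0) :
    ∃ (M₁ M₂ : ℕ) (q : (ι₁ × ι₂) × ι' → MvPolynomial (ι₁ ⊕ ι₂) k),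
      (∀ c, IsWeightedHomogeneous (htnsBiw ι₁ ι₂) (q c) (M₁, M₂)) ∧
      ∀ i l, ∑ j, q ((i, l), j) * p j -
        X (Sum.inl i) ^ (M₁ + a) * X (Sum.inr l) ^ (M₂ + b) ∈ I := by
  classical
  have hfin₁ : Fintype ι₁ := Fintype.ofFinite ι₁
  have hfin₂ : Fintype ι₂ := Fintype.ofFinite ι₂
  set J : Ideal (MvPolynomial (ι₁ ⊕ ι₂) k) := I ⊔ Ideal.span (Set.range p) with hJ
  have hrad : ∀ il : ι₁ × ι₂,
      (X (Sum.inl il.1) * X (Sum.inr il.2) : MvPolynomial (ι₁ ⊕ ι₂) k) ∈ J.radical := by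
    intro il
    rw [← vanishingIdeal_zeroLocus_eq_radical (K := K) J, mem_vanishingIdeal_iff]
    intro z hz
    have hz' : Sum.elim (z ∘ Sum.inl) (z ∘ Sum.inr) = z := Sum.elim_comp_inl_inr z
    have h0 := hzero (z ∘ Sum.inl) (z ∘ Sum.inr)
      (fun f hf => by rw [hz']; exact hz f (Ideal.mem_sup_left hf))
      (fun j => by
        rw [hz']; exact hz (p j) (Ideal.mem_sup_right (Ideal.subset_span ⟨j, rfl⟩)))
    rw [map_mul, aeval_X, aeval_X]
    rcases h0 with h0 | h0
    · have := congrFun h0 il.1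
      simp only [Function.comp_apply, Pi.zero_apply] at this
      rw [this, zero_mul]
    · have := congrFun h0 il.2
      simp only [Function.comp_apply, Pi.zero_apply] at this
      rw [this, mul_zero]
  choose e he using hrad
  set E : ℕ := (Finset.univ.sup e) + (a + b) with hE
  have hpow : ∀ il : ι₁ × ι₂,
      (X (Sum.inl il.1) ^ E * X (Sum.inr il.2) ^ E : MvPolynomial (ι₁ ⊕ ι₂) k) ∈ J := by
    intro il
    have h1 : e il ≤ E :=
      (Finset.le_sup (f := e) (Finset.mem_univ il)).trans (Nat.le_add_right _ _)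
    rw [← mul_pow, ← Nat.sub_add_cancel h1, pow_add]
    exact J.mul_mem_left _ (he il)
  have hsplit : ∀ il : ι₁ × ι₂, ∃ (f : MvPolynomial (ι₁ ⊕ ι₂) k)
      (c : ι' → MvPolynomial (ι₁ ⊕ ι₂) k), f ∈ I ∧
      f + ∑ j, c j * p j = X (Sum.inl il.1) ^ E * X (Sum.inr il.2) ^ E := by
    intro il
    obtain ⟨f, hf, g, hg, hfg⟩ := Submodule.mem_sup.mp (hpow il)
    obtain ⟨c, hc⟩ := (Ideal.mem_span_range_iff_exists_fun).mp hg
    exact ⟨f, c, hf, by rw [hc, hfg]⟩
  choose f c hf hfc using hsplit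
  have hEa : a ≤ E := by omega
  have hEb : b ≤ E := by omega
  refine ⟨E - a, E - b, fun ilj =>
    weightedHomogeneousComponent (htnsBiw ι₁ ι₂) (E - a, E - b) (c ilj.1 ilj.2), fun ilj =>
    weightedHomogeneousComponent_isWeightedHomogeneous _ _, fun i l => ?_⟩
  have hsum : ((E - a, E - b) : ℕ × ℕ) + (a, b) = (E, E) := by
    rw [Prod.mk_add_mk, Nat.sub_add_cancel hEa, Nat.sub_add_cancel hEb]
  have h1 := congrArg (weightedHomogeneousComponent (htnsBiw ι₁ ι₂) (E, E)) (hfc (i, l))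
  rw [map_add, ← hsum, htns_weightedComponent_sum_mul (htnsBiw ι₁ ι₂) (c (i, l)) p hp, hsum,
    weightedHomogeneousComponent_eq_self (htns_isBihom_X_mul_X i l E E)] at h1
  rw [Nat.sub_add_cancel hEa, Nat.sub_add_cancel hEb, ← h1]
  have : ∀ s t : MvPolynomial (ι₁ ⊕ ι₂) k, s - (t + s) = -t := fun s t => by ring
  rw [this]
  exact I.neg_mem (hI _ (hf (i, l)) (E, E))


omit [IsAlgClosed K] [Finite ι₁] [Finite ι₂] in
/-- the bihomogeneous certificate evaluated at a point `(u, y)` of the zero locus of `I`, over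
any `k`-algebra -/
theorem htns_aeval_bicertificate {L : Type*} [CommRing L] [Algebra k L]
    (I : Ideal (MvPolynomial (ι₁ ⊕ ι₂) k)) {A B : ℕ}
    {q : (ι₁ × ι₂) × ι' → MvPolynomial (ι₁ ⊕ ι₂) k} {p : ι' → MvPolynomial (ι₁ ⊕ ι₂) k}
    (h : ∀ i l, ∑ j, q ((i, l), j) * p j - X (Sum.inl i) ^ A * X (Sum.inr l) ^ B ∈ I)
    (u : ι₁ → L) (y : ι₂ → L) (hx : ∀ f ∈ I, aeval (Sum.elim u y) f = 0) (i : ι₁) (l : ι₂) :
    ∑ j, aeval (Sum.elim u y) (q ((i, l), j)) * aeval (Sum.elim u y) (p j) = u i ^ A * y l ^ B := by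
  have h1 := hx _ (h i l)
  rw [map_sub, map_sum, map_mul, map_pow, map_pow, aeval_X, aeval_X, sub_eq_zero] at h1
  rw [Sum.elim_inl, Sum.elim_inr] at h1
  rw [← h1]
  exact Finset.sum_congr rfl fun j _ => (map_mul _ _ _).symm

end Fermat.Agent.HT
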